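import Fermat.Agent.Corollaries.WeilC.MainAdd

/-!
# The Artin - Schreier curves `y ^ p - y = f(x)`

Let `F` be a finite field with `q` elements and characteristic `p`, `f` a polynomial over `F` whose
degree is prime to `p`. The number `N` of the solutions of `y ^ p - y = f(x)` in `F` satisfies
`|N - q| ≤ (p - 1) (deg f - 1) √q` (`abs_card_artinSchreier_sub_le`). This is the bound of Hasse
and Weil: the curve has genus `(p - 1) (deg f - 1) / 2` and one point at infinity.
-/

set_option autoImplicit false

namespace Fermat.Agent.Cor.WeilC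

open Polynomial Finset

variable {F : Type*} [Field F] [Fintype F] {p : ℕ} [hp : Fact p.Prime]

/-- The additive map `y ↦ y ^ p - y`. -/
def asHom (F : Type*) [Field F] (p : ℕ) [Fact p.Prime] [CharP F p] : F →+ F where
  toFun y := y ^ p - y
  map_zero' := by rw [zero_pow (Fact.out : p.Prime).ne_zero, sub_zero]
  map_add' x y := by
    rw [add_pow_char]
    ring

omit [Fintype F] in
theorem asHom_apply [CharP F p] (y : F) : asHom F p y = y ^ p - y := rfl

theorem card_ker_asHom_le [CharP F p] : Nat.card (asHom F p).ker ≤ p := by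
  classical
  have h1 : (X ^ p - X : F[X]).natDegree = p :=
    FiniteField.X_pow_card_sub_X_natDegree_eq F hp.out.one_lt
  have h0 : (X ^ p - X : F[X]) ≠ 0 := by
    intro h
    rw [h, natDegree_zero] at h1
    exact hp.out.ne_zero h1.symm
  have h2 : Nat.card (asHom F p).ker = #{y : F | y ^ p - y = 0} := by
    rw [← Fintype.card_subtype, ← Nat.card_eq_fintype_card]
    rfl
  rw [h2]
  have h3 : ({y : F | y ^ p - y = 0} : Finset F) ⊆ (X ^ p - X : F[X]).roots.toFinset := by
    intro y hy
    rw [Multiset.mem_toFinset, mem_roots h0, IsRoot.def, eval_sub, eval_pow, eval_X]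
    exact (Finset.mem_filter.1 hy).2
  refine (Finset.card_le_card h3).trans ((Multiset.toFinset_card_le _).trans ?_)
  refine (card_roots' _).trans ?_
  rw [h1]

theorem range_asHom [CharP F p] [Algebra (ZMod p) F] :
    (asHom F p).range = (Algebra.trace (ZMod p) F).toAddMonoidHom.ker ∧
      Nat.card (asHom F p).ker = p := by
  have hle : (asHom F p).range ≤ (Algebra.trace (ZMod p) F).toAddMonoidHom.ker := by
    rintro _ ⟨y, rfl⟩
    rw [AddMonoidHom.mem_ker]
    change Algebra.trace (ZMod p) F (y ^ p - y) = 0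
    have h1 := Algebra.trace_eq_of_algEquiv
      (FiniteField.frobeniusAlgEquivOfAlgebraic (ZMod p) F) y
    rw [FiniteField.coe_frobeniusAlgEquivOfAlgebraic, ZMod.card] at h1
    rw [map_sub, sub_eq_zero]
    exact h1
  have h1 : Nat.card (asHom F p).ker * Nat.card (asHom F p).range = Nat.card F := by
    rw [← AddSubgroup.index_ker, AddSubgroup.card_mul_index]
  have h2 : Nat.card (Algebra.trace (ZMod p) F).toAddMonoidHom.ker * p = Nat.card F := by
    have h3 : Nat.card (Algebra.trace (ZMod p) F).toAddMonoidHom.range = p := by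
      have h4 : (Algebra.trace (ZMod p) F).toAddMonoidHom.range = ⊤ :=
        AddMonoidHom.range_eq_top.2 (Algebra.trace_surjective (ZMod p) F)
      rw [h4, AddSubgroup.card_top, Nat.card_zmod]
    rw [← AddSubgroup.card_mul_index (Algebra.trace (ZMod p) F).toAddMonoidHom.ker,
      AddSubgroup.index_ker, h3]
  have h3 : Nat.card (asHom F p).range ≤
      Nat.card (Algebra.trace (ZMod p) F).toAddMonoidHom.ker :=
    AddSubgroup.card_le_of_le hle
  have h4 := card_ker_asHom_le (F := F) (p := p)
  have hpos : 0 < Nat.card (asHom F p).range := Nat.card_pos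
  have hpos' : 0 < Nat.card (Algebra.trace (ZMod p) F).toAddMonoidHom.ker := Nat.card_pos
  have h5 : Nat.card (asHom F p).range =
      Nat.card (Algebra.trace (ZMod p) F).toAddMonoidHom.ker := by
    refine le_antisymm h3 ?_
    refine Nat.le_of_mul_le_mul_left ?_ hp.out.pos
    calc p * Nat.card (Algebra.trace (ZMod p) F).toAddMonoidHom.ker = Nat.card F := by
          rw [mul_comm, h2]
      _ = Nat.card (asHom F p).ker * Nat.card (asHom F p).range := h1.symm
      _ ≤ p * Nat.card (asHom F p).range := Nat.mul_le_mul_right _ h4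
  refine ⟨AddSubgroup.eq_of_le_of_card_ge hle h5.ge, ?_⟩
  rw [h5] at h1
  exact Nat.eq_of_mul_eq_mul_right hpos' (by rw [h1, mul_comm, h2])

/-- The equation `y ^ p - y = v` has `p` solutions if the trace of `v` is zero, and none
otherwise. -/
theorem card_asHom_eq [DecidableEq F] [CharP F p] [Algebra (ZMod p) F] (v : F) :
    #{y : F | y ^ p - y = v} = if Algebra.trace (ZMod p) F v = 0 then p else 0 := by
  obtain ⟨hr, hk⟩ := range_asHom (F := F) (p := p)
  have hv : v ∈ (asHom F p).range ↔ Algebra.trace (ZMod p) F v = 0 := by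
    rw [hr, AddMonoidHom.mem_ker]
    rfl
  split_ifs with h
  · obtain ⟨y₀, hy₀⟩ := hv.2 h
    have h2 : Nat.card (asHom F p).ker = #{y : F | y ^ p - y = 0} := by
      rw [← Fintype.card_subtype, ← Nat.card_eq_fintype_card]
      rfl
    refine Eq.trans ?_ (h2.symm.trans hk)
    refine Finset.card_bij' (fun y _ => y - y₀) (fun z _ => z + y₀) ?_ ?_ ?_ ?_
    · intro y hy
      rw [Finset.mem_filter] at hy ⊢
      refine ⟨Finset.mem_univ _, ?_⟩
      rw [← asHom_apply, map_sub, hy₀, asHom_apply, hy.2, sub_self]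
    · intro z hz
      rw [Finset.mem_filter] at hz ⊢
      refine ⟨Finset.mem_univ _, ?_⟩
      rw [← asHom_apply, map_add, hy₀, asHom_apply, hz.2, zero_add]
    · intro y _
      exact sub_add_cancel _ _
    · intro z _
      exact add_sub_cancel_right _ _
  · rw [Finset.card_eq_zero, Finset.filter_eq_empty_iff]
    exact fun y _ hy => h (hv.1 ⟨y, hy⟩)

/-- **The bound of Hasse and Weil for the Artin - Schreier curves `y ^ p - y = f(x)`.** -/
theorem abs_card_artinSchreier_sub_le [DecidableEq F] [CharP F p] {f : F[X]}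
    (hf : ¬ p ∣ f.natDegree) :
    |(#{P : F × F | P.2 ^ p - P.2 = f.eval P.1} : ℝ) - Fintype.card F| ≤
      ((p : ℝ) - 1) * ((f.natDegree : ℝ) - 1) * √(Fintype.card F) := by
  let _ : Algebra (ZMod p) F := ZMod.algebra F p
  have hf' : (f.natDegree : F) ≠ 0 := fun h => hf ((CharP.cast_eq_zero_iff F p _).1 h)
  have h0 : ZMod.stdAddChar (N := p) ≠ 1 := by
    intro h
    have h3 : ZMod.stdAddChar (N := p) (1 : ZMod p) = 1 := by rw [h, AddChar.one_apply]
    have h5 : (1 : ZMod p) = 0 :=
      ZMod.injective_stdAddChar (N := p) (by rw [h3, AddChar.map_zero_eq_one])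
    exact one_ne_zero h5
  set ψ : AddChar F ℂ := (ZMod.stdAddChar (N := p)).compAddMonoidHom
    (Algebra.trace (ZMod p) F).toAddMonoidHom with hψ
  have hψ1 : ψ ≠ 1 := by
    intro h
    apply h0
    ext x
    obtain ⟨y, rfl⟩ := Algebra.trace_surjective (ZMod p) F x
    have h1 : ψ y = 1 := by rw [h, AddChar.one_apply]
    rw [AddChar.one_apply]
    exact h1
  have h1 : #{P : F × F | P.2 ^ p - P.2 = f.eval P.1} =
      ∑ x : F, if Algebra.trace (ZMod p) F (f.eval x) = 0 then p else 0 := by
    rw [← Finset.sum_congr rfl fun x _ => card_asHom_eq (p := p) (f.eval x)]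
    simp only [Finset.card_filter]
    rw [← Finset.univ_product_univ, Finset.sum_product]
  have h3 : ((#{P : F × F | P.2 ^ p - P.2 = f.eval P.1} : ℝ) - Fintype.card F : ℝ) =
      ∑ c ∈ univ.erase (0 : ZMod p), ∑ x : F, ψ ((C (algebraMap (ZMod p) F c) * f).eval x) := by
    rw [h1]
    push_cast
    have h4 : ∀ x : F, ((if Algebra.trace (ZMod p) F (f.eval x) = 0 then (p : ℝ) else 0 : ℝ) :
        ℂ) =
        ∑ c ∈ univ.erase (0 : ZMod p), ψ ((C (algebraMap (ZMod p) F c) * f).eval x) + 1 :=
      fun x => by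
        have h5 := AddChar.sum_mulShift (ψ := ZMod.stdAddChar (N := p))
          (Algebra.trace (ZMod p) F (f.eval x)) (AddChar.IsPrimitive.of_ne_one h0)
        rw [ZMod.card, Nat.cast_ite, Nat.cast_zero] at h5
        rw [show ((if Algebra.trace (ZMod p) F (f.eval x) = 0 then (p : ℝ) else 0 : ℝ) : ℂ) =
          if Algebra.trace (ZMod p) F (f.eval x) = 0 then (p : ℂ) else 0 by
            split_ifs <;> simp]
        rw [← h5, ← Finset.sum_erase_add _ _ (Finset.mem_univ (0 : ZMod p)), zero_mul,
          AddChar.map_zero_eq_one]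
        congr 1
        refine Finset.sum_congr rfl fun c _ => ?_
        rw [eval_mul, eval_C, ← Algebra.smul_def]
        change _ = ZMod.stdAddChar (N := p) (Algebra.trace (ZMod p) F (c • f.eval x))
        rw [map_smul, smul_eq_mul]
    rw [Finset.sum_congr rfl fun x _ => h4 x, Finset.sum_add_distrib, Finset.sum_comm,
      Finset.sum_const, Finset.card_univ, nsmul_eq_mul, mul_one, add_sub_cancel_right]
  have h5 : ∀ c ∈ univ.erase (0 : ZMod p),
      ‖∑ x : F, ψ ((C (algebraMap (ZMod p) F c) * f).eval x)‖ ≤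
        ((f.natDegree : ℝ) - 1) * √(Fintype.card F) := fun c hc => by
    have hc0 : algebraMap (ZMod p) F c ≠ 0 := by
      rw [Ne, map_eq_zero]
      exact Finset.ne_of_mem_erase hc
    have hd : (C (algebraMap (ZMod p) F c) * f).natDegree = f.natDegree := natDegree_C_mul hc0
    have h6 := norm_expSum_le (C (algebraMap (ZMod p) F c) * f) hψ1 (by rw [hd]; exact hf')
    rw [hd] at h6
    exact h6
  rw [← Real.norm_eq_abs, ← Complex.norm_real]
  push_cast at h3 ⊢
  rw [h3]
  refine (norm_sum_le _ _).trans ((Finset.sum_le_sum h5).trans ?_)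
  rw [Finset.sum_const, Finset.card_erase_of_mem (Finset.mem_univ _), Finset.card_univ,
    ZMod.card, nsmul_eq_mul, Nat.cast_sub hp.out.pos, Nat.cast_one, mul_assoc]

end Fermat.Agent.Cor.WeilC
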