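import Fermat.Agent.Corollaries.WeilC.Defs

/-!
# From Stepanov's bound to character sums

Let `χ` be a character of order `n` of the field `F` with `q` elements, `n h = q - 1`. Then
`χ(y) = w(y ^ h)` and `∑ w(a) = 0`. If `N(a) = #{x : f(x) ^ h = a} ≤ q / n + C √q` for all `a ≠ 0`,
then `∑ |N(a) - q / n|` over `a ^ n = 1` is at most `2 n C √q + deg f`, because
`∑ N(a) = q - #{x : f(x) = 0}`.
-/

set_option autoImplicit false

namespace Fermat.Agent.Cor.WeilC

open Polynomial Finset

universe u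

section

variable {F : Type*} [Field F] [Fintype F] (χ : MulChar F ℂ) {n h : ℕ}

theorem apply_eq_one (hχ : χ ^ n = 1) (hq : n * h + 1 = Fintype.card F) {y : F} (hy : y ^ h = 1)
    (hh : 0 < h) : χ y = 1 := by
  have hy0 : y ≠ 0 := by
    rintro rfl
    rw [zero_pow hh.ne'] at hy
    exact zero_ne_one hy
  classical
  obtain ⟨g, hg⟩ := IsCyclic.exists_generator (α := Fˣ)
  obtain ⟨k, hk⟩ := (mem_powers_iff_mem_zpowers).2 (hg (Units.mk0 y hy0))
  have hk' : g ^ k = Units.mk0 y hy0 := hk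
  have ho : orderOf g = n * h := by
    rw [orderOf_eq_card_of_forall_mem_zpowers hg, Nat.card_eq_fintype_card, Fintype.card_units]
    omega
  have h1 : g ^ (k * h) = 1 := by
    rw [pow_mul, hk']
    ext
    rw [Units.val_pow_eq_pow_val, Units.val_mk0, hy, Units.val_one]
  have h2 : n * h ∣ k * h := by
    rw [← ho]
    exact orderOf_dvd_of_pow_eq_one h1
  obtain ⟨j, hj⟩ := Nat.dvd_of_mul_dvd_mul_right hh h2
  have h3 : y = (g : F) ^ k := by
    rw [← Units.val_pow_eq_pow_val, hk', Units.val_mk0]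
  rw [h3, hj, map_pow, pow_mul, ← MulChar.pow_apply_coe, hχ, MulChar.one_apply_coe, one_pow]

open Classical in
/-- The function with `χ(y) = w(y ^ h)`. -/
noncomputable def w (h : ℕ) (a : F) : ℂ := if H : ∃ y : F, y ≠ 0 ∧ y ^ h = a then χ H.choose else 0

theorem w_pow (hχ : χ ^ n = 1) (hq : n * h + 1 = Fintype.card F) (hh : 0 < h) (y : F) :
    w χ h (y ^ h) = χ y := by
  unfold w
  split_ifs with H
  · obtain ⟨h0, h1⟩ := H.choose_spec
    set z := H.choose with hz
    have hy0 : y ≠ 0 := by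
      rintro rfl
      rw [zero_pow hh.ne'] at h1
      exact h0 (pow_eq_zero_iff hh.ne' |>.1 h1)
    have h2 : (z / y) ^ h = 1 := by
      rw [div_pow, h1, div_self (pow_ne_zero _ hy0)]
    have h3 := apply_eq_one χ hχ hq h2 hh
    rw [show z = z / y * y by rw [div_mul_cancel₀ _ hy0], map_mul, h3, one_mul]
  · have hy0 : y = 0 := by
      by_contra h0
      exact H ⟨y, h0, rfl⟩
    rw [hy0, MulChar.map_zero]

theorem norm_w_le (a : F) : ‖w χ h a‖ ≤ 1 := by
  unfold w
  split_ifs with H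
  · have h0 := H.choose_spec.1
    have h1 : χ H.choose ^ (Fintype.card F - 1) = 1 := by
      rw [← map_pow, FiniteField.pow_card_sub_one_eq_one _ h0, MulChar.map_one]
    have h2 : 1 < Fintype.card F := Fintype.one_lt_card
    exact (Complex.norm_eq_one_of_pow_eq_one h1 (by omega)).le
  · rw [norm_zero]
    exact zero_le_one

theorem sum_w (hχ : χ ^ n = 1) (h1 : χ ≠ 1) (hq : n * h + 1 = Fintype.card F) (hh : 0 < h) :
    ∑ a : F, w χ h a = 0 := by
  obtain ⟨u, hu⟩ := MulChar.ne_one_iff.1 h1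
  have key : ∑ a : F, w χ h a = χ u * ∑ a : F, w χ h a := by
    rw [Finset.mul_sum]
    rw [← Equiv.sum_comp (Equiv.mulRight₀ ((u : F) ^ h) (pow_ne_zero _ u.ne_zero))]
    refine Finset.sum_congr rfl fun a _ => ?_
    change w χ h (a * (u : F) ^ h) = _
    by_cases H : ∃ y : F, y ≠ 0 ∧ y ^ h = a
    · obtain ⟨y, -, rfl⟩ := H
      rw [← mul_pow, w_pow χ hχ hq hh, w_pow χ hχ hq hh, map_mul, mul_comm]
    · have H' : ¬ ∃ y : F, y ≠ 0 ∧ y ^ h = a * (u : F) ^ h := by
        rintro ⟨y, hy0, hy⟩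
        refine H ⟨y / u, div_ne_zero hy0 u.ne_zero, ?_⟩
        rw [div_pow, hy, mul_div_cancel_right₀ _ (pow_ne_zero _ u.ne_zero)]
      rw [w, w, dif_neg H, dif_neg H', mul_zero]
  have : (1 - χ u) * ∑ a : F, w χ h a = 0 := by rw [sub_mul, one_mul, ← key, sub_self]
  exact (mul_eq_zero.1 this).resolve_left (sub_ne_zero.2 (Ne.symm hu))

theorem w_eq_zero (hq : n * h + 1 = Fintype.card F) {a : F} (ha : a ^ n ≠ 1) :
    w χ h a = 0 := by
  rw [w, dif_neg]
  rintro ⟨y, hy0, rfl⟩
  apply ha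
  rw [← pow_mul, mul_comm, show n * h = Fintype.card F - 1 by omega]
  exact FiniteField.pow_card_sub_one_eq_one y hy0

end

/-- The bound for the character sums, from Stepanov's bound. -/
theorem charStmt_of {m n : ℕ} (hn : 1 < n) (hc : m.Coprime n) (hS : StepStmt.{u} m n) :
    CharStmt.{u} m n := by
  classical
  obtain ⟨C, hC0, hC⟩ := hS
  refine ⟨2 * n * C + m, by positivity, fun F _ _ f χ hf hχ => ?_⟩
  have hf0 : f ≠ 0 := by
    rintro rfl
    rw [natDegree_zero] at hf
    subst hf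
    rw [Nat.coprime_zero_left] at hc
    omega
  set q := Fintype.card F with hqdef
  have hq1 : 1 < q := Fintype.one_lt_card
  have hd : n ∣ q - 1 := hχ ▸ MulChar.orderOf_dvd_card_sub_one F χ
  obtain ⟨h, hh⟩ : ∃ h, h = (q - 1) / n := ⟨_, rfl⟩
  have hq : n * h + 1 = q := by
    rw [hh, Nat.mul_div_cancel' hd]
    omega
  have hh0 : 0 < h := by
    rcases Nat.eq_zero_or_pos h with h0 | h0
    · rw [h0] at hq
      omega
    · exact h0
  have hχn : χ ^ n = 1 := by rw [← hχ]; exact pow_orderOf_eq_one χ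
  have hχ1 : χ ≠ 1 := by
    rintro rfl
    rw [orderOf_one] at hχ
    omega
  set N : F → ℕ := fun a => #{x : F | f.eval x ^ h = a} with hN
  set x : ℝ := √(q : ℝ) with hx
  have hx0 : 0 ≤ x := Real.sqrt_nonneg _
  have hx1 : 1 ≤ x := by
    rw [hx, Real.one_le_sqrt]
    exact_mod_cast hq1.le
  have hNle : ∀ a : F, a ≠ 0 → (N a : ℝ) ≤ q / n + C * x := fun a ha => by
    have h1 := hC F f a hf hd ha
    rw [Nat.card_eq_fintype_card, Fintype.card_subtype, ← hqdef, ← hh] at h1
    exact h1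
  set P : Finset F := {a : F | a ^ n = 1} with hP
  have hPn : P.card ≤ n := by
    have h1 : P ⊆ (nthRoots n (1 : F)).toFinset := fun a ha => by
      rw [Multiset.mem_toFinset, mem_nthRoots (by omega)]
      exact (Finset.mem_filter.1 ha).2
    exact (Finset.card_le_card h1).trans
      ((Multiset.toFinset_card_le _).trans (card_nthRoots n 1))
  have hP0 : ∀ a ∈ P, a ≠ 0 := by
    rintro a ha rfl
    have := (Finset.mem_filter.1 ha).2
    rw [zero_pow (by omega)] at this
    exact zero_ne_one this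
  have hsumw : ∑ a ∈ P, w χ h a = 0 := by
    rw [← sum_w χ hχn hχ1 hq hh0]
    refine Finset.sum_subset (Finset.subset_univ _) fun a _ ha => ?_
    exact w_eq_zero χ hq fun h1 => ha (Finset.mem_filter.2 ⟨Finset.mem_univ _, h1⟩)
  have hS1 : ∑ x : F, χ (f.eval x) = ∑ a ∈ P, w χ h a * N a := by
    have h1 : ∑ x : F, χ (f.eval x) = ∑ a : F, w χ h a * N a := by
      rw [← Finset.sum_fiberwise (s := univ) (g := fun x : F => f.eval x ^ h)]
      refine Finset.sum_congr rfl fun a _ => ?_
      rw [hN]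
      simp only
      rw [mul_comm, ← nsmul_eq_mul, ← Finset.sum_const]
      refine Finset.sum_congr rfl fun y hy => ?_
      rw [← (Finset.mem_filter.1 hy).2, w_pow χ hχn hq hh0]
    rw [h1]
    refine (Finset.sum_subset (Finset.subset_univ _) fun a _ ha => ?_).symm
    rw [w_eq_zero χ hq fun h1 => ha (Finset.mem_filter.2 ⟨Finset.mem_univ _, h1⟩), zero_mul]
  have hS2 : ∑ x : F, χ (f.eval x) = ∑ a ∈ P, w χ h a * ((N a : ℝ) - q / n : ℝ) := by
    have h1 : ∑ a ∈ P, w χ h a * ((q : ℝ) / n : ℝ) = 0 := by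
      rw [← Finset.sum_mul, hsumw, zero_mul]
    rw [hS1, ← sub_zero (∑ a ∈ P, w χ h a * (N a : ℂ)), ← h1, ← Finset.sum_sub_distrib]
    refine Finset.sum_congr rfl fun a _ => ?_
    push_cast
    ring
  have hsumN : (q : ℝ) - m ≤ ∑ a ∈ P, (N a : ℝ) := by
    have h1 : ∑ a ∈ P, N a = #{x : F | f.eval x ≠ 0} := by
      rw [Finset.card_eq_sum_card_fiberwise (f := fun x : F => f.eval x ^ h) (t := P)]
      · refine Finset.sum_congr rfl fun a ha => ?_
        rw [hN]
        simp only
        congr 1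
        ext y
        rw [Finset.mem_filter, Finset.mem_filter, Finset.mem_filter]
        constructor
        · rintro ⟨-, h2⟩
          refine ⟨⟨Finset.mem_univ _, fun h3 => hP0 a ha ?_⟩, h2⟩
          rw [← h2, h3, zero_pow hh0.ne']
        · rintro ⟨-, h2⟩
          exact ⟨Finset.mem_univ _, h2⟩
      · intro y hy
        have h2 := (Finset.mem_filter.1 (Finset.mem_coe.1 hy)).2
        rw [Finset.mem_coe, hP, Finset.mem_filter]
        refine ⟨Finset.mem_univ _, ?_⟩
        rw [← pow_mul, mul_comm, show n * h = Fintype.card F - 1 by omega]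
        exact FiniteField.pow_card_sub_one_eq_one _ h2
    have h2 : #{x : F | f.eval x = 0} ≤ m := by
      have h3 : ({x : F | f.eval x = 0} : Finset F) ⊆ f.roots.toFinset := fun y hy => by
        rw [Multiset.mem_toFinset, mem_roots hf0]
        exact (Finset.mem_filter.1 hy).2
      refine (Finset.card_le_card h3).trans ((Multiset.toFinset_card_le _).trans ?_)
      rw [← hf]
      exact card_roots' f
    have h3 : #{x : F | f.eval x = 0} + #{x : F | f.eval x ≠ 0} = q := by
      rw [hqdef, ← Finset.card_univ]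
      exact Finset.card_filter_add_card_filter_not (s := univ) _
    have h4 : q ≤ m + ∑ a ∈ P, N a := by
      rw [h1]
      omega
    have h5 : (q : ℝ) ≤ m + ∑ a ∈ P, (N a : ℝ) := by exact_mod_cast h4
    linarith
  have hn0 : (0 : ℝ) < n := by exact_mod_cast (by omega : 0 < n)
  calc ‖∑ x : F, χ (f.eval x)‖ = ‖∑ a ∈ P, w χ h a * ((N a : ℝ) - q / n : ℝ)‖ := by rw [hS2]
    _ ≤ ∑ a ∈ P, ‖w χ h a * ((N a : ℝ) - q / n : ℝ)‖ := norm_sum_le _ _
    _ ≤ ∑ a ∈ P, (2 * (C * x) - ((N a : ℝ) - q / n)) := by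
      refine Finset.sum_le_sum fun a ha => ?_
      rw [norm_mul, Complex.norm_real, Real.norm_eq_abs]
      refine (mul_le_of_le_one_left (abs_nonneg _) (norm_w_le χ a)).trans ?_
      have h1 := hNle a (hP0 a ha)
      have h2 : 0 ≤ C * x := by positivity
      rw [abs_le]
      constructor <;> linarith
    _ = P.card * (2 * (C * x) + q / n) - ∑ a ∈ P, (N a : ℝ) := by
      rw [Finset.sum_sub_distrib, Finset.sum_sub_distrib, Finset.sum_const, Finset.sum_const,
        nsmul_eq_mul, nsmul_eq_mul]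
      ring
    _ ≤ n * (2 * (C * x) + q / n) - (q - m) := by
      have h1 : (P.card : ℝ) ≤ n := by exact_mod_cast hPn
      have h2 : (0 : ℝ) ≤ 2 * (C * x) + q / n := by positivity
      have h3 := mul_le_mul_of_nonneg_right h1 h2
      linarith
    _ = 2 * n * C * x + m := by
      field_simp
      ring
    _ ≤ (2 * n * C + m) * x := by
      have h1 : (m : ℝ) ≤ m * x := le_mul_of_one_le_right (Nat.cast_nonneg m) hx1
      linarith

end Fermat.Agent.Cor.WeilC
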