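import Fermat.Agent.Corollaries.WeilC.StepAdd

/-!
# From Stepanov's bound to exponential sums

Every additive character of a finite field `F` of characteristic `p` has the form
`y ↦ ψ₁ (Tr (b y))` with a fixed primitive character `ψ₁` of `ZMod p`. So Stepanov's bound for the
number of the `x` with `Tr (b f(x)) = c` gives `|∑ ψ(f(x))| ≤ C √q`.
-/

set_option autoImplicit false

namespace Fermat.Agent.Cor.WeilC

open Polynomial Finset

universe u

/-- The bound `|∑ ψ(f(x))| ≤ C √q` for the polynomials of degree `m` in characteristic `p`. -/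
def CharAddStmt (m p : ℕ) : Prop := ∃ C : ℝ, 0 < C ∧
  ∀ (F : Type u) [Field F] [Fintype F] [CharP F p] (f : F[X]) (ψ : AddChar F ℂ),
    f.natDegree = m → ψ ≠ 1 → ‖∑ x : F, ψ (f.eval x)‖ ≤ C * √(Fintype.card F)

/-- Every additive character is `y ↦ ψ₁ (Tr (b y))`. -/
theorem exists_eq_trace {F : Type*} [Field F] [Fintype F] {p : ℕ} [Fact p.Prime]
    [Algebra (ZMod p) F] (ψ : AddChar F ℂ) :
    ∃ b : F, ∀ y : F, ψ y = ZMod.stdAddChar (N := p) (Algebra.trace (ZMod p) F (b * y)) := by
  classical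
  set ψ₀ : AddChar F ℂ := (ZMod.stdAddChar (N := p)).compAddMonoidHom
    (Algebra.trace (ZMod p) F).toAddMonoidHom with hψ₀
  have h1 : ψ₀ ≠ 1 := by
    intro h
    obtain ⟨y, hy⟩ := Algebra.trace_surjective (ZMod p) F 1
    have h2 : ψ₀ y = 1 := by rw [h, AddChar.one_apply]
    have h3 : ZMod.stdAddChar (N := p) (1 : ZMod p) = 1 := by
      rw [← hy]
      exact h2
    have h4 := ZMod.injective_stdAddChar (N := p)
    have h5 : (1 : ZMod p) = 0 := h4 (by rw [h3, AddChar.map_zero_eq_one])
    exact one_ne_zero h5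
  have h2 := AddChar.to_mulShift_inj_of_isPrimitive (AddChar.IsPrimitive.of_ne_one h1)
  have h3 : Function.Bijective ψ₀.mulShift :=
    (Fintype.bijective_iff_injective_and_card _).2 ⟨h2, AddChar.card_eq.symm⟩
  obtain ⟨b, hb⟩ := h3.2 ψ
  refine ⟨b, fun y => ?_⟩
  rw [← hb, AddChar.mulShift_apply]
  rfl

/-- The bound for the exponential sums, from Stepanov's bound. -/
theorem charAddStmt_of {m p : ℕ} (hp : p.Prime) (hS : StepAddStmt.{u} m p) :
    CharAddStmt.{u} m p := by
  classical
  obtain ⟨K, hK0, hK⟩ := hS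
  have hp0 : (0 : ℝ) < p := by exact_mod_cast hp.pos
  refine ⟨2 * p * K, by positivity, fun F _ _ _ f ψ hf hψ => ?_⟩
  have : Fact p.Prime := ⟨hp⟩
  let _ : Algebra (ZMod p) F := ZMod.algebra F p
  obtain ⟨b, hb⟩ := exists_eq_trace (p := p) ψ
  have hb0 : b ≠ 0 := by
    rintro rfl
    apply hψ
    ext y
    rw [hb y, zero_mul, map_zero, AddChar.map_zero_eq_one, AddChar.one_apply]
  set q := Fintype.card F with hqdef
  set x : ℝ := √(q : ℝ) with hx
  set r := Module.finrank (ZMod p) F with hr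
  have hqr : q = p ^ r := by
    rw [hqdef, Module.card_eq_pow_finrank (K := ZMod p) (V := F), ZMod.card]
  set N : ZMod p → ℕ := fun c =>
    #{y : F | Algebra.trace (ZMod p) F (b * f.eval y) = c} with hN
  have hNle : ∀ c : ZMod p, (N c : ℝ) ≤ q / p + K * x := fun c => by
    have h1 := hK F (C b * f) r (algebraMap (ZMod p) F c)
      (by rw [natDegree_C_mul hb0, hf]) hqr
    rw [Nat.card_eq_fintype_card, Fintype.card_subtype] at h1
    refine le_of_eq_of_le ?_ h1
    rw [hN]
    simp only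
    congr 2
    ext y
    rw [Finset.mem_filter, Finset.mem_filter, eval_mul, eval_C]
    have h2 : ∑ s ∈ range r, (b * f.eval y) ^ p ^ s =
        algebraMap (ZMod p) F (Algebra.trace (ZMod p) F (b * f.eval y)) := by
      rw [FiniteField.algebraMap_trace_eq_sum_pow, Nat.card_zmod]
    rw [h2, (algebraMap (ZMod p) F).injective.eq_iff]
  have hsum : ∑ c : ZMod p, ZMod.stdAddChar (N := p) c = 0 := by
    have h1 : ZMod.stdAddChar (N := p) ≠ 0 := by
      intro h
      have h3 : ZMod.stdAddChar (N := p) (1 : ZMod p) = 1 := by rw [h, AddChar.zero_apply]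
      have h5 : (1 : ZMod p) = 0 :=
        ZMod.injective_stdAddChar (N := p) (by rw [h3, AddChar.map_zero_eq_one])
      exact one_ne_zero h5
    exact AddChar.sum_eq_zero_of_ne_one (by exact h1)
  have hS1 : ∑ y : F, ψ (f.eval y) = ∑ c : ZMod p, ZMod.stdAddChar (N := p) c * N c := by
    rw [← Finset.sum_fiberwise (s := univ)
      (g := fun y : F => Algebra.trace (ZMod p) F (b * f.eval y))]
    refine Finset.sum_congr rfl fun c _ => ?_
    rw [hN]
    simp only
    rw [mul_comm, ← nsmul_eq_mul, ← Finset.sum_const]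
    refine Finset.sum_congr rfl fun y hy => ?_
    rw [hb, (Finset.mem_filter.1 hy).2]
  have hS2 : ∑ y : F, ψ (f.eval y) =
      ∑ c : ZMod p, ZMod.stdAddChar (N := p) c * ((N c : ℝ) - q / p : ℝ) := by
    have h1 : ∑ c : ZMod p, ZMod.stdAddChar (N := p) c * ((q : ℝ) / p : ℝ) = 0 := by
      rw [← Finset.sum_mul, hsum, zero_mul]
    rw [hS1, ← sub_zero (∑ c : ZMod p, ZMod.stdAddChar (N := p) c * (N c : ℂ)), ← h1,
      ← Finset.sum_sub_distrib]
    refine Finset.sum_congr rfl fun a _ => ?_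
    push_cast
    ring
  have hsumN : ∑ c : ZMod p, (N c : ℝ) = q := by
    have h1 : ∑ c : ZMod p, N c = q := by
      rw [hqdef, ← Finset.card_univ (α := F)]
      exact (Finset.card_eq_sum_card_fiberwise (f := fun y : F =>
        Algebra.trace (ZMod p) F (b * f.eval y)) (t := univ) (fun _ _ => Finset.mem_univ _)).symm
    exact_mod_cast h1
  calc ‖∑ y : F, ψ (f.eval y)‖ =
      ‖∑ c : ZMod p, ZMod.stdAddChar (N := p) c * ((N c : ℝ) - q / p : ℝ)‖ := by rw [hS2]
    _ ≤ ∑ c : ZMod p, ‖ZMod.stdAddChar (N := p) c * ((N c : ℝ) - q / p : ℝ)‖ := norm_sum_le _ _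
    _ ≤ ∑ c : ZMod p, (2 * (K * x) - ((N c : ℝ) - q / p)) := by
      refine Finset.sum_le_sum fun c _ => ?_
      rw [norm_mul, AddChar.norm_apply, one_mul, Complex.norm_real, Real.norm_eq_abs]
      have h1 := hNle c
      have h2 : 0 ≤ K * x := by positivity
      rw [abs_le]
      constructor <;> linarith
    _ = p * (2 * (K * x) + q / p) - ∑ c : ZMod p, (N c : ℝ) := by
      rw [Finset.sum_sub_distrib, Finset.sum_sub_distrib, Finset.sum_const, Finset.sum_const,
        Finset.card_univ, ZMod.card, nsmul_eq_mul, nsmul_eq_mul]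
      ring
    _ = 2 * p * K * x := by
      rw [hsumN]
      field_simp
      ring

end Fermat.Agent.Cor.WeilC
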