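import Mathlib

/-!
# Stepanov's method: the statements

* `StepStmt m n` : Stepanov's bound `#{x : f(x) ^ ((q - 1) / n) = a} ≤ q / n + C √q` for the
  polynomials `f` of degree `m` over the finite fields with `q` elements, `n ∣ q - 1`.
* `CharStmt m n` : `|Σ χ(f(x))| ≤ C √q` for the characters `χ` of order `n`.
-/

set_option autoImplicit false

namespace Fermat.Agent.Cor.WeilC

open Polynomial

universe u

/-- Stepanov's bound for the polynomials of degree `m` and the exponent `n`. -/
def StepStmt (m n : ℕ) : Prop := ∃ C : ℝ, 0 < C ∧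
  ∀ (F : Type u) [Field F] [Fintype F] (f : F[X]) (a : F), f.natDegree = m →
    n ∣ Fintype.card F - 1 → a ≠ 0 →
    (Nat.card {x : F // f.eval x ^ ((Fintype.card F - 1) / n) = a} : ℝ) ≤
      Fintype.card F / n + C * √(Fintype.card F)

/-- The bound `|Σ χ(f(x))| ≤ C √q` for the polynomials of degree `m` and the characters of
order `n`. -/
def CharStmt (m n : ℕ) : Prop := ∃ C : ℝ, 0 < C ∧
  ∀ (F : Type u) [Field F] [Fintype F] (f : F[X]) (χ : MulChar F ℂ), f.natDegree = m →
    orderOf χ = n → ‖∑ x : F, χ (f.eval x)‖ ≤ C * √(Fintype.card F)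

end Fermat.Agent.Cor.WeilC
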