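import Fermat.Agent.Corollaries.Weil.HD

/-!
# The L-function of a character and a polynomial

Let `χ` be a multiplicative character of the finite field `F` and `f` a monic polynomial over `F`
of degree `m` with `χ ^ m ≠ 1`. For a monic polynomial `g` put `lamF χ f g = χ (Res(g, f))`, the
value of `χ` at the product of the `f(x)`, `x` a root of `g`. The sums `sumF χ f d` of `lamF χ f g`
over the monic `g` of degree `d` are `1` for `d = 0`, `Σ χ(f(x))` for `d = 1` and `0` for `d ≥ m`;
they satisfy Newton's identities with `cF χ f k = Σ deg P lamF(P) ^ (k / deg P)`, and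
`cF χ f [E : F] = Σ_{x ∈ E} χ(N_{E/F} f(x))`.
-/

set_option autoImplicit false

namespace Fermat.Agent.Cor.WeilC

open Polynomial Finset Fermat.Agent.Cor.Weil

section General

variable {F : Type*} [Field F] [Fintype F] {l : F[X] → ℂ}

omit [Fintype F] in
theorem lam_pow_gen (h1 : l 1 = 1)
    (hmul : ∀ g h : F[X], g.Monic → h.Monic → l (g * h) = l g * l h) {P : F[X]} (hP : P.Monic)
    (n : ℕ) : l (P ^ n) = l P ^ n := by
  induction n with
  | zero => simp [h1]
  | succ n ih => rw [pow_succ, hmul _ _ (hP.pow n) hP, ih, pow_succ]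

theorem sum_dvd_gen (h1 : l 1 = 1)
    (hmul : ∀ g h : F[X], g.Monic → h.Monic → l (g * h) = l g * l h) {P : F[X]} (hP : P.Monic)
    (d j : ℕ) [DecidablePred fun f : F[X] => P ^ j ∣ f] :
    ∑ f ∈ monics F d with P ^ j ∣ f, l f =
      if j * P.natDegree ≤ d then l P ^ j * ∑ g ∈ monics F (d - j * P.natDegree), l g else 0 := by
  split_ifs with h
  · rw [Finset.mul_sum]
    have hPj : (P ^ j).Monic := hP.pow j
    have hdeg : (P ^ j).natDegree = j * P.natDegree := hP.natDegree_pow j
    refine (Finset.sum_nbij (fun g => P ^ j * g) (fun g hg => ?_) (fun g _ g' _ hgg => ?_)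
      (fun f hf => ?_) (fun g hg => ?_)).symm
    · obtain ⟨h1, h2⟩ := mem_monics.1 hg
      rw [Finset.mem_filter, mem_monics]
      refine ⟨⟨hPj.mul h1, ?_⟩, dvd_mul_right _ _⟩
      rw [hPj.natDegree_mul h1, hdeg, h2]
      omega
    · exact mul_left_cancel₀ hPj.ne_zero hgg
    · rw [Finset.mem_coe, Finset.mem_filter, mem_monics] at hf
      obtain ⟨⟨h1, h2⟩, g, rfl⟩ := hf
      have hg : g.Monic := hPj.of_mul_monic_left h1
      refine ⟨g, ?_, rfl⟩
      rw [Finset.mem_coe, mem_monics]
      rw [hPj.natDegree_mul hg, hdeg] at h2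
      exact ⟨hg, by omega⟩
    · obtain ⟨h3, h4⟩ := mem_monics.1 hg
      rw [hmul _ _ hPj h3, lam_pow_gen h1 hmul hP]
  · refine Finset.sum_eq_zero (fun f hf => ?_)
    rw [Finset.mem_filter, mem_monics] at hf
    obtain ⟨⟨h1, h2⟩, h3⟩ := hf
    have h4 := natDegree_le_of_dvd h3 h1.ne_zero
    rw [hP.natDegree_pow, h2] at h4
    exact absurd h4 h

/-- **Newton's identities** for a completely multiplicative function on the monic polynomials. -/
theorem newton_gen (h1 : l 1 = 1)
    (hmul : ∀ g h : F[X], g.Monic → h.Monic → l (g * h) = l g * l h) (d : ℕ) :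
    (d : ℂ) * ∑ f ∈ monics F d, l f = ∑ k ∈ Icc 1 d,
      (∑ P ∈ irr F k with P.natDegree ∣ k, (P.natDegree : ℂ) * l P ^ (k / P.natDegree)) *
        ∑ f ∈ monics F (d - k), l f := by
  classical
  have hL : (d : ℂ) * ∑ f ∈ monics F d, l f = ∑ P ∈ irr F d, (P.natDegree : ℂ) *
      ∑ j ∈ Icc 1 d, ∑ f ∈ monics F d with P ^ j ∣ f, l f := by
    have h1 : (d : ℂ) * ∑ f ∈ monics F d, l f = ∑ f ∈ monics F d, ∑ P ∈ irr F d,
        (P.natDegree : ℂ) * ∑ j ∈ Icc 1 d, if P ^ j ∣ f then l f else 0 := by
      rw [Finset.mul_sum]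
      refine Finset.sum_congr rfl (fun f hf => ?_)
      have h2 : (d : ℂ) = ∑ P ∈ irr F d, (P.natDegree : ℂ) * (#{j ∈ Icc 1 d | P ^ j ∣ f} : ℂ) := by
        exact_mod_cast natDegree_eq_sum hf
      conv_lhs => rw [h2]
      rw [Finset.sum_mul]
      refine Finset.sum_congr rfl (fun P _ => ?_)
      rw [← Finset.sum_filter, Finset.sum_const, nsmul_eq_mul, mul_assoc]
    rw [h1, Finset.sum_comm]
    refine Finset.sum_congr rfl (fun P _ => ?_)
    rw [← Finset.mul_sum, Finset.sum_comm]
    simp_rw [Finset.sum_filter]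
  have hR : ∑ k ∈ Icc 1 d,
      (∑ P ∈ irr F k with P.natDegree ∣ k, (P.natDegree : ℂ) * l P ^ (k / P.natDegree)) *
        ∑ f ∈ monics F (d - k), l f = ∑ P ∈ irr F d, (P.natDegree : ℂ) *
      ∑ k ∈ Icc 1 d with P.natDegree ∣ k,
        l P ^ (k / P.natDegree) * ∑ f ∈ monics F (d - k), l f := by
    have h1 : ∀ k ∈ Icc 1 d,
        (∑ P ∈ irr F k with P.natDegree ∣ k, (P.natDegree : ℂ) * l P ^ (k / P.natDegree)) *
        ∑ f ∈ monics F (d - k), l f = ∑ P ∈ irr F d,
        if P.natDegree ∣ k then (P.natDegree : ℂ) *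
          (l P ^ (k / P.natDegree) * ∑ f ∈ monics F (d - k), l f) else 0 := by
      intro k hk
      rw [Finset.mem_Icc] at hk
      rw [← Finset.sum_filter, Finset.sum_mul]
      have h2 : ({P ∈ irr F k | P.natDegree ∣ k} : Finset F[X]) =
          {P ∈ irr F d | P.natDegree ∣ k} := by
        ext P
        rw [Finset.mem_filter, Finset.mem_filter, mem_irr, mem_irr]
        constructor
        · rintro ⟨⟨a, b, c⟩, e⟩
          exact ⟨⟨a, b, by omega⟩, e⟩
        · rintro ⟨⟨a, b, c⟩, e⟩
          exact ⟨⟨a, b, Nat.le_of_dvd (by omega) e⟩, e⟩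
      rw [h2]
      exact Finset.sum_congr rfl (fun P _ => by ring)
    rw [Finset.sum_congr rfl h1, Finset.sum_comm]
    refine Finset.sum_congr rfl (fun P _ => ?_)
    rw [← Finset.sum_filter, Finset.mul_sum]
  rw [hL, hR]
  refine Finset.sum_congr rfl (fun P hP => ?_)
  obtain ⟨hPm, hPi, hPd⟩ := mem_irr.1 hP
  have hpos : 0 < P.natDegree := hPi.natDegree_pos
  congr 1
  simp_rw [sum_dvd_gen h1 hmul hPm]
  rw [← Finset.sum_filter]
  refine Finset.sum_nbij' (fun j => j * P.natDegree) (fun k => k / P.natDegree) ?_ ?_ ?_ ?_ ?_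
  · intro j hj
    rw [Finset.mem_filter, Finset.mem_Icc] at hj ⊢
    exact ⟨⟨Nat.mul_pos (by omega) hpos, hj.2⟩, Nat.dvd_mul_left _ _⟩
  · intro k hk
    rw [Finset.mem_filter, Finset.mem_Icc] at hk ⊢
    obtain ⟨⟨h1, h2⟩, m, rfl⟩ := hk
    rw [Nat.mul_div_cancel_left _ hpos]
    have hm : 0 < m := Nat.pos_of_mul_pos_left h1
    exact ⟨⟨hm, le_trans (Nat.le_mul_of_pos_left m hpos) h2⟩, by rw [mul_comm]; exact h2⟩
  · intro j _
    exact Nat.mul_div_cancel _ hpos
  · intro k hk
    exact Nat.div_mul_cancel (Finset.mem_filter.1 hk).2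
  · intro j _
    rw [Nat.mul_div_cancel _ hpos]

end General

section Char

variable {F : Type*} [Field F] (χ : MulChar F ℂ) (f : F[X])

/-- `lamF χ f g = χ (Res(g, f))`. -/
noncomputable def lamF (g : F[X]) : ℂ := χ (resultant g f g.natDegree f.natDegree)

theorem lamF_one : lamF χ f 1 = 1 := by
  rw [lamF, natDegree_one, resultant_one_left, zero_mul, pow_zero, pow_zero, one_mul, map_one]

theorem lamF_mul {g h : F[X]} (hg : g.Monic) (hh : h.Monic) :
    lamF χ f (g * h) = lamF χ f g * lamF χ f h := by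
  rw [lamF, hg.natDegree_mul hh, resultant_mul_left _ _ _ _ le_rfl, map_mul]
  rfl

theorem lamF_X_sub_C (x : F) : lamF χ f (X - C x) = χ (f.eval x) := by
  rw [lamF, natDegree_X_sub_C, resultant_X_sub_C_left _ _ _ le_rfl]

/-- The resultant of `f(X)` and `g + C (u - 1) (g mod f)`. -/
theorem resultant_twist (hf : f.Monic) (u : F) {g : F[X]} {d : ℕ}
    (hg : g.natDegree = d) (hd : f.natDegree ≤ d) :
    resultant (g + C (u - 1) * (g %ₘ f)) f d f.natDegree =
      u ^ f.natDegree * resultant g f d f.natDegree := by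
  have hq : (g /ₘ f).natDegree + f.natDegree ≤ d := by
    rw [natDegree_divByMonic g hf, hg]
    omega
  have e1 : g = g %ₘ f + f * (g /ₘ f) := (modByMonic_add_div g f).symm
  have e2 : g + C (u - 1) * (g %ₘ f) = C u * (g %ₘ f) + f * (g /ₘ f) := by
    conv_lhs => rw [e1]
    have h1 : (g %ₘ f + f * (g /ₘ f)) %ₘ f = g %ₘ f := by rw [← e1]
    rw [h1, C_sub, C_1]
    ring
  rw [e2, resultant_comm, resultant_add_mul_right _ _ _ _ _ hq le_rfl, resultant_C_mul_right]
  conv_rhs => rw [resultant_comm, e1, resultant_add_mul_right _ _ _ _ _ hq le_rfl]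
  ring

variable [Fintype F]

/-- The sum of `lamF` over the monic polynomials of degree `d`. -/
noncomputable def sumF (d : ℕ) : ℂ := ∑ g ∈ monics F d, lamF χ f g

/-- The sum of `deg P lamF(P) ^ (k / deg P)` over the monic irreducible `P` with `deg P ∣ k`. -/
noncomputable def cF (k : ℕ) : ℂ :=
  ∑ P ∈ irr F k with P.natDegree ∣ k, (P.natDegree : ℂ) * lamF χ f P ^ (k / P.natDegree)

theorem newtonF (d : ℕ) :
    (d : ℂ) * sumF χ f d = ∑ k ∈ Icc 1 d, cF χ f k * sumF χ f (d - k) :=
  newton_gen (lamF_one χ f) (fun _ _ hg hh => lamF_mul χ f hg hh) d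

theorem sumF_zero : sumF χ f 0 = 1 := by
  have h : monics F 0 = {1} := by
    ext f
    rw [mem_monics, Finset.mem_singleton]
    constructor
    · rintro ⟨h1, h2⟩
      exact (Monic.natDegree_eq_zero h1).1 h2
    · rintro rfl
      exact ⟨monic_one, natDegree_one⟩
  rw [sumF, h, Finset.sum_singleton, lamF_one]

theorem sumF_one : sumF χ f 1 = ∑ x : F, χ (f.eval x) := by
  rw [sumF]
  refine Finset.sum_nbij' (fun g => -g.coeff 0) (fun a => X - C a) (fun _ _ => Finset.mem_univ _)
    (fun a _ => mem_monics.2 ⟨monic_X_sub_C a, natDegree_X_sub_C a⟩) ?_ ?_ ?_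
  · intro g hg
    obtain ⟨h1, h2⟩ := mem_monics.1 hg
    conv_rhs => rw [h1.eq_X_add_C h2]
    simp
  · intro a _
    simp
  · intro g hg
    obtain ⟨h1, h2⟩ := mem_monics.1 hg
    have h3 : g = X - C (-g.coeff 0) := by
      conv_lhs => rw [h1.eq_X_add_C h2]
      simp
    conv_lhs => rw [h3, lamF_X_sub_C]

theorem sumF_eq_zero (hf : f.Monic) (hm : χ ^ f.natDegree ≠ 1) {d : ℕ} (hd : f.natDegree ≤ d) :
    sumF χ f d = 0 := by
  have hf0 : 0 < f.natDegree := by
    rcases Nat.eq_zero_or_pos f.natDegree with h | h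
    · rw [h, pow_zero] at hm
      exact absurd rfl hm
    · exact h
  obtain ⟨u, hu⟩ := MulChar.ne_one_iff.1 hm
  rw [MulChar.pow_apply_coe] at hu
  have hmod : ∀ g : F[X], (g %ₘ f).natDegree < d := fun g => by
    have := natDegree_modByMonic_lt g hf (by rintro rfl; simp at hf0)
    omega
  have key : sumF χ f d = χ u ^ f.natDegree * sumF χ f d := by
    rw [sumF, Finset.mul_sum]
    have hmem : ∀ (v : F) (g : F[X]), g ∈ monics F d → g + C (v - 1) * (g %ₘ f) ∈ monics F d :=
      fun v g hg => add_mem_monics hg (lt_of_le_of_lt (natDegree_C_mul_le _ _) (hmod g))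
    have hco : ∀ (v : F) (g : F[X]), (g + C (v - 1) * (g %ₘ f)) %ₘ f = C v * (g %ₘ f) := by
      intro v g
      have h1 : (C (v - 1) * (g %ₘ f)) %ₘ f = C (v - 1) * (g %ₘ f) := by
        rw [← smul_eq_C_mul, smul_modByMonic,
          (modByMonic_eq_self_iff hf).2 (degree_modByMonic_lt g hf)]
      rw [add_modByMonic, h1, C_sub, C_1]
      ring
    refine (Finset.sum_nbij' (fun g => g + C ((u : F) - 1) * (g %ₘ f))
      (fun g => g + C (((u⁻¹ : Fˣ) : F) - 1) * (g %ₘ f)) (fun g hg => hmem _ g hg)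
      (fun g hg => hmem _ g hg) (fun g _ => ?_) (fun g _ => ?_) (fun g hg => ?_)).symm
    · rw [hco, add_assoc]
      rw [show C ((u : F) - 1) * (g %ₘ f) + C (((u⁻¹ : Fˣ) : F) - 1) * (C (u : F) * (g %ₘ f)) =
        C ((((u⁻¹ : Fˣ) : F)) * u - 1) * (g %ₘ f) by simp only [C_sub, C_mul, C_1]; ring,
        Units.inv_mul, sub_self, C_0, zero_mul, add_zero]
    · rw [hco, add_assoc]
      rw [show C (((u⁻¹ : Fˣ) : F) - 1) * (g %ₘ f) + C ((u : F) - 1) * (C ((u⁻¹ : Fˣ) : F) *
        (g %ₘ f)) = C ((u : F) * ((u⁻¹ : Fˣ) : F) - 1) * (g %ₘ f) by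
          simp only [C_sub, C_mul, C_1]; ring,
        Units.mul_inv, sub_self, C_0, zero_mul, add_zero]
    · have h1 := (mem_monics.1 hg).2
      have h2 := (mem_monics.1 (hmem u g hg)).2
      rw [lamF, lamF, h1, h2, resultant_twist f hf u h1 hd, map_mul, map_pow]
  have : (1 - χ u ^ f.natDegree) * sumF χ f d = 0 := by rw [sub_mul, one_mul, ← key, sub_self]
  exact (mul_eq_zero.1 this).resolve_left (sub_ne_zero.2 (Ne.symm hu))

end Char

section Ext

variable {F : Type*} {E : Type*} [Field F] [Finite F] [Field E] [Finite E] [Algebra F E]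

theorem norm_gen_eq_resultant (f : F[X]) (x : E) :
    Algebra.norm F (aeval (IntermediateField.AdjoinSimple.gen F x) f) =
      resultant (minpoly F x) f (minpoly F x).natDegree f.natDegree := by
  classical
  have : FiniteDimensional F E := Module.Finite.of_finite
  have hx : IsIntegral F x := .of_finite F x
  let pb := IntermediateField.adjoin.powerBasis hx
  have hgen : pb.gen = IntermediateField.AdjoinSimple.gen F x :=
    IntermediateField.adjoin.powerBasis_gen hx
  have hmin : minpoly F pb.gen = minpoly F x := by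
    rw [hgen, IntermediateField.minpoly_gen]
  apply FaithfulSMul.algebraMap_injective F (AlgebraicClosure F)
  rw [Algebra.norm_eq_prod_embeddings F (AlgebraicClosure F), ← resultant_map_map]
  have hspl : ((minpoly F x).map (algebraMap F (AlgebraicClosure F))).Splits :=
    IsAlgClosed.splits _
  have hmon : ((minpoly F x).map (algebraMap F (AlgebraicClosure F))).Monic :=
    (minpoly.monic hx).map _
  have hres := resultant_eq_prod_eval ((minpoly F x).map (algebraMap F (AlgebraicClosure F)))
    (f.map (algebraMap F (AlgebraicClosure F))) f.natDegree (natDegree_map_le) hspl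
  rw [natDegree_map, hmon.leadingCoeff, one_pow, one_mul] at hres
  rw [hres]
  have hfin : Fintype {y : AlgebraicClosure F // y ∈ (minpoly F pb.gen).aroots
    (AlgebraicClosure F)} := Fintype.ofFinite _
  rw [Fintype.prod_equiv pb.liftEquiv'
    (fun σ => σ (aeval (IntermediateField.AdjoinSimple.gen F x) f))
    (fun y => eval (y : AlgebraicClosure F) (f.map (algebraMap F (AlgebraicClosure F)))) ?_]
  · rw [← hmin]
    have hnd : ((minpoly F pb.gen).aroots (AlgebraicClosure F)).Nodup := by
      rw [hmin]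
      exact nodup_roots (Separable.map (Algebra.IsSeparable.isSeparable F x))
    rw [← Finset.prod_subtype ((minpoly F pb.gen).aroots (AlgebraicClosure F)).toFinset
      (fun y => by rw [Multiset.mem_toFinset])
      (fun y => eval y (f.map (algebraMap F (AlgebraicClosure F))))]
    rw [Finset.prod_eq_multiset_prod, Multiset.toFinset_val, Multiset.dedup_eq_self.2 hnd]
  · intro σ
    rw [PowerBasis.liftEquiv'_apply_coe, hgen, eval_map_algebraMap, ← aeval_algHom_apply]

theorem char_norm (χ : MulChar F ℂ) (f : F[X]) (x : E) :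
    χ (Algebra.norm F (aeval x f)) =
      lamF χ f (minpoly F x) ^ (Module.finrank F E / (minpoly F x).natDegree) := by
  have : FiniteDimensional F E := Module.Finite.of_finite
  have hx : IsIntegral F x := .of_finite F x
  have hfr : Module.finrank F (IntermediateField.adjoin F {x}) = (minpoly F x).natDegree :=
    IntermediateField.adjoin.finrank hx
  have hq : Module.finrank F E / (minpoly F x).natDegree =
      Module.finrank (IntermediateField.adjoin F {x}) E := by
    rw [← Module.finrank_mul_finrank F (IntermediateField.adjoin F {x}) E, hfr,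
      Nat.mul_div_cancel_left _ (minpoly.natDegree_pos hx)]
  have h1 : aeval x f = algebraMap (IntermediateField.adjoin F {x}) E
      (aeval (IntermediateField.AdjoinSimple.gen F x) f) := by
    rw [← aeval_algebraMap_apply, IntermediateField.AdjoinSimple.algebraMap_gen]
  rw [hq, h1, ← Algebra.norm_norm (R := F) (S := IntermediateField.adjoin F {x}), Algebra.norm_algebraMap,
    map_pow, map_pow, norm_gen_eq_resultant, lamF]

/-- `cF χ f [E : F]` is the sum of the lifted character `χ ∘ N_{E/F}` at the `f(x)`, `x ∈ E`. -/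
theorem cF_finrank {F E : Type*} [Field F] [Fintype F] [Field E] [Fintype E] [Algebra F E]
    (χ : MulChar F ℂ) (f : F[X]) :
    cF χ f (Module.finrank F E) = ∑ x : E, χ (Algebra.norm F (aeval x f)) := by
  classical
  have : FiniteDimensional F E := Module.Finite.of_finite
  have hpos : 0 < Module.finrank F E := Module.finrank_pos
  symm
  rw [cF, ← Finset.sum_fiberwise_of_maps_to (g := fun x : E => minpoly F x)
    (t := {P ∈ irr F (Module.finrank F E) | P.natDegree ∣ Module.finrank F E})
    (fun x _ => ?_)]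
  · refine Finset.sum_congr rfl (fun P hP => ?_)
    rw [Finset.mem_filter, mem_irr] at hP
    obtain ⟨⟨hm, hi, hle⟩, hd⟩ := hP
    rw [Finset.sum_congr rfl (g := fun _ => lamF χ f P ^ (Module.finrank F E / P.natDegree))
      (fun x hx => ?_), Finset.sum_const, card_minpoly_eq hm hi hd, nsmul_eq_mul]
    rw [Finset.mem_filter] at hx
    rw [char_norm, hx.2]
  · have hx : IsIntegral F x := .of_finite F x
    rw [Finset.mem_filter, mem_irr]
    exact ⟨⟨minpoly.monic hx, minpoly.irreducible hx, Nat.le_of_dvd hpos (minpoly.degree_dvd hx)⟩,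
      minpoly.degree_dvd hx⟩

end Ext

end Fermat.Agent.Cor.WeilC
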