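import Mathlib

/-!
# From power sums to reciprocal roots

Let `L = Σ_{d ≤ D} A d T ^ d` be a complex polynomial with `A 0 = 1` and `T L' = G L`,
`G = Σ_{k ≥ 1} c k T ^ k`. If `|c k| ≤ C R ^ k` for all `k ≥ 1` then the reciprocal roots of `L`
have absolute value at most `R`, in particular `|A 1| ≤ D R` (`norm_le`).
-/

set_option autoImplicit false

namespace Fermat.Agent.Cor.WeilC.Power

open Finset

theorem geom_le {ρ : ℝ} (h0 : 0 ≤ ρ) (h1 : ρ < 1) (d : ℕ) :
    ∑ k ∈ Icc 1 d, ρ ^ k ≤ ρ / (1 - ρ) := by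
  have h2 : ∑ k ∈ Icc 1 d, ρ ^ k = (ρ - ρ ^ (d + 1)) / (1 - ρ) := by
    induction d with
    | zero => simp
    | succ d ih =>
      rw [Finset.sum_Icc_succ_top (by omega), ih]
      have : 1 - ρ ≠ 0 := by linarith
      field_simp
      ring
  rw [h2]
  have h3 : 0 ≤ ρ ^ (d + 1) := pow_nonneg h0 _
  exact div_le_div_of_nonneg_right (by linarith) (by linarith)

theorem exists_bound {B c : ℕ → ℂ} {C R R' : ℝ} (hR : 0 < R) (hRR : R < R')
    (hB : ∀ d : ℕ, (d : ℂ) * B d = -∑ k ∈ Icc 1 d, c k * B (d - k))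
    (hc : ∀ k, 1 ≤ k → ‖c k‖ ≤ C * R ^ k) : ∃ K : ℝ, ∀ d, ‖B d‖ ≤ K * R' ^ d := by
  have hR' : 0 < R' := hR.trans hRR
  have hC : 0 ≤ C := by
    have := (norm_nonneg _).trans (hc 1 le_rfl)
    rw [pow_one] at this
    exact nonneg_of_mul_nonneg_left this hR
  have hρ0 : 0 ≤ R / R' := by positivity
  have hρ1 : R / R' < 1 := by rw [div_lt_one hR']; exact hRR
  obtain ⟨N, hN⟩ := exists_nat_ge (C * (R / R' / (1 - R / R')))
  refine ⟨∑ d ∈ range (N + 1), ‖B d‖ / R' ^ d, fun d => ?_⟩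
  set K := ∑ d ∈ range (N + 1), ‖B d‖ / R' ^ d with hK
  have hK0 : 0 ≤ K := Finset.sum_nonneg (fun _ _ => by positivity)
  induction d using Nat.strong_induction_on with
  | _ d ih =>
    by_cases hd : d ≤ N
    · have h1 : ‖B d‖ / R' ^ d ≤ K :=
        Finset.single_le_sum (f := fun d => ‖B d‖ / R' ^ d) (fun _ _ => by positivity)
          (Finset.mem_range.2 (by omega))
      rwa [div_le_iff₀ (by positivity)] at h1
    · have hd0 : (0 : ℝ) < d := by
        have : 0 < d := by omega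
        exact_mod_cast this
      have h1 : (d : ℝ) * ‖B d‖ ≤ ∑ k ∈ Icc 1 d, ‖c k‖ * ‖B (d - k)‖ := by
        have : (d : ℝ) * ‖B d‖ = ‖(d : ℂ) * B d‖ := by
          rw [norm_mul, Complex.norm_natCast]
        rw [this, hB, norm_neg]
        refine (norm_sum_le _ _).trans (le_of_eq ?_)
        exact Finset.sum_congr rfl (fun k _ => norm_mul _ _)
      have h2 : ∑ k ∈ Icc 1 d, ‖c k‖ * ‖B (d - k)‖ ≤
          ∑ k ∈ Icc 1 d, C * K * R' ^ d * (R / R') ^ k := by
        refine Finset.sum_le_sum (fun k hk => ?_)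
        rw [Finset.mem_Icc] at hk
        have h3 := hc k hk.1
        have h4 := ih (d - k) (by omega)
        have h5 : C * K * R' ^ d * (R / R') ^ k = (C * R ^ k) * (K * R' ^ (d - k)) := by
          obtain ⟨e, rfl⟩ := Nat.exists_eq_add_of_le hk.2
          rw [Nat.add_sub_cancel_left, pow_add, div_pow]
          field_simp
        rw [h5]
        exact mul_le_mul h3 h4 (norm_nonneg _) (by positivity)
      have h3 : ∑ k ∈ Icc 1 d, C * K * R' ^ d * (R / R') ^ k ≤ d * (K * R' ^ d) := by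
        rw [← Finset.mul_sum]
        have h4 : C * K * R' ^ d * ∑ k ∈ Icc 1 d, (R / R') ^ k ≤
            C * K * R' ^ d * (R / R' / (1 - R / R')) :=
          mul_le_mul_of_nonneg_left (geom_le hρ0 hρ1 d) (by positivity)
        refine h4.trans ?_
        have h5 : C * K * R' ^ d * (R / R' / (1 - R / R')) =
            C * (R / R' / (1 - R / R')) * (K * R' ^ d) := by ring
        rw [h5]
        refine mul_le_mul_of_nonneg_right (hN.trans ?_) (by positivity)
        have : N ≤ d := by omega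
        exact_mod_cast this
      have h4 := h1.trans (h2.trans h3)
      exact le_of_mul_le_mul_left h4 hd0

/-- The coefficients of `1 / L`. -/
theorem exists_inverse {A c : ℕ → ℂ} (h0 : A 0 = 1)
    (hN : ∀ d : ℕ, (d : ℂ) * A d = ∑ k ∈ Icc 1 d, c k * A (d - k)) :
    ∃ B : ℕ → ℂ, (∀ d : ℕ, (d : ℂ) * B d = -∑ k ∈ Icc 1 d, c k * B (d - k)) ∧
      ∀ n, ∑ p ∈ antidiagonal n, A p.1 * B p.2 = if n = 0 then 1 else 0 := by
  have key : ∀ (Z : ℕ → ℂ) (d : ℕ), ∑ k ∈ Icc 1 d, c k * Z (d - k) =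
      PowerSeries.coeff d (PowerSeries.mk (fun k => if k = 0 then 0 else c k) *
        PowerSeries.mk Z) := by
    intro Z d
    rw [PowerSeries.coeff_mul, Finset.Nat.sum_antidiagonal_eq_sum_range_succ_mk]
    have h1 : Finset.range (d + 1) = insert 0 (Icc 1 d) := by
      ext k
      simp only [Finset.mem_range, Finset.mem_insert, Finset.mem_Icc]
      omega
    rw [Nat.succ_eq_add_one, h1, Finset.sum_insert (by simp)]
    simp only [PowerSeries.coeff_mk, if_true, zero_mul, zero_add]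
    refine Finset.sum_congr rfl (fun k hk => ?_)
    rw [Finset.mem_Icc] at hk
    rw [if_neg (by omega)]
  have hX : ∀ (Z : PowerSeries ℂ) (d : ℕ),
      PowerSeries.coeff d (PowerSeries.X * PowerSeries.derivative ℂ Z) =
        (d : ℂ) * PowerSeries.coeff d Z := by
    intro Z d
    cases d with
    | zero => simp
    | succ d =>
      rw [mul_comm, PowerSeries.coeff_succ_mul_X, PowerSeries.coeff_derivative]
      push_cast
      ring
  set L : PowerSeries ℂ := PowerSeries.mk A with hL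
  set G : PowerSeries ℂ := PowerSeries.mk (fun k => if k = 0 then 0 else c k) with hG
  have hL0 : PowerSeries.constantCoeff L ≠ 0 := by
    rw [← PowerSeries.coeff_zero_eq_constantCoeff_apply, hL, PowerSeries.coeff_mk, h0]
    exact one_ne_zero
  have hLG : PowerSeries.X * PowerSeries.derivative ℂ L = G * L := by
    ext d
    rw [hX, hL, PowerSeries.coeff_mk, hN, key]
  have hLi : L * L⁻¹ = 1 := PowerSeries.mul_inv_cancel L hL0
  have hB : PowerSeries.X * PowerSeries.derivative ℂ L⁻¹ = -(G * L⁻¹) := by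
    rw [PowerSeries.derivative_inv']
    have : PowerSeries.X * (-L⁻¹ ^ 2 * PowerSeries.derivative ℂ L) =
        -(L⁻¹ ^ 2 * (PowerSeries.X * PowerSeries.derivative ℂ L)) := by ring
    rw [this, hLG]
    have : L⁻¹ ^ 2 * (G * L) = G * L⁻¹ * (L * L⁻¹) := by ring
    rw [this, hLi, mul_one]
  refine ⟨fun d => PowerSeries.coeff d L⁻¹, fun d => ?_, fun n => ?_⟩
  · have h1 := congrArg (PowerSeries.coeff d) hB
    rw [hX] at h1
    have h2 := key (fun d => PowerSeries.coeff d L⁻¹) d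
    have h3 : PowerSeries.mk (fun d => PowerSeries.coeff d L⁻¹) = L⁻¹ := by
      ext j
      rw [PowerSeries.coeff_mk]
    rw [h3] at h2
    rw [h1, h2, map_neg]
  · have h1 := congrArg (PowerSeries.coeff n) hLi
    rw [PowerSeries.coeff_mul, PowerSeries.coeff_one] at h1
    rw [← h1]
    refine Finset.sum_congr rfl (fun p _ => ?_)
    rw [hL, PowerSeries.coeff_mk]

/-- `L` has no zero `ω⁻¹` with `|ω| > R`. -/
theorem sum_ne_zero {D : ℕ} {A c : ℕ → ℂ} {C R : ℝ} (hR : 0 < R) (h0 : A 0 = 1)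
    (hA : ∀ d, D < d → A d = 0)
    (hN : ∀ d : ℕ, (d : ℂ) * A d = ∑ k ∈ Icc 1 d, c k * A (d - k))
    (hc : ∀ k, 1 ≤ k → ‖c k‖ ≤ C * R ^ k) {ω : ℂ} (hω : R < ‖ω‖) :
    ∑ d ∈ range (D + 1), A d * ω⁻¹ ^ d ≠ 0 := by
  intro h
  obtain ⟨B, hB, hAB⟩ := exists_inverse h0 hN
  obtain ⟨R', h1, h2⟩ := exists_between hω
  obtain ⟨K, hK⟩ := exists_bound hR h1 hB hc
  have hR' : 0 < R' := hR.trans h1
  have hω0 : 0 < ‖ω‖ := hR'.trans h2
  have hsA : Summable (fun d => ‖A d * ω⁻¹ ^ d‖) := by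
    refine summable_of_ne_finset_zero (s := range (D + 1)) (fun d hd => ?_)
    rw [Finset.mem_range] at hd
    rw [hA d (by omega), zero_mul, norm_zero]
  have hsB : Summable (fun d => ‖B d * ω⁻¹ ^ d‖) := by
    refine Summable.of_nonneg_of_le (fun _ => norm_nonneg _) (fun d => ?_)
      ((summable_geometric_of_lt_one (r := R' / ‖ω‖) (by positivity)
        (by rw [div_lt_one hω0]; exact h2)).mul_left K)
    rw [norm_mul, norm_pow, norm_inv, div_pow, inv_pow]
    have := hK d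
    calc ‖B d‖ * (‖ω‖ ^ d)⁻¹ ≤ K * R' ^ d * (‖ω‖ ^ d)⁻¹ :=
          mul_le_mul_of_nonneg_right this (by positivity)
      _ = K * (R' ^ d / ‖ω‖ ^ d) := by rw [div_eq_mul_inv]; ring
  have hprod := tsum_mul_tsum_eq_tsum_sum_antidiagonal_of_summable_norm hsA hsB
  have hz : ∑' d, A d * ω⁻¹ ^ d = 0 := by
    rw [tsum_eq_sum (s := range (D + 1)) (fun d hd => ?_), h]
    rw [Finset.mem_range] at hd
    rw [hA d (by omega), zero_mul]
  rw [hz, zero_mul] at hprod
  have hone : ∑' n, ∑ p ∈ antidiagonal n, A p.1 * ω⁻¹ ^ p.1 * (B p.2 * ω⁻¹ ^ p.2) = 1 := by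
    have h3 : ∀ n, ∑ p ∈ antidiagonal n, A p.1 * ω⁻¹ ^ p.1 * (B p.2 * ω⁻¹ ^ p.2) =
        if n = 0 then 1 else 0 := by
      intro n
      have h4 : ∑ p ∈ antidiagonal n, A p.1 * ω⁻¹ ^ p.1 * (B p.2 * ω⁻¹ ^ p.2) =
          ω⁻¹ ^ n * ∑ p ∈ antidiagonal n, A p.1 * B p.2 := by
        rw [Finset.mul_sum]
        refine Finset.sum_congr rfl (fun p hp => ?_)
        rw [Finset.HasAntidiagonal.mem_antidiagonal] at hp
        rw [← hp, pow_add]
        ring
      rw [h4, hAB]
      split_ifs with hn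
      · rw [hn]; simp
      · simp
    simp_rw [h3]
    rw [tsum_ite_eq]
  rw [hone] at hprod
  exact zero_ne_one hprod

end Fermat.Agent.Cor.WeilC.Power

namespace Fermat.Agent.Cor.WeilC

open Polynomial Finset

/-- `|A 1| ≤ D R`. -/
theorem norm_le {D : ℕ} {A c : ℕ → ℂ} {C R : ℝ} (hR : 0 < R) (h0 : A 0 = 1)
    (hA : ∀ d, D < d → A d = 0)
    (hN : ∀ d : ℕ, (d : ℂ) * A d = ∑ k ∈ Finset.Icc 1 d, c k * A (d - k))
    (hc : ∀ k, 1 ≤ k → ‖c k‖ ≤ C * R ^ k) : ‖A 1‖ ≤ D * R := by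
  rcases Nat.eq_zero_or_pos D with rfl | hD
  · rw [hA 1 one_pos, norm_zero]
    simp
  -- the reciprocal polynomial
  obtain ⟨P, hP⟩ : ∃ P : ℂ[X], P = ∑ d ∈ range (D + 1), Polynomial.C (A d) * X ^ (D - d) := ⟨_, rfl⟩
  have hcoeff : ∀ n ≤ D, P.coeff n = A (D - n) := by
    intro n hn
    rw [hP, finsetSum_coeff, Finset.sum_eq_single (D - n)]
    · rw [coeff_C_mul, coeff_X_pow, if_pos (by omega), mul_one]
    · intro d hd hdn
      rw [Finset.mem_range] at hd
      rw [coeff_C_mul, coeff_X_pow, if_neg (by omega), mul_zero]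
    · intro h
      exact absurd (Finset.mem_range.2 (by omega)) h
  have hdeg : P.natDegree ≤ D := by
    rw [hP]
    refine natDegree_sum_le_of_forall_le _ _ (fun d _ => ?_)
    exact (natDegree_C_mul_X_pow_le _ _).trans (Nat.sub_le _ _)
  have hmon : P.Monic := monic_of_natDegree_le_of_coeff_eq_one D hdeg
    (by rw [hcoeff D le_rfl, Nat.sub_self, h0])
  have hnd : P.natDegree = D := by
    refine le_antisymm hdeg (le_natDegree_of_ne_zero ?_)
    rw [hcoeff D le_rfl, Nat.sub_self, h0]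
    exact one_ne_zero
  have hspl : P.Splits := IsAlgClosed.splits P
  have hcard : P.roots.card = D := by rw [← hnd]; exact hspl.natDegree_eq_card_roots.symm
  have hnext : P.nextCoeff = A 1 := by
    rw [nextCoeff_of_natDegree_pos (by omega), hnd, hcoeff _ (by omega)]
    congr 1
    omega
  have hsum : P.nextCoeff = -P.roots.sum := hspl.nextCoeff_eq_neg_sum_roots_of_monic hmon
  have hroot : ∀ ω ∈ P.roots, ‖ω‖ ≤ R := by
    intro ω hω
    by_contra hlt
    rw [not_le] at hlt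
    have h1 : P.eval ω = 0 := (mem_roots'.1 hω).2
    have hω0 : ω ≠ 0 := by
      rintro rfl
      rw [norm_zero] at hlt
      linarith
    refine Power.sum_ne_zero hR h0 hA hN hc hlt ?_
    have h2 : P.eval ω = ω ^ D * ∑ d ∈ range (D + 1), A d * ω⁻¹ ^ d := by
      rw [hP, eval_finsetSum, Finset.mul_sum]
      refine Finset.sum_congr rfl (fun d hd => ?_)
      rw [Finset.mem_range] at hd
      obtain ⟨e, he⟩ := Nat.exists_eq_add_of_le (show d ≤ D by omega)
      rw [eval_mul, eval_C, eval_pow, eval_X, he, Nat.add_sub_cancel_left, pow_add, inv_pow]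
      field_simp
    rw [h1] at h2
    exact (mul_eq_zero.1 h2.symm).resolve_left (pow_ne_zero _ hω0)
  rw [← hnext, hsum, norm_neg]
  refine (norm_multiset_sum_le _).trans ?_
  have h3 := Multiset.sum_le_card_nsmul (P.roots.map fun x => ‖x‖) R (fun x hx => by
    obtain ⟨ω, hω, rfl⟩ := Multiset.mem_map.1 hx
    exact hroot ω hω)
  rwa [Multiset.card_map, hcard, nsmul_eq_mul] at h3

end Fermat.Agent.Cor.WeilC
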