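import Fermat.Agent.Corollaries.WeilC.Step
import Fermat.Agent.Corollaries.WeilC.CharSum
import Fermat.Agent.Corollaries.WeilC.Newton
import Fermat.Agent.Corollaries.WeilC.Power
import Fermat.Agent.Corollaries.Weil.Main
import Fermat.Agent.Corollaries.Weil.Schur

/-!
# Weil's bound for character sums of polynomials and the curves `y ^ n = f(x)`

Let `F` be a finite field with `q` elements and `f` a polynomial over `F`.

* `norm_charSum_le` : `|∑ χ(f(x))| ≤ (deg f - 1) √q` for every character `χ ≠ 1` whose order is prime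
  to `deg f`.
* `abs_card_sub_le` : `|#{(x, y) : y ^ n = f(x)} - q| ≤ (n - 1) (deg f - 1) √q` if `n` and `deg f`
  are coprime. If `f` is squarefree and `n` prime to the characteristic, the genus of the curve is
  `(n - 1) (deg f - 1) / 2`, so this is the bound of Hasse and Weil (`n = 2` and `deg f` odd:
  hyperelliptic curves).

Stepanov's method gives `|∑ χ(f(x))| ≤ C √q` with a constant which depends only on the degree of
`f` and the order of `χ`. The `L`-function of the sum is a polynomial of degree less than `deg f`,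
and the logarithmic derivative of it is the series of the sums over the extensions of `F`. So by
the bound for all the extensions the zeros of it have absolute value at least `1 / √q`.
-/

set_option autoImplicit false

namespace Fermat.Agent.Cor.WeilC

open Polynomial Finset

variable {F : Type*} [Field F] [Fintype F]

theorem norm_charSum_le_of_monic {f : F[X]} (hf : f.Monic) {χ : MulChar F ℂ} (hχ : χ ≠ 1)
    (hc : f.natDegree.Coprime (orderOf χ)) :
    ‖∑ x : F, χ (f.eval x)‖ ≤ ((f.natDegree : ℝ) - 1) * √(Fintype.card F) := by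
  have hn : 1 < orderOf χ := by
    have h1 : orderOf χ ≠ 1 := fun h => hχ (orderOf_eq_one_iff.1 h)
    have h2 : 0 < orderOf χ := Nat.pos_of_dvd_of_pos (MulChar.orderOf_dvd_card_sub_one F χ)
      (by have := Fintype.one_lt_card (α := F); omega)
    omega
  have hm : χ ^ f.natDegree ≠ 1 := fun h => by
    have h1 := Nat.Coprime.eq_one_of_dvd hc.symm (orderOf_dvd_of_pow_eq_one h)
    omega
  have hm0 : 0 < f.natDegree := by
    rcases Nat.eq_zero_or_pos f.natDegree with h | h
    · rw [h, pow_zero] at hm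
      exact absurd rfl hm
    · exact h
  obtain ⟨C, hC0, hC⟩ := charStmt_of.{0} hn hc (stepanov hn hc)
  have hR : (0 : ℝ) < √(Fintype.card F) := by
    rw [Real.sqrt_pos]
    exact_mod_cast Fintype.card_pos
  have key := norm_le (D := f.natDegree - 1) (A := sumF χ f) (c := cF χ f) (C := C) hR
    (sumF_zero χ f) (fun d hd => sumF_eq_zero χ f hf hm (by omega)) (newtonF χ f) (fun k hk => ?_)
  · rw [sumF_one, Nat.cast_sub (by omega), Nat.cast_one] at key
    exact key
  · obtain ⟨p, hp⟩ := CharP.exists F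
    have hpp : p.Prime := CharP.char_is_prime F p
    have : Fact p.Prime := ⟨hpp⟩
    have : NeZero k := ⟨by omega⟩
    have : Fintype (FiniteField.Extension F p k) := Fintype.ofFinite _
    have h1 := cF_finrank (E := FiniteField.Extension F p k) χ f
    rw [FiniteField.finrank_extension] at h1
    have h2 := hC (FiniteField.Extension F p k)
      (f.map (algebraMap F (FiniteField.Extension F p k)))
      (Weil.lift (FiniteField.Extension F p k) χ) (natDegree_map _) (Weil.orderOf_lift χ)
    have h3 : ∑ x : FiniteField.Extension F p k, Weil.lift (FiniteField.Extension F p k) χ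
        ((f.map (algebraMap F (FiniteField.Extension F p k))).eval x) = cF χ f k := by
      rw [h1]
      refine Finset.sum_congr rfl fun x _ => ?_
      rw [Weil.lift_apply, eval_map_algebraMap]
    have h4 : √(Fintype.card (FiniteField.Extension F p k) : ℝ) = √(Fintype.card F) ^ k := by
      rw [← Nat.card_eq_fintype_card, FiniteField.natCard_extension, Nat.card_eq_fintype_card]
      push_cast
      rw [Real.sqrt_eq_iff_mul_self_eq (by positivity) (by positivity), ← mul_pow,
        Real.mul_self_sqrt (by positivity)]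
    rw [h3, h4] at h2
    exact h2

/-- **Weil's bound for character sums** (1948): `|∑ χ(f(x))| ≤ (deg f - 1) √q` for the
characters `χ ≠ 1` whose order is prime to the degree of `f`. -/
theorem norm_charSum_le (f : F[X]) {χ : MulChar F ℂ} (hχ : χ ≠ 1)
    (hc : f.natDegree.Coprime (orderOf χ)) :
    ‖∑ x : F, χ (f.eval x)‖ ≤ ((f.natDegree : ℝ) - 1) * √(Fintype.card F) := by
  have hf0 : f ≠ 0 := by
    rintro rfl
    rw [natDegree_zero, Nat.coprime_zero_left] at hc
    exact hχ (orderOf_eq_one_iff.1 hc)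
  have hl : f.leadingCoeff ≠ 0 := leadingCoeff_ne_zero.2 hf0
  set g : F[X] := C f.leadingCoeff⁻¹ * f with hg
  have hgm : g.Monic := by
    rw [Monic, hg, leadingCoeff_mul, leadingCoeff_C, inv_mul_cancel₀ hl]
  have hgd : g.natDegree = f.natDegree := natDegree_C_mul (inv_ne_zero hl)
  have h1 := norm_charSum_le_of_monic hgm hχ (by rw [hgd]; exact hc)
  rw [hgd] at h1
  refine le_trans ?_ h1
  have h2 : ∑ x : F, χ (f.eval x) = χ f.leadingCoeff * ∑ x : F, χ (g.eval x) := by
    rw [Finset.mul_sum]
    refine Finset.sum_congr rfl fun x _ => ?_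
    rw [← map_mul, hg, eval_mul, eval_C, mul_inv_cancel_left₀ hl]
  rw [h2, norm_mul]
  refine mul_le_of_le_one_left (norm_nonneg _) ?_
  have h3 : χ f.leadingCoeff ^ (Fintype.card F - 1) = 1 := by
    rw [← map_pow, FiniteField.pow_card_sub_one_eq_one _ hl, MulChar.map_one]
  have h4 : 1 < Fintype.card F := Fintype.one_lt_card
  exact (Complex.norm_eq_one_of_pow_eq_one h3 (by omega)).le

section Count

variable [DecidableEq F]

/-- The number of the `n`-th roots depends only on the greatest common divisor of `n` and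
`q - 1`. -/
theorem card_pow_eq_gcd {n : ℕ} (hn : 0 < n) (v : F) :
    #{y : F | y ^ n = v} = #{y : F | y ^ Nat.gcd n (Fintype.card F - 1) = v} := by
  have hq : 1 < Fintype.card F := Fintype.one_lt_card
  have hd : 0 < Nat.gcd n (Fintype.card F - 1) := Nat.gcd_pos_of_pos_left _ hn
  have hgen : ∀ k : ℕ, 0 < k → ∀ y₀ : F, y₀ ≠ 0 → y₀ ^ k = v →
      #{y : F | y ^ k = v} = #{y : F | y ^ k = 1} := by
    intro k hk y₀ h0 h1
    refine Finset.card_bij' (fun y _ => y / y₀) (fun z _ => z * y₀) ?_ ?_ ?_ ?_
    · intro y hy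
      rw [Finset.mem_filter] at hy ⊢
      refine ⟨Finset.mem_univ _, ?_⟩
      rw [div_pow, hy.2, h1, div_self]
      rw [← h1]
      exact pow_ne_zero _ h0
    · intro z hz
      rw [Finset.mem_filter] at hz ⊢
      refine ⟨Finset.mem_univ _, ?_⟩
      rw [mul_pow, hz.2, h1, one_mul]
    · intro y _
      exact div_mul_cancel₀ _ h0
    · intro z _
      exact mul_div_cancel_right₀ _ h0
  have hone : #{y : F | y ^ n = 1} = #{y : F | y ^ Nat.gcd n (Fintype.card F - 1) = 1} := by
    congr 1
    ext y
    rw [Finset.mem_filter, Finset.mem_filter]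
    constructor
    · rintro ⟨-, h⟩
      refine ⟨Finset.mem_univ _, ?_⟩
      have hy : y ≠ 0 := by
        rintro rfl
        rw [zero_pow hn.ne'] at h
        exact zero_ne_one h
      exact pow_gcd_eq_one.2 ⟨h, FiniteField.pow_card_sub_one_eq_one y hy⟩
    · rintro ⟨-, h⟩
      refine ⟨Finset.mem_univ _, ?_⟩
      obtain ⟨c, hc⟩ := Nat.gcd_dvd_left n (Fintype.card F - 1)
      conv_lhs => rw [hc]
      rw [pow_mul, h, one_pow]
  by_cases hv : v = 0
  · subst hv
    congr 1
    ext y
    rw [Finset.mem_filter, Finset.mem_filter, pow_eq_zero_iff hn.ne', pow_eq_zero_iff hd.ne']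
  by_cases H : ∃ y : F, y ^ n = v
  · obtain ⟨y₀, hy₀⟩ := H
    have h0 : y₀ ≠ 0 := by
      rintro rfl
      rw [zero_pow hn.ne'] at hy₀
      exact hv hy₀.symm
    obtain ⟨c, hc⟩ := Nat.gcd_dvd_left n (Fintype.card F - 1)
    have h1 : (y₀ ^ c) ^ Nat.gcd n (Fintype.card F - 1) = v := by
      rw [← pow_mul, mul_comm, ← hc, hy₀]
    rw [hgen n hn y₀ h0 hy₀, hgen _ hd (y₀ ^ c) (pow_ne_zero _ h0) h1, hone]
  · have h1 : #{y : F | y ^ n = v} = 0 := by
      rw [Finset.card_eq_zero, Finset.filter_eq_empty_iff]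
      exact fun y _ h => H ⟨y, h⟩
    have h2 : #{y : F | y ^ Nat.gcd n (Fintype.card F - 1) = v} = 0 := by
      rw [Finset.card_eq_zero, Finset.filter_eq_empty_iff]
      intro y _ h
      have h0 : y ≠ 0 := by
        rintro rfl
        rw [zero_pow hd.ne'] at h
        exact hv h.symm
      obtain ⟨z, -, hz⟩ := Weil.exists_pow_eq_pow_gcd n h0
      exact H ⟨z, hz.trans h⟩
    rw [h1, h2]

/-- **The bound of Hasse and Weil for the curves `y ^ n = f(x)`**, `n` prime to the degree
of `f`. -/
theorem abs_card_sub_le {n : ℕ} (hn : 0 < n) {f : F[X]} (hc : f.natDegree.Coprime n)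
    (hf : 0 < f.natDegree) :
    |(#{P : F × F | P.2 ^ n = f.eval P.1} : ℝ) - Fintype.card F| ≤
      ((n : ℝ) - 1) * ((f.natDegree : ℝ) - 1) * √(Fintype.card F) := by
  set d := Nat.gcd n (Fintype.card F - 1) with hd
  have hq : 1 < Fintype.card F := Fintype.one_lt_card
  have hd0 : 0 < d := Nat.gcd_pos_of_pos_left _ hn
  have hdn : d ≤ n := Nat.gcd_le_left _ hn
  have hcd : f.natDegree.Coprime d := Nat.Coprime.coprime_dvd_right (Nat.gcd_dvd_left _ _) hc
  obtain ⟨χ, hχ⟩ : ∃ χ : MulChar F ℂ, orderOf χ = d :=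
    MulChar.exists_mulChar_orderOf F (Nat.gcd_dvd_right _ _)
      (Complex.isPrimitiveRoot_exp d hd0.ne')
  have h1 : #{P : F × F | P.2 ^ n = f.eval P.1} = ∑ x : F, #{y : F | y ^ d = f.eval x} := by
    have h2 : ∑ x : F, #{y : F | y ^ d = f.eval x} = ∑ x : F, #{y : F | y ^ n = f.eval x} :=
      Finset.sum_congr rfl fun x _ => (card_pow_eq_gcd hn _).symm
    rw [h2]
    simp only [Finset.card_filter]
    rw [← Finset.univ_product_univ, Finset.sum_product]
  have h3 : ((#{P : F × F | P.2 ^ n = f.eval P.1} : ℝ) - Fintype.card F : ℝ) =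
      ∑ i ∈ Ioo 0 d, ∑ x : F, (χ ^ i) (f.eval x) := by
    rw [h1]
    push_cast
    have h4 : ∀ x : F, ((#{y : F | y ^ d = f.eval x} : ℕ) : ℂ) =
        1 + ∑ i ∈ Ioo 0 d, (χ ^ i) (f.eval x) := fun x => by
      rw [Diary.card_pow_eq hd0 hχ, Finset.range_eq_Ico, ← Finset.Ioo_insert_left hd0,
        Finset.sum_insert (by simp), pow_zero]
      congr 1
      refine Finset.sum_congr rfl fun i hi => ?_
      rw [Finset.mem_Ioo] at hi
      rw [MulChar.pow_apply' _ (by omega)]
    rw [Finset.sum_congr rfl fun x _ => h4 x, Finset.sum_add_distrib, Finset.sum_comm,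
      Finset.sum_const, Finset.card_univ, nsmul_eq_mul, mul_one, add_sub_cancel_left]
  have hm1 : (0 : ℝ) ≤ (f.natDegree : ℝ) - 1 := by
    have : (1 : ℝ) ≤ f.natDegree := by exact_mod_cast hf
    linarith
  have h5 : ∀ i ∈ Ioo 0 d, ‖∑ x : F, (χ ^ i) (f.eval x)‖ ≤
      ((f.natDegree : ℝ) - 1) * √(Fintype.card F) := fun i hi => by
    rw [Finset.mem_Ioo] at hi
    refine norm_charSum_le f (fun h => ?_) ?_
    · have := Nat.le_of_dvd hi.1 (hχ ▸ orderOf_dvd_of_pow_eq_one h)
      omega
    · refine Nat.Coprime.coprime_dvd_right ?_ hcd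
      rw [← hχ]
      exact orderOf_pow_dvd i
  rw [← Real.norm_eq_abs, ← Complex.norm_real]
  push_cast at h3 ⊢
  rw [h3]
  refine (norm_sum_le _ _).trans ?_
  refine (Finset.sum_le_sum h5).trans ?_
  rw [Finset.sum_const, Nat.card_Ioo, nsmul_eq_mul, mul_assoc]
  refine mul_le_mul_of_nonneg_right ?_ (by positivity)
  rw [Nat.sub_zero, Nat.cast_sub (by omega), Nat.cast_one]
  have : (d : ℝ) ≤ n := by exact_mod_cast hdn
  linarith

end Count

end Fermat.Agent.Cor.WeilC
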