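import Fermat.Agent.Corollaries.WeilC.Newton

/-!
# The L-function of an additive character and a polynomial

Let `ψ` be an additive character of the finite field `F` and `f` a polynomial over `F` of degree
`m`. For a monic polynomial `g` let `tr f g` be the sum of the `f(θ)`, `θ` a root of `g`; as an
element of `F` it is `∑ f_k p_k(g)` with the power sums `p_k(g)`, the coefficients of
`pser g = deg g - T g*' / g*`, `g*` the reversed polynomial. The sums `sumA ψ f d` of
`ψ (tr f g)` over the monic `g` of degree `d` are `1` for `d = 0`, `Σ ψ(f(x))` for `d = 1` and `0`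
for `d ≥ m`, if `ψ ≠ 1` and `m ≠ 0` in `F`; they satisfy Newton's identities with
`cA ψ f k = Σ deg P ψ(tr f P) ^ (k / deg P)`, and `cA ψ f [E : F] = Σ_{x ∈ E} ψ(Tr_{E/F} f(x))`.
-/

set_option autoImplicit false

namespace Fermat.Agent.Cor.WeilC

open Polynomial Finset Fermat.Agent.Cor.Weil

section PSer

variable {K : Type*} [Field K]

/-- The reversed polynomial as a power series. -/
noncomputable def rv (g : K[X]) : PowerSeries K := (g.reverse : PowerSeries K)

/-- The generating series of the power sums of the roots of `g`. -/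
noncomputable def pser (g : K[X]) : PowerSeries K :=
  PowerSeries.C (g.natDegree : K) -
    PowerSeries.X * PowerSeries.derivative K (rv g) * (rv g)⁻¹

theorem constantCoeff_rv (g : K[X]) : PowerSeries.constantCoeff (rv g) = g.leadingCoeff := by
  rw [← PowerSeries.coeff_zero_eq_constantCoeff_apply, rv, Polynomial.coeff_coe,
    coeff_zero_reverse]

theorem rv_mul_inv {g : K[X]} (hg : g.Monic) : rv g * (rv g)⁻¹ = 1 := by
  refine PowerSeries.mul_inv_cancel _ ?_
  rw [constantCoeff_rv, hg.leadingCoeff]
  exact one_ne_zero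

theorem rv_ne_zero {g : K[X]} (hg : g.Monic) : rv g ≠ 0 := by
  intro h
  have := rv_mul_inv hg
  rw [h, zero_mul] at this
  exact zero_ne_one this

/-- The defining equation of `pser g`. -/
theorem pser_mul_rv {g : K[X]} (hg : g.Monic) : pser g * rv g =
    PowerSeries.C (g.natDegree : K) * rv g - PowerSeries.X * PowerSeries.derivative K (rv g) := by
  rw [pser, sub_mul, mul_assoc (PowerSeries.X * PowerSeries.derivative K (rv g)),
    mul_comm (rv g)⁻¹, rv_mul_inv hg, mul_one]

theorem rv_mul (g h : K[X]) : rv (g * h) = rv g * rv h := by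
  rw [rv, reverse_mul_of_domain, Polynomial.coe_mul]
  rfl

theorem pser_one : pser (1 : K[X]) = 0 := by
  have h : rv (1 : K[X]) = 1 := by
    rw [rv, ← C_1, reverse_C, C_1, Polynomial.coe_one]
  rw [pser, h, natDegree_one]
  simp

theorem pser_mul {g h : K[X]} (hg : g.Monic) (hh : h.Monic) :
    pser (g * h) = pser g + pser h := by
  have h0 := mul_ne_zero (rv_ne_zero hg) (rv_ne_zero hh)
  apply mul_right_cancel₀ h0
  have h1 := pser_mul_rv (hg.mul hh)
  have h2 := pser_mul_rv hg
  have h3 := pser_mul_rv hh
  rw [rv_mul, Derivation.leibniz, hg.natDegree_mul hh, smul_eq_mul, smul_eq_mul] at h1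
  push_cast at h1
  rw [map_add] at h1
  linear_combination h1 - rv h * h2 - rv g * h3

theorem pser_X_sub_C (x : K) : pser (X - C x) = PowerSeries.mk (fun k => x ^ k) := by
  have hm := monic_X_sub_C x
  have hrv : rv (X - C x) = 1 - PowerSeries.C x * PowerSeries.X := by
    ext n
    rw [rv, Polynomial.coeff_coe, coeff_reverse, natDegree_X_sub_C, map_sub,
      PowerSeries.coeff_one, PowerSeries.coeff_C_mul, PowerSeries.coeff_X]
    rcases n with _ | _ | n
    · simp [revAt_le]
    · simp [revAt_le]
    · have : revAt 1 (n + 1 + 1) = n + 1 + 1 := by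
        rw [revAt]
        simp
      rw [this, coeff_sub, coeff_X, coeff_C]
      simp
  apply mul_right_cancel₀ (rv_ne_zero hm)
  rw [pser_mul_rv hm, natDegree_X_sub_C, hrv]
  have h1 : PowerSeries.mk (fun k => x ^ k) * (1 - PowerSeries.C x * PowerSeries.X) = 1 := by
    ext n
    rw [mul_sub, mul_one, map_sub, ← mul_assoc, mul_comm (PowerSeries.mk _) (PowerSeries.C x),
      mul_assoc, PowerSeries.coeff_C_mul, PowerSeries.coeff_one]
    cases n with
    | zero => simp
    | succ n =>
      rw [PowerSeries.coeff_succ_mul_X, PowerSeries.coeff_mk, PowerSeries.coeff_mk, pow_succ']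
      simp
  rw [h1, map_sub, Derivation.leibniz]
  simp only [Nat.cast_one, map_one, one_mul, smul_eq_mul, PowerSeries.derivative_X,
    PowerSeries.derivative_C, mul_one, mul_zero, add_zero]
  have h2 : PowerSeries.derivative K (1 : PowerSeries K) = 0 := by
    rw [← map_one (PowerSeries.C (R := K)), PowerSeries.derivative_C]
  rw [h2]
  ring

theorem pser_multiset (s : Multiset K) (k : ℕ) :
    PowerSeries.coeff k (pser (s.map (fun r => X - C r)).prod) = (s.map (fun r => r ^ k)).sum := by
  induction s using Multiset.induction_on with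
  | empty => simp [pser_one]
  | cons r s ih =>
    rw [Multiset.map_cons, Multiset.prod_cons, pser_mul (monic_X_sub_C r)
      (monic_multiset_prod_of_monic _ _ (fun r _ => monic_X_sub_C r)), map_add, ih,
      pser_X_sub_C, PowerSeries.coeff_mk, Multiset.map_cons, Multiset.sum_cons]

theorem rv_map {K' : Type*} [Field K'] (φ : K →+* K') (g : K[X]) :
    rv (g.map φ) = PowerSeries.map φ (rv g) := by
  ext n
  rw [rv, rv, Polynomial.coeff_coe, PowerSeries.coeff_map, Polynomial.coeff_coe, coeff_reverse,
    coeff_reverse, natDegree_map, coeff_map]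

theorem derivative_map' {K' : Type*} [Field K'] (φ : K →+* K') (Z : PowerSeries K) :
    PowerSeries.derivative K' (PowerSeries.map φ Z) =
      PowerSeries.map φ (PowerSeries.derivative K Z) := by
  ext n
  rw [PowerSeries.coeff_derivative, PowerSeries.coeff_map, PowerSeries.coeff_map,
    PowerSeries.coeff_derivative, map_mul]
  simp

theorem pser_map {K' : Type*} [Field K'] (φ : K →+* K') {g : K[X]} (hg : g.Monic) :
    pser (g.map φ) = PowerSeries.map φ (pser g) := by
  have hg' : (g.map φ).Monic := hg.map φ
  apply mul_right_cancel₀ (rv_ne_zero hg')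
  rw [pser_mul_rv hg', natDegree_map, rv_map, derivative_map', ← map_mul, pser_mul_rv hg, map_sub,
    map_mul, map_mul, PowerSeries.map_C, PowerSeries.map_X, map_natCast φ]

/-- Changing the coefficient of `X ^ (d - m)` changes the `m`-th power sum only (among the first
`m`), and linearly. -/
theorem coeff_pser_add {g : K[X]} (hg : g.Monic) {m : ℕ} (hm : 0 < m) (hmd : m ≤ g.natDegree)
    (b : K) {k : ℕ} (hk : k ≤ m) :
    PowerSeries.coeff k (pser (g + C b * X ^ (g.natDegree - m))) =
      PowerSeries.coeff k (pser g) + if k = m then -((m : K) * b) else 0 := by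
  set d := g.natDegree with hd
  have hlt : (C b * X ^ (d - m)).natDegree < d :=
    lt_of_le_of_lt (natDegree_C_mul_X_pow_le _ _) (by omega)
  have hg' : (g + C b * X ^ (d - m)).Monic := hg.add_of_left (degree_lt_degree (by omega))
  have hd' : (g + C b * X ^ (d - m)).natDegree = d := by
    rw [natDegree_add_eq_left_of_natDegree_lt (by omega)]
  have hrv : rv (g + C b * X ^ (d - m)) = rv g + PowerSeries.C b * PowerSeries.X ^ m := by
    ext n
    rw [map_add, rv, rv, Polynomial.coeff_coe, Polynomial.coeff_coe, coeff_reverse, coeff_reverse,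
      hd', ← hd, coeff_add, coeff_C_mul, PowerSeries.coeff_C_mul, coeff_X_pow,
      PowerSeries.coeff_X_pow]
    congr 2
    by_cases hn : n ≤ d
    · rw [revAt_le hn]
      by_cases hnm : n = m
      · rw [if_pos (by omega), if_pos hnm]
      · rw [if_neg (by omega), if_neg hnm]
    · have h1 : revAt d n = n := by
        rw [revAt]
        simp [hn]
      rw [h1, if_neg (by omega), if_neg (by omega)]
  obtain ⟨W, hW⟩ : ∃ W : PowerSeries K, W = (PowerSeries.C b * PowerSeries.X *
      PowerSeries.derivative K (rv g) - PowerSeries.C ((m : K) * b) * rv g) *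
        ((rv g)⁻¹ * (rv (g + C b * X ^ (d - m)))⁻¹) := ⟨_, rfl⟩
  have hdiff : pser (g + C b * X ^ (d - m)) = pser g + PowerSeries.X ^ m * W := by
    apply mul_right_cancel₀ (mul_ne_zero (rv_ne_zero hg) (rv_ne_zero hg'))
    have h1 := pser_mul_rv hg
    have h2 := pser_mul_rv hg'
    have h3 : W * (rv g * rv (g + C b * X ^ (d - m))) = PowerSeries.C b * PowerSeries.X *
        PowerSeries.derivative K (rv g) - PowerSeries.C ((m : K) * b) * rv g := by
      rw [hW]
      have := rv_mul_inv hg
      have h' := rv_mul_inv hg'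
      linear_combination (PowerSeries.C b * PowerSeries.X *
        PowerSeries.derivative K (rv g) - PowerSeries.C ((m : K) * b) * rv g) *
        (rv g * (rv g)⁻¹ * h' + this)
    have h4 : PowerSeries.derivative K (rv (g + C b * X ^ (d - m))) =
        PowerSeries.derivative K (rv g) +
          PowerSeries.C ((m : K) * b) * PowerSeries.X ^ (m - 1) := by
      rw [hrv, map_add]
      congr 1
      ext n
      rw [PowerSeries.coeff_derivative, PowerSeries.coeff_C_mul, PowerSeries.coeff_C_mul,
        PowerSeries.coeff_X_pow, PowerSeries.coeff_X_pow]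
      by_cases hn : n + 1 = m
      · rw [if_pos hn, if_pos (by omega), ← hn]
        push_cast
        ring
      · rw [if_neg hn, if_neg (by omega)]
        ring
    rw [h4, hd'] at h2
    rw [← hd] at h1
    have h5 : (PowerSeries.X : PowerSeries K) ^ m = PowerSeries.X * PowerSeries.X ^ (m - 1) := by
      rw [← pow_succ']
      congr 1
      omega
    have h6 : (PowerSeries.C (R := K)) ((m : K) * b) = PowerSeries.C (m : K) * PowerSeries.C b :=
      map_mul _ _ _
    rw [add_mul, mul_assoc (PowerSeries.X ^ m) W, h3]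
    rw [hrv] at h2 ⊢
    rw [h5] at h2 ⊢
    linear_combination rv g * h2 -
      (rv g + PowerSeries.C b * (PowerSeries.X * PowerSeries.X ^ (m - 1))) * h1
  rw [hdiff, map_add, PowerSeries.coeff_X_pow_mul']
  congr 1
  by_cases hkm : k = m
  · rw [if_pos (by omega), if_pos hkm, hkm, Nat.sub_self,
      PowerSeries.coeff_zero_eq_constantCoeff_apply, hW]
    have h1 : PowerSeries.constantCoeff (rv g)⁻¹ = 1 := by
      rw [PowerSeries.constantCoeff_inv, constantCoeff_rv, hg.leadingCoeff, inv_one]
    have h2 : PowerSeries.constantCoeff (rv (g + C b * X ^ (d - m)))⁻¹ = 1 := by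
      rw [PowerSeries.constantCoeff_inv, constantCoeff_rv, hg'.leadingCoeff, inv_one]
    simp only [map_mul, map_sub, h1, h2, PowerSeries.constantCoeff_X, PowerSeries.constantCoeff_C,
      constantCoeff_rv, hg.leadingCoeff]
    ring
  · rw [if_neg (by omega), if_neg hkm]

/-- The sum of the values of `f` at the roots of `g`. -/
noncomputable def tr (f g : K[X]) : K :=
  ∑ k ∈ range (f.natDegree + 1), f.coeff k * PowerSeries.coeff k (pser g)

theorem tr_one (f : K[X]) : tr f 1 = 0 := by
  simp [tr, pser_one]

theorem tr_mul (f : K[X]) {g h : K[X]} (hg : g.Monic) (hh : h.Monic) :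
    tr f (g * h) = tr f g + tr f h := by
  rw [tr, tr, tr, ← Finset.sum_add_distrib]
  refine Finset.sum_congr rfl (fun k _ => ?_)
  rw [pser_mul hg hh, map_add, mul_add]

theorem tr_X_sub_C (f : K[X]) (x : K) : tr f (X - C x) = f.eval x := by
  rw [tr, eval_eq_sum_range]
  refine Finset.sum_congr rfl (fun k _ => ?_)
  rw [pser_X_sub_C, PowerSeries.coeff_mk]

theorem tr_multiset (f : K[X]) (s : Multiset K) :
    tr f (s.map (fun r => X - C r)).prod = (s.map (fun r => f.eval r)).sum := by
  induction s using Multiset.induction_on with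
  | empty => simp [tr_one]
  | cons r s ih =>
    rw [Multiset.map_cons, Multiset.prod_cons, tr_mul f (monic_X_sub_C r)
      (monic_multiset_prod_of_monic _ _ (fun r _ => monic_X_sub_C r)), ih, tr_X_sub_C,
      Multiset.map_cons, Multiset.sum_cons]

theorem tr_map {K' : Type*} [Field K'] (φ : K →+* K') (f : K[X]) {g : K[X]} (hg : g.Monic) :
    tr (f.map φ) (g.map φ) = φ (tr f g) := by
  rw [tr, tr, map_sum, natDegree_map]
  refine Finset.sum_congr rfl (fun k _ => ?_)
  rw [pser_map φ hg, coeff_map, PowerSeries.coeff_map, map_mul]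

theorem tr_add {f g : K[X]} (hg : g.Monic) (hf : 0 < f.natDegree)
    (hd : f.natDegree ≤ g.natDegree) (b : K) :
    tr f (g + C b * X ^ (g.natDegree - f.natDegree)) =
      tr f g - f.natDegree * b * f.leadingCoeff := by
  rw [tr, tr]
  have h : ∀ k ∈ range (f.natDegree + 1), f.coeff k * PowerSeries.coeff k
      (pser (g + C b * X ^ (g.natDegree - f.natDegree))) =
      f.coeff k * PowerSeries.coeff k (pser g) +
        if k = f.natDegree then -((f.natDegree : K) * b * f.leadingCoeff) else 0 := by
    intro k hk
    rw [Finset.mem_range] at hk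
    rw [coeff_pser_add hg hf hd b (by omega), mul_add]
    congr 1
    split_ifs with hkf
    · rw [hkf, leadingCoeff]; ring
    · rw [mul_zero]
  rw [Finset.sum_congr rfl h, Finset.sum_add_distrib, Finset.sum_ite_eq',
    if_pos (Finset.mem_range.2 (by omega))]
  ring

end PSer

section Char

variable {F : Type*} [Field F] (ψ : AddChar F ℂ) (f : F[X])

/-- `lamA ψ f g = ψ (∑ f(θ))`, the sum over the roots `θ` of `g`. -/
noncomputable def lamA (g : F[X]) : ℂ := ψ (tr f g)

theorem lamA_one : lamA ψ f 1 = 1 := by
  rw [lamA, tr_one, AddChar.map_zero_eq_one]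

theorem lamA_mul {g h : F[X]} (hg : g.Monic) (hh : h.Monic) :
    lamA ψ f (g * h) = lamA ψ f g * lamA ψ f h := by
  rw [lamA, tr_mul f hg hh, AddChar.map_add_eq_mul]
  rfl

variable [Fintype F]

/-- The sum of `lamA` over the monic polynomials of degree `d`. -/
noncomputable def sumA (d : ℕ) : ℂ := ∑ g ∈ monics F d, lamA ψ f g

/-- The sum of `deg P lamA(P) ^ (k / deg P)` over the monic irreducible `P` with `deg P ∣ k`. -/
noncomputable def cA (k : ℕ) : ℂ :=
  ∑ P ∈ irr F k with P.natDegree ∣ k, (P.natDegree : ℂ) * lamA ψ f P ^ (k / P.natDegree)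

theorem newtonA (d : ℕ) :
    (d : ℂ) * sumA ψ f d = ∑ k ∈ Icc 1 d, cA ψ f k * sumA ψ f (d - k) :=
  newton_gen (lamA_one ψ f) (fun _ _ hg hh => lamA_mul ψ f hg hh) d

theorem sumA_zero : sumA ψ f 0 = 1 := by
  have h : monics F 0 = {1} := by
    ext f
    rw [mem_monics, Finset.mem_singleton]
    constructor
    · rintro ⟨h1, h2⟩
      exact (Monic.natDegree_eq_zero h1).1 h2
    · rintro rfl
      exact ⟨monic_one, natDegree_one⟩
  rw [sumA, h, Finset.sum_singleton, lamA_one]

theorem sumA_one : sumA ψ f 1 = ∑ x : F, ψ (f.eval x) := by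
  rw [sumA]
  refine Finset.sum_nbij' (fun g => -g.coeff 0) (fun a => X - C a) (fun _ _ => Finset.mem_univ _)
    (fun a _ => mem_monics.2 ⟨monic_X_sub_C a, natDegree_X_sub_C a⟩) ?_ ?_ ?_
  · intro g hg
    obtain ⟨h1, h2⟩ := mem_monics.1 hg
    conv_rhs => rw [h1.eq_X_add_C h2]
    simp
  · intro a _
    simp
  · intro g hg
    obtain ⟨h1, h2⟩ := mem_monics.1 hg
    have h3 : g = X - C (-g.coeff 0) := by
      conv_lhs => rw [h1.eq_X_add_C h2]
      simp
    conv_lhs => rw [h3, lamA, tr_X_sub_C]

theorem sumA_eq_zero (hψ : ψ ≠ 1) (hf : (f.natDegree : F) ≠ 0) {d : ℕ} (hd : f.natDegree ≤ d) :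
    sumA ψ f d = 0 := by
  have hf0 : 0 < f.natDegree := by
    rcases Nat.eq_zero_or_pos f.natDegree with h | h
    · rw [h, Nat.cast_zero] at hf
      exact absurd rfl hf
    · exact h
  have hlc : f.leadingCoeff ≠ 0 := leadingCoeff_ne_zero.2 (by rintro rfl; simp at hf0)
  obtain ⟨y, hy⟩ := AddChar.ne_one_iff.1 hψ
  obtain ⟨b, hb⟩ : ∃ b : F, (f.natDegree : F) * b * f.leadingCoeff = -y :=
    ⟨-y / ((f.natDegree : F) * f.leadingCoeff), by field_simp⟩
  have hmem : ∀ (v : F) (g : F[X]), g ∈ monics F d →
      g + C v * X ^ (d - f.natDegree) ∈ monics F d :=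
    fun v g hg => add_mem_monics hg (lt_of_le_of_lt (natDegree_C_mul_X_pow_le _ _) (by omega))
  have key : sumA ψ f d = ψ y * sumA ψ f d := by
    rw [sumA, Finset.mul_sum]
    refine (Finset.sum_nbij' (fun g => g + C b * X ^ (d - f.natDegree))
      (fun g => g + C (-b) * X ^ (d - f.natDegree)) (fun g hg => hmem _ g hg)
      (fun g hg => hmem _ g hg) (fun g _ => ?_) (fun g _ => ?_) (fun g hg => ?_)).symm
    · rw [C_neg]; ring
    · rw [C_neg]; ring
    · obtain ⟨h1, h2⟩ := mem_monics.1 hg
      have h3 := tr_add (f := f) h1 hf0 (by omega) b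
      rw [h2, hb, sub_neg_eq_add] at h3
      rw [lamA, lamA, h3, AddChar.map_add_eq_mul, mul_comm]
  have : (1 - ψ y) * sumA ψ f d = 0 := by rw [sub_mul, one_mul, ← key, sub_self]
  exact (mul_eq_zero.1 this).resolve_left (sub_ne_zero.2 (Ne.symm hy))

end Char

section Ext

variable {F : Type*} {E : Type*} [Field F] [Finite F] [Field E] [Finite E] [Algebra F E]

theorem trace_gen_eq_tr (f : F[X]) (x : E) :
    Algebra.trace F (IntermediateField.adjoin F {x})
      (aeval (IntermediateField.AdjoinSimple.gen F x) f) = tr f (minpoly F x) := by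
  classical
  have : FiniteDimensional F E := Module.Finite.of_finite
  have hx : IsIntegral F x := .of_finite F x
  let pb := IntermediateField.adjoin.powerBasis hx
  have hgen : pb.gen = IntermediateField.AdjoinSimple.gen F x :=
    IntermediateField.adjoin.powerBasis_gen hx
  have hmin : minpoly F pb.gen = minpoly F x := by
    rw [hgen, IntermediateField.minpoly_gen]
  apply FaithfulSMul.algebraMap_injective F (AlgebraicClosure F)
  rw [trace_eq_sum_embeddings (AlgebraicClosure F), ← tr_map _ f (minpoly.monic hx)]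
  have hspl : ((minpoly F x).map (algebraMap F (AlgebraicClosure F))).Splits :=
    IsAlgClosed.splits _
  have hmon : ((minpoly F x).map (algebraMap F (AlgebraicClosure F))).Monic :=
    (minpoly.monic hx).map _
  have hprod := hspl.eq_prod_roots_of_monic hmon
  conv_rhs => rw [hprod]
  rw [tr_multiset]
  have hfin : Fintype {y : AlgebraicClosure F // y ∈ (minpoly F pb.gen).aroots
    (AlgebraicClosure F)} := Fintype.ofFinite _
  rw [Fintype.sum_equiv pb.liftEquiv'
    (fun σ => σ (aeval (IntermediateField.AdjoinSimple.gen F x) f))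
    (fun y => eval (y : AlgebraicClosure F) (f.map (algebraMap F (AlgebraicClosure F)))) ?_]
  · have hnd : ((minpoly F pb.gen).aroots (AlgebraicClosure F)).Nodup := by
      rw [hmin]
      exact nodup_roots (Separable.map (Algebra.IsSeparable.isSeparable F x))
    rw [← hmin]
    rw [← Finset.sum_subtype ((minpoly F pb.gen).aroots (AlgebraicClosure F)).toFinset
      (fun y => by rw [Multiset.mem_toFinset])
      (fun y => eval y (f.map (algebraMap F (AlgebraicClosure F))))]
    rw [Finset.sum_eq_multiset_sum, Multiset.toFinset_val, Multiset.dedup_eq_self.2 hnd]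
  · intro σ
    rw [PowerBasis.liftEquiv'_apply_coe, hgen, eval_map_algebraMap, ← aeval_algHom_apply]

theorem char_trace (ψ : AddChar F ℂ) (f : F[X]) (x : E) :
    ψ (Algebra.trace F E (aeval x f)) =
      lamA ψ f (minpoly F x) ^ (Module.finrank F E / (minpoly F x).natDegree) := by
  have : FiniteDimensional F E := Module.Finite.of_finite
  have hx : IsIntegral F x := .of_finite F x
  have hfr : Module.finrank F (IntermediateField.adjoin F {x}) = (minpoly F x).natDegree :=
    IntermediateField.adjoin.finrank hx
  have hq : Module.finrank F E / (minpoly F x).natDegree =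
      Module.finrank (IntermediateField.adjoin F {x}) E := by
    rw [← Module.finrank_mul_finrank F (IntermediateField.adjoin F {x}) E, hfr,
      Nat.mul_div_cancel_left _ (minpoly.natDegree_pos hx)]
  have h1 : aeval x f = algebraMap (IntermediateField.adjoin F {x}) E
      (aeval (IntermediateField.AdjoinSimple.gen F x) f) := by
    rw [← aeval_algebraMap_apply, IntermediateField.AdjoinSimple.algebraMap_gen]
  rw [hq, h1, ← Algebra.trace_trace (S := IntermediateField.adjoin F {x}),
    Algebra.trace_algebraMap, map_nsmul, AddChar.map_nsmul_eq_pow, trace_gen_eq_tr, lamA]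

/-- `cA ψ f [E : F]` is the sum of the lifted character `ψ ∘ Tr_{E/F}` at the `f(x)`, `x ∈ E`. -/
theorem cA_finrank {F E : Type*} [Field F] [Fintype F] [Field E] [Fintype E] [Algebra F E]
    (ψ : AddChar F ℂ) (f : F[X]) :
    cA ψ f (Module.finrank F E) = ∑ x : E, ψ (Algebra.trace F E (aeval x f)) := by
  classical
  have : FiniteDimensional F E := Module.Finite.of_finite
  have hpos : 0 < Module.finrank F E := Module.finrank_pos
  symm
  rw [cA, ← Finset.sum_fiberwise_of_maps_to (g := fun x : E => minpoly F x)
    (t := {P ∈ irr F (Module.finrank F E) | P.natDegree ∣ Module.finrank F E})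
    (fun x _ => ?_)]
  · refine Finset.sum_congr rfl (fun P hP => ?_)
    rw [Finset.mem_filter, mem_irr] at hP
    obtain ⟨⟨hm, hi, hle⟩, hd⟩ := hP
    rw [Finset.sum_congr rfl (g := fun _ => lamA ψ f P ^ (Module.finrank F E / P.natDegree))
      (fun x hx => ?_), Finset.sum_const, card_minpoly_eq hm hi hd, nsmul_eq_mul]
    rw [Finset.mem_filter] at hx
    rw [char_trace, hx.2]
  · have hx : IsIntegral F x := .of_finite F x
    rw [Finset.mem_filter, mem_irr]
    exact ⟨⟨minpoly.monic hx, minpoly.irreducible hx, Nat.le_of_dvd hpos (minpoly.degree_dvd hx)⟩,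
      minpoly.degree_dvd hx⟩

end Ext

end Fermat.Agent.Cor.WeilC
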