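import Fermat.Agent.Corollaries.WeilC.CharSumAdd
import Fermat.Agent.Corollaries.WeilC.NewtonAdd
import Fermat.Agent.Corollaries.WeilC.Power
import Fermat.Agent.Corollaries.Weil.Main

/-!
# Weil's bound for exponential sums

* `norm_expSum_le` : `|∑ ψ(f(x))| ≤ (deg f - 1) √q` for every additive character `ψ ≠ 1` of the
  finite field `F` with `q` elements and every polynomial `f` over `F` whose degree is prime to the
  characteristic.
* `norm_sum_exp_le` : `|∑ e(f(x) / p)| ≤ (deg f - 1) √p`, the sum over `x` modulo `p`.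
-/

set_option autoImplicit false

namespace Fermat.Agent.Cor.WeilC

open Polynomial Finset

variable {F : Type*} [Field F] [Fintype F]

/-- **Weil's bound for exponential sums** (1948): `|∑ ψ(f(x))| ≤ (deg f - 1) √q`. -/
theorem norm_expSum_le (f : F[X]) {ψ : AddChar F ℂ} (hψ : ψ ≠ 1)
    (hf : (f.natDegree : F) ≠ 0) :
    ‖∑ x : F, ψ (f.eval x)‖ ≤ ((f.natDegree : ℝ) - 1) * √(Fintype.card F) := by
  obtain ⟨p, hp⟩ := CharP.exists F
  have hpp : p.Prime := CharP.char_is_prime F p
  have : Fact p.Prime := ⟨hpp⟩
  have hc : f.natDegree.Coprime p := by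
    rw [Nat.coprime_comm, hpp.coprime_iff_not_dvd]
    intro h
    exact hf ((CharP.cast_eq_zero_iff F p _).2 h)
  have hm0 : 0 < f.natDegree := by
    rcases Nat.eq_zero_or_pos f.natDegree with h | h
    · rw [h, Nat.cast_zero] at hf
      exact absurd rfl hf
    · exact h
  obtain ⟨K, hK0, hK⟩ := charAddStmt_of.{0} hpp (stepanov_add hpp hc)
  have hR : (0 : ℝ) < √(Fintype.card F) := by
    rw [Real.sqrt_pos]
    exact_mod_cast Fintype.card_pos
  have key := norm_le (D := f.natDegree - 1) (A := sumA ψ f) (c := cA ψ f) (C := K) hR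
    (sumA_zero ψ f) (fun d hd => sumA_eq_zero ψ f hψ hf (by omega)) (newtonA ψ f)
    (fun k hk => ?_)
  · rw [sumA_one, Nat.cast_sub (by omega), Nat.cast_one] at key
    exact key
  · have : NeZero k := ⟨by omega⟩
    have : Fintype (FiniteField.Extension F p k) := Fintype.ofFinite _
    have hchar : CharP (FiniteField.Extension F p k) p :=
      charP_of_injective_algebraMap (algebraMap F (FiniteField.Extension F p k)).injective p
    have h1 := cA_finrank (E := FiniteField.Extension F p k) ψ f
    rw [FiniteField.finrank_extension] at h1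
    have hψ' : Weil.liftAdd (FiniteField.Extension F p k) ψ ≠ 1 := by
      intro h
      apply hψ
      ext x
      have : Module.Finite F (FiniteField.Extension F p k) := Module.Finite.of_finite
      obtain ⟨y, rfl⟩ := Algebra.trace_surjective F (FiniteField.Extension F p k) x
      rw [← Weil.liftAdd_apply, h, AddChar.one_apply, AddChar.one_apply]
    have h2 := hK (FiniteField.Extension F p k)
      (f.map (algebraMap F (FiniteField.Extension F p k)))
      (Weil.liftAdd (FiniteField.Extension F p k) ψ) (natDegree_map _) hψ'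
    have h3 : ∑ x : FiniteField.Extension F p k, Weil.liftAdd (FiniteField.Extension F p k) ψ
        ((f.map (algebraMap F (FiniteField.Extension F p k))).eval x) = cA ψ f k := by
      rw [h1]
      refine Finset.sum_congr rfl fun x _ => ?_
      rw [Weil.liftAdd_apply, eval_map_algebraMap]
    have h4 : √(Fintype.card (FiniteField.Extension F p k) : ℝ) = √(Fintype.card F) ^ k := by
      rw [← Nat.card_eq_fintype_card, FiniteField.natCard_extension, Nat.card_eq_fintype_card]
      push_cast
      rw [Real.sqrt_eq_iff_mul_self_eq (by positivity) (by positivity), ← mul_pow,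
        Real.mul_self_sqrt (by positivity)]
    rw [h3, h4] at h2
    exact h2

/-- `|∑ e(f(x) / p)| ≤ (deg f - 1) √p` for the polynomials with integral coefficients, if `p`
divides neither the leading coefficient nor the degree of `f`. -/
theorem norm_sum_exp_le {p : ℕ} [hp : Fact p.Prime] {f : ℤ[X]}
    (hl : ¬ (p : ℤ) ∣ f.leadingCoeff) (hd : ¬ p ∣ f.natDegree) :
    ‖∑ x ∈ range p, Complex.exp (2 * Real.pi * Complex.I * (f.eval (x : ℤ) : ℤ) / p)‖ ≤
      ((f.natDegree : ℝ) - 1) * √(p : ℝ) := by
  set g : (ZMod p)[X] := f.map (Int.castRingHom (ZMod p)) with hg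
  have hl' : (Int.castRingHom (ZMod p)) f.leadingCoeff ≠ 0 := by
    rw [eq_intCast, Ne, ZMod.intCast_zmod_eq_zero_iff_dvd]
    exact hl
  have hgd : g.natDegree = f.natDegree := natDegree_map_of_leadingCoeff_ne_zero _ hl'
  have h1 : ZMod.stdAddChar (N := p) ≠ 1 := by
    intro h
    have h3 : ZMod.stdAddChar (N := p) (1 : ZMod p) = 1 := by rw [h, AddChar.one_apply]
    have h5 : (1 : ZMod p) = 0 :=
      ZMod.injective_stdAddChar (N := p) (by rw [h3, AddChar.map_zero_eq_one])
    exact one_ne_zero h5
  have h2 := norm_expSum_le g h1 (by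
    rw [hgd, Ne, ZMod.natCast_eq_zero_iff]
    exact hd)
  rw [hgd, ZMod.card] at h2
  refine le_of_eq_of_le ?_ h2
  congr 1
  symm
  refine Finset.sum_bij' (fun x _ => x.val) (fun n _ => (n : ZMod p)) ?_ ?_ ?_ ?_ ?_
  · intro x _
    rw [Finset.mem_range]
    exact ZMod.val_lt x
  · intro n _
    exact Finset.mem_univ _
  · intro x _
    rw [ZMod.natCast_val, ZMod.cast_id]
  · intro n hn
    exact ZMod.val_cast_of_lt (Finset.mem_range.1 hn)
  · intro x _
    rw [← ZMod.stdAddChar_coe]
    congr 1
    rw [hg, ← eq_intCast (Int.castRingHom (ZMod p)), ← eval_map_apply]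
    simp

end Fermat.Agent.Cor.WeilC
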