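import Fermat.Agent.Corollaries.WeilC.StepKl
import Fermat.Agent.Corollaries.WeilC.Newton
import Fermat.Agent.Corollaries.WeilC.Power
import Fermat.Agent.Corollaries.Weil.Main

/-!
# Weil's bound for Kloosterman sums

`norm_kloosterman_le` : `|∑ ψ(a x + b / x)| ≤ 2 √q`, the sum over the elements `x ≠ 0` of the finite
field `F` with `q` elements, `ψ ≠ 1` an additive character, `a ≠ 0` and `b ≠ 0`.

The `L`-function is `∑ lamK(g) T ^ (deg g)` over the monic `g` with `g(0) ≠ 0`,
`lamK(g) = ψ(∑ (a θ + b / θ))`, `θ` the roots of `g`. It is a polynomial of degree two.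
-/

set_option autoImplicit false

namespace Fermat.Agent.Cor.WeilC

open Polynomial Finset Weil

section Def

variable {K : Type*} [Field K]

/-- The sum of `a θ + b / θ` over the roots of the monic polynomial `g`. -/
noncomputable def skl (a b : K) (g : K[X]) : K :=
  -(a * g.nextCoeff + b * (g.coeff 1 / g.coeff 0))

theorem skl_one (a b : K) : skl a b 1 = 0 := by
  simp [skl, nextCoeff, coeff_one]

theorem skl_mul (a b : K) {g h : K[X]} (hg : g.Monic) (hh : h.Monic) (hg0 : g.coeff 0 ≠ 0)
    (hh0 : h.coeff 0 ≠ 0) : skl a b (g * h) = skl a b g + skl a b h := by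
  rw [skl, skl, skl, hg.nextCoeff_mul hh, mul_coeff_zero, mul_coeff_one]
  field_simp
  ring

theorem skl_X_sub_C (a b : K) {x : K} (hx : x ≠ 0) : skl a b (X - C x) = a * x + b * x⁻¹ := by
  rw [skl, nextCoeff_X_sub_C]
  simp only [coeff_sub, coeff_X_one, coeff_X_zero, coeff_C_zero, coeff_C_succ]
  field_simp
  ring

theorem skl_multiset (a b : K) (s : Multiset K) (hs : (0 : K) ∉ s) :
    skl a b (s.map fun y => X - C y).prod = (s.map fun y => a * y + b * y⁻¹).sum := by
  induction s using Multiset.induction_on with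
  | empty => simp [skl_one]
  | cons y s ih =>
    have hy : y ≠ 0 := fun h => hs (h ▸ Multiset.mem_cons_self _ _)
    have hs' : (0 : K) ∉ s := fun h => hs (Multiset.mem_cons_of_mem h)
    have hc : (s.map fun y => X - C y).prod.coeff 0 ≠ 0 := by
      rw [coeff_zero_eq_eval_zero, eval_multiset_prod, Multiset.map_map]
      refine Multiset.prod_ne_zero fun h => ?_
      obtain ⟨z, hz, hz0⟩ := Multiset.mem_map.1 h
      apply hs'
      simp only [Function.comp_apply, eval_sub, eval_X, eval_C, zero_sub, neg_eq_zero] at hz0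
      exact hz0 ▸ hz
    rw [Multiset.map_cons, Multiset.prod_cons, Multiset.map_cons, Multiset.sum_cons,
      skl_mul a b (monic_X_sub_C y) (monic_multiset_prod_of_monic _ _ fun z _ =>
        monic_X_sub_C z) (by simpa using hy) hc, skl_X_sub_C a b hy, ih hs']

end Def

section Sum

variable {F : Type*} [Field F] [Fintype F] [DecidableEq F] (ψ : AddChar F ℂ) (a b : F)

/-- The completely multiplicative function of the Kloosterman sums. -/
noncomputable def lamK (g : F[X]) : ℂ := if g.coeff 0 = 0 then 0 else ψ (skl a b g)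

omit [Fintype F] in
theorem lamK_one : lamK ψ a b 1 = 1 := by
  rw [lamK, if_neg (by simp), skl_one, AddChar.map_zero_eq_one]

omit [Fintype F] in
theorem lamK_mul {g h : F[X]} (hg : g.Monic) (hh : h.Monic) :
    lamK ψ a b (g * h) = lamK ψ a b g * lamK ψ a b h := by
  rw [lamK, lamK, lamK]
  by_cases h1 : g.coeff 0 = 0
  · rw [if_pos (by rw [mul_coeff_zero, h1, zero_mul]), if_pos h1, zero_mul]
  by_cases h2 : h.coeff 0 = 0
  · rw [if_pos (by rw [mul_coeff_zero, h2, mul_zero]), if_pos h2, mul_zero]
  rw [if_neg (by rw [mul_coeff_zero]; exact mul_ne_zero h1 h2), if_neg h1, if_neg h2,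
    skl_mul a b hg hh h1 h2, AddChar.map_add_eq_mul]

/-- The coefficients of the `L`-function. -/
noncomputable def sumK (d : ℕ) : ℂ := ∑ g ∈ monics F d, lamK ψ a b g

/-- The coefficients of the logarithmic derivative. -/
noncomputable def cK (k : ℕ) : ℂ :=
  ∑ P ∈ irr F k with P.natDegree ∣ k, (P.natDegree : ℂ) * lamK ψ a b P ^ (k / P.natDegree)

theorem newtonK (d : ℕ) :
    (d : ℂ) * sumK ψ a b d = ∑ k ∈ Icc 1 d, cK ψ a b k * sumK ψ a b (d - k) :=
  newton_gen (lamK_one ψ a b) (fun _ _ hg hh => lamK_mul ψ a b hg hh) d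

theorem sumK_zero : sumK ψ a b 0 = 1 := by
  have h : monics F 0 = {1} := by
    ext f
    rw [mem_monics, Finset.mem_singleton]
    constructor
    · rintro ⟨h1, h2⟩
      exact (Monic.natDegree_eq_zero h1).1 h2
    · rintro rfl
      exact ⟨monic_one, natDegree_one⟩
  rw [sumK, h, Finset.sum_singleton, lamK_one]

theorem sumK_one : sumK ψ a b 1 = ∑ x ∈ univ.erase (0 : F), ψ (a * x + b * x⁻¹) := by
  have h1 : sumK ψ a b 1 = ∑ x : F, lamK ψ a b (X - C x) := by
    rw [sumK]
    refine Finset.sum_nbij' (fun g => -g.coeff 0) (fun a => X - C a)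
      (fun _ _ => Finset.mem_univ _)
      (fun a _ => mem_monics.2 ⟨monic_X_sub_C a, natDegree_X_sub_C a⟩) ?_ ?_ ?_
    · intro g hg
      obtain ⟨h1, h2⟩ := mem_monics.1 hg
      conv_rhs => rw [h1.eq_X_add_C h2]
      simp
    · intro a _
      simp
    · intro g hg
      obtain ⟨h1, h2⟩ := mem_monics.1 hg
      congr 1
      conv_lhs => rw [h1.eq_X_add_C h2]
      simp
  rw [h1, ← Finset.sum_erase_add _ _ (Finset.mem_univ (0 : F)), lamK,
    if_pos (by simp), add_zero]
  refine Finset.sum_congr rfl fun x hx => ?_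
  have hx0 := Finset.ne_of_mem_erase hx
  rw [lamK, if_neg (by simpa using hx0), skl_X_sub_C a b hx0]

theorem sumK_eq_zero {ψ : AddChar F ℂ} (hψ : ψ ≠ 1) {a : F} (ha : a ≠ 0) (b : F) {d : ℕ}
    (hd : 2 < d) : sumK ψ a b d = 0 := by
  obtain ⟨u, hu⟩ := AddChar.ne_one_iff.1 hψ
  have key : sumK ψ a b d = ψ u * sumK ψ a b d := by
    rw [sumK, Finset.mul_sum]
    have hmem : ∀ (v : F) (f : F[X]), f ∈ monics F d → f + C v * X ^ (d - 1) ∈ monics F d :=
      fun v f hf => add_mem_monics hf (lt_of_le_of_lt (natDegree_C_mul_X_pow_le _ _) (by omega))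
    refine (Finset.sum_nbij' (fun f => f + C (-(u / a)) * X ^ (d - 1))
      (fun f => f + C (u / a) * X ^ (d - 1))
      (fun f hf => hmem _ f hf) (fun f hf => hmem _ f hf) (fun f _ => ?_) (fun f _ => ?_)
      (fun f hf => ?_)).symm
    · rw [C_neg]; ring
    · rw [C_neg]; ring
    · have h1 := (mem_monics.1 hf).2
      have h2 := (mem_monics.1 (hmem (-(u / a)) f hf)).2
      have c0 : (f + C (-(u / a)) * X ^ (d - 1)).coeff 0 = f.coeff 0 := by
        rw [coeff_add, coeff_C_mul, coeff_X_pow, if_neg (by omega), mul_zero, add_zero]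
      have c1 : (f + C (-(u / a)) * X ^ (d - 1)).coeff 1 = f.coeff 1 := by
        rw [coeff_add, coeff_C_mul, coeff_X_pow, if_neg (by omega), mul_zero, add_zero]
      rw [lamK, lamK, c0]
      split_ifs with h0
      · rw [mul_zero]
      · rw [← AddChar.map_add_eq_mul]
        congr 1
        rw [skl, skl, c0, c1, nextCoeff_of_natDegree_pos (by omega),
          nextCoeff_of_natDegree_pos (by omega), h1, h2, coeff_add, coeff_C_mul, coeff_X_pow,
          if_pos rfl]
        field_simp
        ring
  have : (1 - ψ u) * sumK ψ a b d = 0 := by rw [sub_mul, one_mul, ← key, sub_self]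
  exact (mul_eq_zero.1 this).resolve_left (sub_ne_zero.2 (Ne.symm hu))

end Sum

section Ext

variable {F : Type*} {E : Type*} [Field F] [Finite F] [Field E] [Finite E] [Algebra F E]

theorem trace_gen_eq_skl (a b : F) {x : E} (hx0 : x ≠ 0) :
    Algebra.trace F (IntermediateField.adjoin F {x})
      (a • IntermediateField.AdjoinSimple.gen F x +
        b • (IntermediateField.AdjoinSimple.gen F x)⁻¹) = skl a b (minpoly F x) := by
  classical
  have : FiniteDimensional F E := Module.Finite.of_finite
  have hx : IsIntegral F x := .of_finite F x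
  let pb := IntermediateField.adjoin.powerBasis hx
  have hgen : pb.gen = IntermediateField.AdjoinSimple.gen F x :=
    IntermediateField.adjoin.powerBasis_gen hx
  have hmin : minpoly F pb.gen = minpoly F x := by
    rw [hgen, IntermediateField.minpoly_gen]
  have hc0 : (minpoly F x).coeff 0 ≠ 0 := minpoly.coeff_zero_ne_zero hx hx0
  apply FaithfulSMul.algebraMap_injective F (AlgebraicClosure F)
  rw [trace_eq_sum_embeddings (AlgebraicClosure F)]
  have hspl : ((minpoly F x).map (algebraMap F (AlgebraicClosure F))).Splits :=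
    IsAlgClosed.splits _
  have hmon : ((minpoly F x).map (algebraMap F (AlgebraicClosure F))).Monic :=
    (minpoly.monic hx).map _
  have hmap : algebraMap F (AlgebraicClosure F) (skl a b (minpoly F x)) =
      skl (algebraMap F (AlgebraicClosure F) a) (algebraMap F (AlgebraicClosure F) b)
        ((minpoly F x).map (algebraMap F (AlgebraicClosure F))) := by
    rw [skl, skl, coeff_map, coeff_map, nextCoeff_map (algebraMap F _).injective]
    simp only [map_neg, map_add, map_mul, map_div₀]
  rw [hmap]
  have hprod := hspl.eq_prod_roots_of_monic hmon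
  have h0 : (0 : AlgebraicClosure F) ∉ ((minpoly F x).map
      (algebraMap F (AlgebraicClosure F))).roots := by
    intro h
    rw [mem_roots hmon.ne_zero, IsRoot.def, ← coeff_zero_eq_eval_zero, coeff_map,
      map_eq_zero] at h
    exact hc0 h
  conv_rhs => rw [hprod]
  rw [skl_multiset _ _ _ h0]
  have hfin : Fintype {y : AlgebraicClosure F // y ∈ (minpoly F pb.gen).aroots
    (AlgebraicClosure F)} := Fintype.ofFinite _
  rw [Fintype.sum_equiv pb.liftEquiv'
    (fun σ => σ (a • IntermediateField.AdjoinSimple.gen F x +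
        b • (IntermediateField.AdjoinSimple.gen F x)⁻¹))
    (fun y => algebraMap F (AlgebraicClosure F) a * (y : AlgebraicClosure F) +
      algebraMap F (AlgebraicClosure F) b * (y : AlgebraicClosure F)⁻¹) ?_]
  · have hnd : ((minpoly F pb.gen).aroots (AlgebraicClosure F)).Nodup := by
      rw [hmin]
      exact nodup_roots (Separable.map (Algebra.IsSeparable.isSeparable F x))
    rw [← hmin]
    rw [← Finset.sum_subtype ((minpoly F pb.gen).aroots (AlgebraicClosure F)).toFinset
      (fun y => by rw [Multiset.mem_toFinset])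
      (fun y => algebraMap F (AlgebraicClosure F) a * y +
        algebraMap F (AlgebraicClosure F) b * y⁻¹)]
    rw [Finset.sum_eq_multiset_sum, Multiset.toFinset_val, Multiset.dedup_eq_self.2 hnd]
  · intro σ
    rw [PowerBasis.liftEquiv'_apply_coe, hgen, map_add, map_smul, map_smul, map_inv₀,
      Algebra.smul_def, Algebra.smul_def]

theorem char_kl [DecidableEq F] (ψ : AddChar F ℂ) (a b : F) {x : E} (hx0 : x ≠ 0) :
    ψ (Algebra.trace F E (algebraMap F E a * x + algebraMap F E b * x⁻¹)) =
      lamK ψ a b (minpoly F x) ^ (Module.finrank F E / (minpoly F x).natDegree) := by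
  have : FiniteDimensional F E := Module.Finite.of_finite
  have hx : IsIntegral F x := .of_finite F x
  have hc0 : (minpoly F x).coeff 0 ≠ 0 := minpoly.coeff_zero_ne_zero hx hx0
  have hfr : Module.finrank F (IntermediateField.adjoin F {x}) = (minpoly F x).natDegree :=
    IntermediateField.adjoin.finrank hx
  have hq : Module.finrank F E / (minpoly F x).natDegree =
      Module.finrank (IntermediateField.adjoin F {x}) E := by
    rw [← Module.finrank_mul_finrank F (IntermediateField.adjoin F {x}) E, hfr,
      Nat.mul_div_cancel_left _ (minpoly.natDegree_pos hx)]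
  have h1 : algebraMap F E a * x + algebraMap F E b * x⁻¹ =
      algebraMap (IntermediateField.adjoin F {x}) E
      (a • IntermediateField.AdjoinSimple.gen F x +
        b • (IntermediateField.AdjoinSimple.gen F x)⁻¹) := by
    rw [map_add, Algebra.smul_def, Algebra.smul_def, map_mul, map_mul, map_inv₀,
      IntermediateField.AdjoinSimple.algebraMap_gen, ← IsScalarTower.algebraMap_apply,
      ← IsScalarTower.algebraMap_apply]
  rw [hq, h1, ← Algebra.trace_trace (S := IntermediateField.adjoin F {x}),
    Algebra.trace_algebraMap, map_nsmul, AddChar.map_nsmul_eq_pow, trace_gen_eq_skl a b hx0, lamK,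
    if_neg hc0]

theorem cK_finrank {F E : Type*} [Field F] [Fintype F] [DecidableEq F] [Field E] [Fintype E]
    [DecidableEq E] [Algebra F E] (ψ : AddChar F ℂ) (a b : F) :
    cK ψ a b (Module.finrank F E) = ∑ x ∈ univ.erase (0 : E),
      ψ (Algebra.trace F E (algebraMap F E a * x + algebraMap F E b * x⁻¹)) := by
  classical
  have : FiniteDimensional F E := Module.Finite.of_finite
  have hpos : 0 < Module.finrank F E := Module.finrank_pos
  symm
  have h0 : lamK ψ a b (minpoly F (0 : E)) ^
      (Module.finrank F E / (minpoly F (0 : E)).natDegree) = 0 := by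
    rw [minpoly.zero, lamK, if_pos (by simp), natDegree_X, Nat.div_one, zero_pow hpos.ne']
  have h2 : ∑ x ∈ univ.erase (0 : E),
      ψ (Algebra.trace F E (algebraMap F E a * x + algebraMap F E b * x⁻¹)) =
      ∑ x : E, lamK ψ a b (minpoly F x) ^
        (Module.finrank F E / (minpoly F x).natDegree) := by
    rw [← Finset.sum_erase_add _ _ (Finset.mem_univ (0 : E)), h0, add_zero]
    exact Finset.sum_congr rfl fun x hx => char_kl ψ a b (Finset.ne_of_mem_erase hx)
  rw [h2, cK, ← Finset.sum_fiberwise_of_maps_to (g := fun x : E => minpoly F x)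
    (t := {P ∈ irr F (Module.finrank F E) | P.natDegree ∣ Module.finrank F E})
    (fun x _ => ?_)]
  · refine Finset.sum_congr rfl (fun P hP => ?_)
    rw [Finset.mem_filter, mem_irr] at hP
    obtain ⟨⟨hm, hi, hle⟩, hd⟩ := hP
    rw [Finset.sum_congr rfl (g := fun _ => lamK ψ a b P ^ (Module.finrank F E / P.natDegree))
      (fun x hx => ?_), Finset.sum_const, card_minpoly_eq hm hi hd, nsmul_eq_mul]
    rw [Finset.mem_filter] at hx
    rw [hx.2]
  · have hx : IsIntegral F x := .of_finite F x
    rw [Finset.mem_filter, mem_irr]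
    exact ⟨⟨minpoly.monic hx, minpoly.irreducible hx, Nat.le_of_dvd hpos (minpoly.degree_dvd hx)⟩,
      minpoly.degree_dvd hx⟩

end Ext

/-- **Weil's bound for Kloosterman sums** (1948): `|∑ ψ(a x + b / x)| ≤ 2 √q`. -/
theorem norm_kloosterman_le {F : Type*} [Field F] [Fintype F] [DecidableEq F]
    {ψ : AddChar F ℂ} (hψ : ψ ≠ 1) {a : F} (ha : a ≠ 0) (b : F) :
    ‖∑ x ∈ univ.erase (0 : F), ψ (a * x + b * x⁻¹)‖ ≤ 2 * √(Fintype.card F) := by
  classical
  obtain ⟨p, hp⟩ := CharP.exists F
  have hpp : p.Prime := CharP.char_is_prime F p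
  have : Fact p.Prime := ⟨hpp⟩
  obtain ⟨K, hK0, hK⟩ := kloosterman_le.{0} hpp
  have hR : (0 : ℝ) < √(Fintype.card F) := by
    rw [Real.sqrt_pos]
    exact_mod_cast Fintype.card_pos
  have key := norm_le (D := 2) (A := sumK ψ a b) (c := cK ψ a b) (C := K) hR
    (sumK_zero ψ a b) (fun d hd => sumK_eq_zero hψ ha b hd) (newtonK ψ a b)
    (fun k hk => ?_)
  · rw [sumK_one] at key
    exact_mod_cast key
  · have : NeZero k := ⟨by omega⟩
    have : Fintype (FiniteField.Extension F p k) := Fintype.ofFinite _
    have hchar : CharP (FiniteField.Extension F p k) p :=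
      charP_of_injective_algebraMap (algebraMap F (FiniteField.Extension F p k)).injective p
    have h1 := cK_finrank (E := FiniteField.Extension F p k) ψ a b
    rw [FiniteField.finrank_extension] at h1
    have hψ' : Weil.liftAdd (FiniteField.Extension F p k) ψ ≠ 1 := by
      intro h
      apply hψ
      ext x
      have : Module.Finite F (FiniteField.Extension F p k) := Module.Finite.of_finite
      obtain ⟨y, rfl⟩ := Algebra.trace_surjective F (FiniteField.Extension F p k) x
      rw [← Weil.liftAdd_apply, h, AddChar.one_apply, AddChar.one_apply]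
    have h2 := hK (FiniteField.Extension F p k)
      (algebraMap F (FiniteField.Extension F p k) a)
      (algebraMap F (FiniteField.Extension F p k) b)
      (Weil.liftAdd (FiniteField.Extension F p k) ψ)
      ((map_ne_zero_iff _ (algebraMap F (FiniteField.Extension F p k)).injective).2 ha) hψ'
    have h4 : √(Fintype.card (FiniteField.Extension F p k) : ℝ) = √(Fintype.card F) ^ k := by
      rw [← Nat.card_eq_fintype_card, FiniteField.natCard_extension, Nat.card_eq_fintype_card]
      push_cast
      rw [Real.sqrt_eq_iff_mul_self_eq (by positivity) (by positivity), ← mul_pow,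
        Real.mul_self_sqrt (by positivity)]
    rw [h4] at h2
    rw [h1]
    exact h2

end Fermat.Agent.Cor.WeilC
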