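import Fermat.Agent.Corollaries.WeilC.Main

/-!
# Patterns of quadratic residues

Let `F` be a finite field with `q` elements, `q` odd, `χ` the quadratic character, `A` a set of
`k` elements of `F` and `ε(a) = ± 1` for `a ∈ A`.

* `norm_sum_prod_le` : `|∑ χ(∏ (x + a))| ≤ k √q` for `k ≥ 1` (for `k` even the substitution
  `x = 1 / t - a₀` gives a polynomial of degree `k - 1`).
* `abs_card_pattern_sub_le` : the number of the `x` with `χ(x + a) = ε(a)` for all `a ∈ A` differs
  from `q / 2 ^ k` by at most `k (√q + 1)`.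
* `exists_pattern` : so every pattern occurs if `q ≥ (2 ^ k (k + 1)) ^ 2`.
* `exists_legendreSym_pattern` : every pattern of `k` quadratic residues and nonresidues occurs
  among consecutive integers modulo the prime number `p ≥ (2 ^ k (k + 1)) ^ 2`.
-/

set_option autoImplicit false

namespace Fermat.Agent.Cor.WeilC

open Polynomial Finset

variable {F : Type*} [Field F] [Fintype F] [DecidableEq F]

/-- The quadratic character with complex values. -/
noncomputable def qc (F : Type*) [Field F] [Fintype F] [DecidableEq F] : MulChar F ℂ :=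
  (quadraticChar F).ringHomComp (Int.castRingHom ℂ)

theorem qc_apply (a : F) : qc F a = (quadraticChar F a : ℂ) := rfl

theorem qc_ne_one (h2 : ringChar F ≠ 2) : qc F ≠ 1 := by
  intro h
  obtain ⟨a, ha⟩ := quadraticChar_exists_neg_one' h2
  have h1 : qc F a = 1 := by rw [h, MulChar.one_apply_coe]
  rw [qc_apply, ha] at h1
  norm_num at h1

theorem qc_sq (a : F) (ha : a ≠ 0) : qc F a ^ 2 = 1 := by
  rw [qc_apply]
  have := quadraticChar_sq_one ha
  exact_mod_cast this

theorem orderOf_qc (h2 : ringChar F ≠ 2) : orderOf (qc F) = 2 := by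
  refine orderOf_eq_prime ?_ (qc_ne_one h2)
  ext a
  rw [MulChar.pow_apply_coe, MulChar.one_apply_coe, qc_sq _ a.ne_zero]

/-- `|∑ χ(f(x))| ≤ (deg f - 1) √q` for the quadratic character and `deg f` odd. -/
theorem norm_sum_qc_le (h2 : ringChar F ≠ 2) {f : F[X]} (hf : Odd f.natDegree) :
    ‖∑ x : F, qc F (f.eval x)‖ ≤ ((f.natDegree : ℝ) - 1) * √(Fintype.card F) := by
  refine norm_charSum_le f (qc_ne_one h2) ?_
  rw [orderOf_qc h2]
  exact hf.coprime_two_right

omit [DecidableEq F] in
theorem one_le_sqrt_card : (1 : ℝ) ≤ √(Fintype.card F) := by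
  rw [Real.one_le_sqrt]
  exact_mod_cast (Fintype.one_lt_card (α := F)).le

theorem norm_sum_prod_le (h2 : ringChar F ≠ 2) {S : Finset F} (hS : S.Nonempty) :
    ‖∑ x : F, ∏ a ∈ S, qc F (x + a)‖ ≤ #S * √(Fintype.card F) := by
  have hq := one_le_sqrt_card (F := F)
  rcases Nat.even_or_odd #S with hev | hodd
  · obtain ⟨a₀, ha₀⟩ := hS
    set T := S.erase a₀ with hT
    have hTc : #T + 1 = #S := Finset.card_erase_add_one ha₀
    set h : F[X] := ∏ b ∈ T, (C (b - a₀) * X + C 1) with hh
    have hb : ∀ b ∈ T, b - a₀ ≠ 0 := fun b hb => sub_ne_zero.2 (Finset.ne_of_mem_erase hb)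
    have hd : h.natDegree = #T := by
      rw [hh, natDegree_prod _ _ (fun b hb1 => ?_)]
      · rw [Finset.sum_congr rfl fun b hb1 => natDegree_linear (hb b hb1), Finset.sum_const,
          smul_eq_mul, mul_one]
      · intro h0
        have h1 := natDegree_linear (b := (1 : F)) (hb b hb1)
        rw [h0, natDegree_zero] at h1
        exact zero_ne_one h1
    have hTodd : Odd #T := by
      rcases Nat.even_or_odd #T with h3 | h3
      · rw [← hTc] at hev
        exact absurd hev (by rw [Nat.not_even_iff_odd]; exact h3.add_one)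
      · exact h3
    have key : ∑ x : F, ∏ a ∈ S, qc F (x + a) = ∑ t : F, qc F (h.eval t) - 1 := by
      have e1 : ∑ t : F, qc F (h.eval t) = ∑ t ∈ univ.erase (0 : F), qc F (h.eval t) + 1 := by
        rw [← Finset.sum_erase_add _ _ (Finset.mem_univ (0 : F))]
        congr 1
        rw [hh, eval_prod, Finset.prod_eq_one (fun b _ => by simp), map_one]
      have e2 : ∑ x : F, ∏ a ∈ S, qc F (x + a) =
          ∑ x ∈ univ.erase (-a₀), ∏ a ∈ S, qc F (x + a) := by
        rw [← Finset.sum_erase_add _ _ (Finset.mem_univ (-a₀)),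
          Finset.prod_eq_zero ha₀ (by rw [neg_add_cancel, MulChar.map_zero]), add_zero]
      rw [e1, e2, add_sub_cancel_right]
      refine Finset.sum_bij' (fun x _ => (x + a₀)⁻¹) (fun t _ => t⁻¹ - a₀) ?_ ?_ ?_ ?_ ?_
      · intro x hx
        rw [Finset.mem_erase] at hx ⊢
        exact ⟨inv_ne_zero fun h0 => hx.1 (eq_neg_of_add_eq_zero_left h0), Finset.mem_univ _⟩
      · intro t ht
        rw [Finset.mem_erase] at ht ⊢
        refine ⟨fun h0 => inv_ne_zero ht.1 ?_, Finset.mem_univ _⟩
        linear_combination h0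
      · intro x _
        rw [inv_inv, add_sub_cancel_right]
      · intro t _
        rw [sub_add_cancel, inv_inv]
      · intro x hx
        have hx0 : x + a₀ ≠ 0 := fun h0 =>
          (Finset.mem_erase.1 hx).1 (eq_neg_of_add_eq_zero_left h0)
        have e3 : ∏ a ∈ S, (x + a) = (x + a₀) ^ #S * h.eval (x + a₀)⁻¹ := by
          rw [← Finset.mul_prod_erase S _ ha₀, ← hT, ← hTc, pow_succ', mul_assoc, hh, eval_prod,
            ← Finset.prod_const, ← Finset.prod_mul_distrib]
          congr 1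
          refine Finset.prod_congr rfl fun b _ => ?_
          rw [eval_add, eval_mul, eval_C, eval_C, eval_X]
          field_simp
          ring
        rw [← map_prod, e3, map_mul, map_pow]
        obtain ⟨c, hc⟩ := hev
        rw [hc, ← two_mul, pow_mul, qc_sq _ hx0, one_pow, one_mul]
    rw [key]
    have h3 := norm_sum_qc_le h2 (f := h) (by rw [hd]; exact hTodd)
    rw [hd] at h3
    have h4 : (#T : ℝ) + 1 = #S := by exact_mod_cast hTc
    calc ‖∑ t : F, qc F (h.eval t) - 1‖ ≤ ‖∑ t : F, qc F (h.eval t)‖ + ‖(1 : ℂ)‖ :=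
        norm_sub_le _ _
      _ ≤ ((#T : ℝ) - 1) * √(Fintype.card F) + 1 := by
        rw [norm_one]
        exact add_le_add_left h3 1
      _ ≤ #S * √(Fintype.card F) := by
        rw [← h4]
        nlinarith
  · set f : F[X] := ∏ a ∈ S, (X + C a) with hf
    have hd : f.natDegree = #S := by
      rw [hf, natDegree_prod_of_monic _ _ (fun a _ => monic_X_add_C a),
        Finset.sum_congr rfl fun a _ => natDegree_X_add_C a, Finset.sum_const, smul_eq_mul,
        mul_one]
    have h3 := norm_sum_qc_le h2 (f := f) (by rw [hd]; exact hodd)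
    rw [hd] at h3
    have h4 : ∑ x : F, ∏ a ∈ S, qc F (x + a) = ∑ x : F, qc F (f.eval x) := by
      refine Finset.sum_congr rfl fun x _ => ?_
      rw [hf, eval_prod, map_prod]
      refine Finset.prod_congr rfl fun a _ => ?_
      rw [eval_add, eval_X, eval_C]
    rw [h4]
    refine h3.trans ?_
    nlinarith

/-- **Davenport's theorem** (1931; with Weil's bound): the patterns of quadratic residues and
nonresidues are equidistributed. -/
theorem abs_card_pattern_sub_le (h2 : ringChar F ≠ 2) (A : Finset F) {ε : F → ℤ}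
    (hε : ∀ a ∈ A, ε a = 1 ∨ ε a = -1) :
    |(#{x : F | ∀ a ∈ A, quadraticChar F (x + a) = ε a} : ℝ) - Fintype.card F / 2 ^ #A| ≤
      #A * (√(Fintype.card F) + 1) := by
  set N := #{x : F | ∀ a ∈ A, quadraticChar F (x + a) = ε a} with hN
  set Z : Finset F := {x : F | ∃ a ∈ A, x + a = 0} with hZ
  have hZc : #Z ≤ #A := by
    have h1 : Z ⊆ A.image fun a => -a := fun x hx => by
      obtain ⟨a, ha, h0⟩ := (Finset.mem_filter.1 hx).2
      rw [Finset.mem_image]
      exact ⟨a, ha, (eq_neg_of_add_eq_zero_left h0).symm⟩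
    exact (Finset.card_le_card h1).trans Finset.card_image_le
  -- the products
  set P : F → ℤ := fun x => ∏ a ∈ A, (1 + ε a * quadraticChar F (x + a)) with hP
  have hfac : ∀ x, ∀ a ∈ A, 0 ≤ 1 + ε a * quadraticChar F (x + a) ∧
      1 + ε a * quadraticChar F (x + a) ≤ 2 := by
    intro x a ha
    have h3 : quadraticChar F (x + a) = 0 ∨ quadraticChar F (x + a) = 1 ∨
        quadraticChar F (x + a) = -1 := by
      rcases eq_or_ne (x + a) 0 with h0 | h0
      · left
        rw [h0, MulChar.map_zero]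
      · right
        exact quadraticChar_dichotomy h0
    rcases hε a ha with h4 | h4 <;> rcases h3 with h5 | h5 | h5 <;> rw [h4, h5] <;> norm_num
  have hP0 : ∀ x, 0 ≤ P x := fun x => Finset.prod_nonneg fun a ha => (hfac x a ha).1
  have hP2 : ∀ x, P x ≤ 2 ^ #A := fun x => by
    rw [← Finset.prod_const]
    exact Finset.prod_le_prod (fun a ha => (hfac x a ha).1) fun a ha => (hfac x a ha).2
  have hPy : ∀ x, (∀ a ∈ A, quadraticChar F (x + a) = ε a) → P x = 2 ^ #A := fun x hx => by
    rw [hP]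
    simp only
    rw [← Finset.prod_const]
    refine Finset.prod_congr rfl fun a ha => ?_
    rw [hx a ha]
    rcases hε a ha with h4 | h4 <;> rw [h4] <;> norm_num
  have hPn : ∀ x, x ∉ Z → ¬ (∀ a ∈ A, quadraticChar F (x + a) = ε a) → P x = 0 := by
    intro x hx hn
    push Not at hn
    obtain ⟨a, ha, hna⟩ := hn
    refine Finset.prod_eq_zero ha ?_
    have h0 : x + a ≠ 0 := fun h0 => hx (Finset.mem_filter.2 ⟨Finset.mem_univ _, a, ha, h0⟩)
    rcases hε a ha with h4 | h4 <;> rcases quadraticChar_dichotomy h0 with h5 | h5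
    · exact absurd (h5.trans h4.symm) hna
    · rw [h4, h5]
      norm_num
    · rw [h4, h5]
      norm_num
    · exact absurd (h5.trans h4.symm) hna
  have hlow : (2 : ℤ) ^ #A * N ≤ ∑ x : F, P x := by
    have h3 : (2 : ℤ) ^ #A * N =
        ∑ x ∈ ({x : F | ∀ a ∈ A, quadraticChar F (x + a) = ε a} : Finset F), P x := by
      rw [Finset.sum_congr rfl fun x hx => hPy x (Finset.mem_filter.1 hx).2, Finset.sum_const,
        nsmul_eq_mul, mul_comm]
    rw [h3]
    exact Finset.sum_le_sum_of_subset_of_nonneg (Finset.filter_subset _ _) fun x _ _ => hP0 x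
  have hup : ∑ x : F, P x ≤ 2 ^ #A * N + 2 ^ #A * #A := by
    have h3 : ∀ x : F, P x ≤ (if ∀ a ∈ A, quadraticChar F (x + a) = ε a then 2 ^ #A else 0) +
        (if x ∈ Z then 2 ^ #A else 0) := by
      intro x
      by_cases h4 : ∀ a ∈ A, quadraticChar F (x + a) = ε a
      · rw [if_pos h4, hPy x h4]
        split_ifs <;> simp
      · rw [if_neg h4, zero_add]
        split_ifs with h5
        · exact hP2 x
        · rw [hPn x h5 h4]
    refine (Finset.sum_le_sum fun x _ => h3 x).trans ?_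
    rw [Finset.sum_add_distrib, ← Finset.sum_filter, ← Finset.sum_filter, Finset.sum_const,
      Finset.sum_const, Finset.filter_mem_eq_inter, Finset.univ_inter, nsmul_eq_mul,
      nsmul_eq_mul, ← hN]
    have h6 : (#Z : ℤ) * 2 ^ #A ≤ 2 ^ #A * #A := by
      rw [mul_comm]
      exact mul_le_mul_of_nonneg_left (by exact_mod_cast hZc) (by positivity)
    rw [mul_comm (N : ℤ)]
    omega
  -- the expansion
  have hexp : ((∑ x : F, P x : ℤ) : ℂ) = Fintype.card F +
      ∑ S ∈ A.powerset.erase ∅, (∏ a ∈ S, (ε a : ℂ)) * ∑ x : F, ∏ a ∈ S, qc F (x + a) := by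
    push_cast
    have h3 : ∀ x : F, ((P x : ℤ) : ℂ) =
        ∑ S ∈ A.powerset, (∏ a ∈ S, (ε a : ℂ)) * ∏ a ∈ S, qc F (x + a) := fun x => by
      rw [hP]
      push_cast
      rw [Finset.prod_one_add]
      refine Finset.sum_congr rfl fun S _ => ?_
      rw [← Finset.prod_mul_distrib]
      rfl
    rw [Finset.sum_congr rfl fun x _ => h3 x, Finset.sum_comm,
      ← Finset.sum_erase_add _ _ (Finset.empty_mem_powerset A), add_comm]
    congr 1
    · simp
    · exact Finset.sum_congr rfl fun S _ => by rw [Finset.mul_sum]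
  have hbound : ‖((∑ x : F, P x : ℤ) : ℂ) - Fintype.card F‖ ≤
      2 ^ #A * (#A * √(Fintype.card F)) := by
    rw [hexp, add_sub_cancel_left]
    refine (norm_sum_le _ _).trans ?_
    have h3 : ∀ S ∈ A.powerset.erase ∅,
        ‖(∏ a ∈ S, (ε a : ℂ)) * ∑ x : F, ∏ a ∈ S, qc F (x + a)‖ ≤
          #A * √(Fintype.card F) := by
      intro S hS
      rw [Finset.mem_erase, Finset.mem_powerset] at hS
      have h4 : ‖∏ a ∈ S, (ε a : ℂ)‖ = 1 := by
        rw [norm_prod]
        refine Finset.prod_eq_one fun a ha => ?_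
        rcases hε a (hS.2 ha) with h5 | h5 <;> rw [h5] <;> simp
      rw [norm_mul, h4, one_mul]
      refine (norm_sum_prod_le h2 (Finset.nonempty_iff_ne_empty.2 hS.1)).trans ?_
      exact mul_le_mul_of_nonneg_right (by exact_mod_cast Finset.card_le_card hS.2)
        (Real.sqrt_nonneg _)
    refine (Finset.sum_le_sum h3).trans ?_
    rw [Finset.sum_const, nsmul_eq_mul]
    refine mul_le_mul_of_nonneg_right ?_ (by positivity)
    have h4 : #(A.powerset.erase ∅) ≤ 2 ^ #A := by
      rw [← Finset.card_powerset]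
      exact Finset.card_le_card (Finset.erase_subset _ _)
    exact_mod_cast h4
  have hreal : |((∑ x : F, P x : ℤ) : ℝ) - Fintype.card F| ≤
      2 ^ #A * (#A * √(Fintype.card F)) := by
    rw [← Real.norm_eq_abs, ← Complex.norm_real]
    push_cast
    push_cast at hbound
    exact hbound
  have hlow' : (2 : ℝ) ^ #A * N ≤ ((∑ x : F, P x : ℤ) : ℝ) := by exact_mod_cast hlow
  have hup' : ((∑ x : F, P x : ℤ) : ℝ) ≤ 2 ^ #A * N + 2 ^ #A * #A := by exact_mod_cast hup
  have h20 : (0 : ℝ) < 2 ^ #A := by positivity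
  have hq : (2 : ℝ) ^ #A * (Fintype.card F / 2 ^ #A) = Fintype.card F := by
    field_simp
  rw [abs_le] at hreal ⊢
  have hA0 : (0 : ℝ) ≤ #A := Nat.cast_nonneg _
  have hA1 : (0 : ℝ) ≤ 2 ^ #A * #A := by positivity
  constructor
  · refine le_of_mul_le_mul_left (a := (2 : ℝ) ^ #A) ?_ h20
    rw [mul_sub, hq]
    nlinarith
  · refine le_of_mul_le_mul_left (a := (2 : ℝ) ^ #A) ?_ h20
    rw [mul_sub, hq]
    nlinarith

/-- Every pattern occurs. -/
theorem exists_pattern (h2 : ringChar F ≠ 2) (A : Finset F) {ε : F → ℤ}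
    (hε : ∀ a ∈ A, ε a = 1 ∨ ε a = -1) (hq : (2 ^ #A * (#A + 1)) ^ 2 ≤ Fintype.card F) :
    ∃ x : F, ∀ a ∈ A, quadraticChar F (x + a) = ε a := by
  by_contra hno
  push Not at hno
  have h1 := abs_card_pattern_sub_le h2 A hε
  have h3 : #{x : F | ∀ a ∈ A, quadraticChar F (x + a) = ε a} = 0 := by
    rw [Finset.card_eq_zero, Finset.filter_eq_empty_iff]
    intro x _ h
    obtain ⟨a, ha, hne⟩ := hno x
    exact hne (h a ha)
  rw [h3, Nat.cast_zero, zero_sub, abs_neg, abs_of_nonneg (by positivity)] at h1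
  set x : ℝ := √(Fintype.card F) with hx
  have hx0 : 0 ≤ x := Real.sqrt_nonneg _
  have hxx : x * x = Fintype.card F := Real.mul_self_sqrt (Nat.cast_nonneg _)
  have h4 : (2 : ℝ) ^ #A * (#A + 1) ≤ x := by
    rw [hx]
    refine Real.le_sqrt_of_sq_le ?_
    exact_mod_cast hq
  have h20 : (0 : ℝ) < 2 ^ #A := by positivity
  have h5 : (#A + 1) * x ≤ (Fintype.card F : ℝ) / 2 ^ #A := by
    rw [le_div_iff₀ h20, ← hxx]
    nlinarith
  have h6 : (1 : ℝ) ≤ 2 ^ #A := one_le_pow₀ (by norm_num)
  have hA0 : (0 : ℝ) ≤ #A := Nat.cast_nonneg _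
  nlinarith

/-- Every pattern of `k` quadratic residues and nonresidues occurs among consecutive integers
modulo every prime number `p ≥ (2 ^ k (k + 1)) ^ 2`. -/
theorem exists_legendreSym_pattern {p k : ℕ} [hp : Fact p.Prime] {ε : ℕ → ℤ}
    (hε : ∀ i < k, ε i = 1 ∨ ε i = -1) (hpk : (2 ^ k * (k + 1)) ^ 2 ≤ p) :
    ∃ n : ℕ, ∀ i < k, legendreSym p ((n + i : ℕ) : ℤ) = ε i := by
  rcases Nat.eq_zero_or_pos k with rfl | hk
  · exact ⟨0, fun i hi => absurd hi (Nat.not_lt_zero i)⟩
  have hkp : k < p := by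
    have h1 : k + 1 ≤ 2 ^ k * (k + 1) := Nat.le_mul_of_pos_left _ (by positivity)
    have h3 : 2 ^ k * (k + 1) ≤ (2 ^ k * (k + 1)) ^ 2 := Nat.le_self_pow two_ne_zero _
    omega
  have h2p : p ≠ 2 := by
    rintro rfl
    have h1 : 2 ^ 1 ≤ 2 ^ k := Nat.pow_le_pow_right (by norm_num) hk
    have h3 : 2 * 2 ≤ 2 ^ k * (k + 1) := Nat.mul_le_mul (by simpa using h1) (by omega)
    have h4 : 4 ^ 2 ≤ (2 ^ k * (k + 1)) ^ 2 := Nat.pow_le_pow_left (by omega) 2
    omega
  set A : Finset (ZMod p) := (range k).image fun i : ℕ => (i : ZMod p) with hA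
  have hinj : Set.InjOn (fun i : ℕ => (i : ZMod p)) (range k : Set ℕ) := by
    intro i hi j hj hij
    have hi' : i < p := lt_trans (Finset.mem_range.1 (Finset.mem_coe.1 hi)) hkp
    have hj' : j < p := lt_trans (Finset.mem_range.1 (Finset.mem_coe.1 hj)) hkp
    have h1 := congrArg ZMod.val hij
    simp only at h1
    rwa [ZMod.val_cast_of_lt hi', ZMod.val_cast_of_lt hj'] at h1
  have hAc : #A = k := by rw [hA, Finset.card_image_of_injOn hinj, Finset.card_range]
  obtain ⟨x, hx⟩ := exists_pattern (F := ZMod p) (by rw [ZMod.ringChar_zmod_n]; exact h2p) A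
    (ε := fun c => ε c.val) (fun a ha => by
      obtain ⟨i, hi, rfl⟩ := Finset.mem_image.1 ha
      rw [Finset.mem_range] at hi
      rw [ZMod.val_cast_of_lt (lt_trans hi hkp)]
      exact hε i hi) (by rw [hAc, ZMod.card]; exact hpk)
  refine ⟨x.val, fun i hi => ?_⟩
  have h1 := hx (i : ZMod p) (Finset.mem_image.2 ⟨i, Finset.mem_range.2 hi, rfl⟩)
  rw [ZMod.val_cast_of_lt (lt_trans hi hkp)] at h1
  rw [← h1, legendreSym]
  push_cast
  rw [ZMod.natCast_val, ZMod.cast_id]

end Fermat.Agent.Cor.WeilC
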