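import Fermat.Agent.Corollaries.WeilC.Defs

/-!
# Stepanov's method

Let `F` be a finite field with `q` elements, `f` a polynomial over `F` of degree `m`, `n h = q - 1`
and `(m, n) = 1`. `card_mul_le` bounds the number of the `x` with `f(x) ^ h = a`: there is a
polynomial `R = ∑_{i < n, j < J} r_{ij} f ^ (ℓ + i h) X ^ (j q)`, not zero, which vanishes at these
points with multiplicity at least `ℓ`. The coefficients of the polynomials `r_{ij}` of degree less
than `A` are the solution of a system of homogeneous linear equations; `R` is not zero, because the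
degrees of its terms are different.
-/

set_option autoImplicit false

namespace Fermat.Agent.Cor.WeilC

open Polynomial Finset

universe u

section General

variable {F : Type*} [Field F]

/-- `f ^ (N - k)` divides the `k`-th Hasse derivative of `f ^ N u`. -/
theorem pow_dvd_hasseDeriv (f u : F[X]) (N : ℕ) :
    ∀ k, f ^ (N - k) ∣ hasseDeriv k (f ^ N * u) := by
  induction N with
  | zero => intro k; simp
  | succ N ih =>
    intro k
    rw [pow_succ', mul_assoc, hasseDeriv_mul]
    refine Finset.dvd_sum fun ij hij => ?_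
    rw [HasAntidiagonal.mem_antidiagonal] at hij
    rcases Nat.eq_zero_or_pos ij.1 with h0 | h0
    · rw [h0, zero_add] at hij
      rw [h0, hasseDeriv_zero', hij]
      rcases Nat.lt_or_ge N k with h1 | h1
      · rw [show N + 1 - k = 0 by omega, pow_zero]
        exact one_dvd _
      · rw [show N + 1 - k = (N - k) + 1 by omega, pow_succ']
        exact mul_dvd_mul_left _ (ih k)
    · exact Dvd.dvd.mul_left ((pow_dvd_pow f (by omega)).trans (ih ij.2)) _

/-- The quotient has degree at most `deg u + k (deg f - 1)`. -/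
theorem exists_eq_pow_mul {f u : F[X]} (hf : f ≠ 0) {N k : ℕ} (h : k ≤ N) :
    ∃ v : F[X], hasseDeriv k (f ^ N * u) = f ^ (N - k) * v ∧
      v.natDegree ≤ u.natDegree + k * f.natDegree := by
  obtain ⟨v, hv⟩ := pow_dvd_hasseDeriv f u N k
  refine ⟨v, hv, ?_⟩
  rcases eq_or_ne v 0 with rfl | hv0
  · simp
  have h1 := natDegree_hasseDeriv_le (f ^ N * u) k
  rw [hv, natDegree_mul (pow_ne_zero _ hf) hv0, natDegree_pow] at h1
  have h2 : (f ^ N * u).natDegree ≤ N * f.natDegree + u.natDegree := by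
    refine natDegree_mul_le.trans ?_
    rw [natDegree_pow]
  have h3 : N * f.natDegree = (N - k) * f.natDegree + k * f.natDegree := by
    rw [← add_mul, Nat.sub_add_cancel h]
  omega

end General

section Finite

variable {F : Type*} [Field F] [Fintype F]

theorem taylor_pow_card (x : F) (j : ℕ) :
    ∃ s : F[X], taylor x (X ^ (Fintype.card F * j)) = C (x ^ j) + X ^ Fintype.card F * s := by
  obtain ⟨p, hp⟩ := CharP.exists F
  have hpp : p.Prime := CharP.char_is_prime F p
  have : Fact p.Prime := ⟨hpp⟩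
  obtain ⟨r, -, hr⟩ := FiniteField.card F p
  have h1 : (X + C x : F[X]) ^ Fintype.card F = X ^ Fintype.card F + C x := by
    rw [hr, add_pow_char_pow, ← C_pow, ← hr, FiniteField.pow_card]
  rw [taylor_X_pow, pow_mul, h1]
  obtain ⟨s, hs⟩ := sub_dvd_pow_sub_pow (X ^ Fintype.card F + C x) (C x : F[X]) j
  refine ⟨s, ?_⟩
  rw [C_pow]
  linear_combination hs

theorem coeff_taylor_mul (x : F) (w : F[X]) (j k : ℕ) (hk : k < Fintype.card F) :
    (taylor x (w * X ^ (Fintype.card F * j))).coeff k = (hasseDeriv k w).eval x * x ^ j := by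
  obtain ⟨s, hs⟩ := taylor_pow_card x j
  rw [taylor_mul, hs, mul_add, coeff_add, coeff_mul_C, taylor_coeff,
    show taylor x w * (X ^ Fintype.card F * s) = X ^ Fintype.card F * (taylor x w * s) by ring,
    coeff_X_pow_mul', if_neg (by omega), add_zero]

omit [Fintype F] in
theorem le_rootMultiplicity {R : F[X]} (hR : R ≠ 0) (x : F) (l : ℕ)
    (h : ∀ k < l, (taylor x R).coeff k = 0) : l ≤ R.rootMultiplicity x := by
  rw [rootMultiplicity_eq_natTrailingDegree, ← taylor_apply]
  exact le_natTrailingDegree ((taylor_injective x).ne_iff' (by simp) |>.2 hR) h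

/-! ### The terms of the auxiliary polynomial have different degrees -/

theorem eq_zero_of_mul_lt {q Z : ℤ} (h1 : q * Z < q) (h2 : -q < q * Z) : Z = 0 := by
  have hq : 0 < q := by linarith
  have h3 : Z < 1 := lt_of_mul_lt_mul_left (by linarith : q * Z < q * 1) hq.le
  have h4 : -1 < Z := lt_of_mul_lt_mul_left (by linarith : q * (-1) < q * Z) hq.le
  omega

omit [Fintype F] in
theorem sum_ne_zero {f : F[X]} (hf : f ≠ 0) {q n h l A J : ℕ} (hq : n * h + 1 = q)
    (hn : 0 < n) (hc : f.natDegree.Coprime n) (hA : n * A + n * f.natDegree ≤ q)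
    {r : Fin n × Fin J → F[X]} (hr : ∀ i, (r i).degree < A) {i₀ : Fin n × Fin J}
    (h₀ : r i₀ ≠ 0) :
    ∑ i, f ^ (l + i.1.1 * h) * r i * X ^ (q * i.2.1) ≠ 0 := by
  set m := f.natDegree with hm
  set t : Fin n × Fin J → F[X] := fun i => f ^ (l + i.1.1 * h) * r i * X ^ (q * i.2.1) with ht
  have ht0 : ∀ i, t i ≠ 0 ↔ r i ≠ 0 := fun i => by
    rw [ht]
    simp [hf]
  have htd : ∀ i, r i ≠ 0 → (t i).natDegree = (l + i.1.1 * h) * m + (r i).natDegree +
      q * i.2.1 := fun i hi => by
    rw [ht]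
    simp only
    rw [natDegree_mul (mul_ne_zero (pow_ne_zero _ hf) hi) (pow_ne_zero _ X_ne_zero),
      natDegree_mul (pow_ne_zero _ hf) hi, natDegree_pow, natDegree_X_pow]
  have hrd : ∀ i, r i ≠ 0 → (r i).natDegree + 1 ≤ A := fun i hi => by
    have := hr i
    rw [degree_eq_natDegree hi] at this
    exact_mod_cast this
  have hdis : Set.Pairwise {i | i ∈ (univ : Finset (Fin n × Fin J)) ∧ t i ≠ 0}
      (Function.onFun Ne (degree ∘ t)) := by
    intro i hi i' hi' hne hd
    apply hne
    have hi1 := (ht0 i).1 hi.2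
    have hi1' := (ht0 i').1 hi'.2
    have hd' : (t i).natDegree = (t i').natDegree := natDegree_eq_of_degree_eq hd
    rw [htd i hi1, htd i' hi1'] at hd'
    have e1 := hrd i hi1
    have e2 := hrd i' hi1'
    have hi2 := i.1.2
    have hi2' := i'.1.2
    -- everything in `ℤ`
    have key : (q : ℤ) * (i.1.1 * m + n * i.2.1 - (i'.1.1 * m + n * i'.2.1)) =
        n * ((r i').natDegree - (r i).natDegree) + (i.1.1 - i'.1.1) * m := by
      have h1 : ((l : ℤ) + i.1.1 * h) * m + (r i).natDegree + q * i.2.1 =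
          (l + i'.1.1 * h) * m + (r i').natDegree + q * i'.2.1 := by exact_mod_cast hd'
      have h2 : (n : ℤ) * h + 1 = q := by exact_mod_cast hq
      linear_combination (n : ℤ) * h1 - (i.1.1 - i'.1.1 : ℤ) * m * h2
    have hAz : (n : ℤ) * A + n * m ≤ q := by exact_mod_cast hA
    have b1 : (n : ℤ) * ((r i').natDegree - (r i).natDegree) ≤ n * (A - 1) :=
      mul_le_mul_of_nonneg_left (by omega) (by omega)
    have b2 : -((n : ℤ) * (A - 1)) ≤ (n : ℤ) * ((r i').natDegree - (r i).natDegree) := by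
      rw [← mul_neg]
      exact mul_le_mul_of_nonneg_left (by omega) (by omega)
    have b3 : ((i.1.1 : ℤ) - i'.1.1) * m ≤ n * m :=
      mul_le_mul_of_nonneg_right (by omega) (by omega)
    have b4 : -((n : ℤ) * m) ≤ ((i.1.1 : ℤ) - i'.1.1) * m := by
      rw [← neg_mul]
      exact mul_le_mul_of_nonneg_right (by omega) (by omega)
    have hn' : (0 : ℤ) < n := by exact_mod_cast hn
    have hz : (i.1.1 : ℤ) * m + n * i.2.1 - (i'.1.1 * m + n * i'.2.1) = 0 := by
      refine eq_zero_of_mul_lt (q := q) ?_ ?_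
      · rw [key]
        linarith
      · rw [key]
        linarith
    have hdvd : (n : ℤ) ∣ ((i.1.1 : ℤ) - i'.1.1) * m :=
      ⟨i'.2.1 - i.2.1, by linear_combination hz⟩
    have hcop : IsCoprime (n : ℤ) (m : ℤ) := (Nat.isCoprime_iff_coprime.2 hc).symm
    have h5 : (n : ℤ) ∣ (i.1.1 : ℤ) - i'.1.1 := hcop.dvd_of_dvd_mul_right hdvd
    have h6 : (i.1.1 : ℤ) - i'.1.1 = 0 := by
      refine Int.eq_zero_of_abs_lt_dvd h5 ?_
      rw [abs_lt]
      omega
    have h7 : (n : ℤ) * (i.2.1 - i'.2.1) = 0 := by linear_combination hz - (m : ℤ) * h6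
    have h8 : (i.2.1 : ℤ) - i'.2.1 = 0 := (mul_eq_zero.1 h7).resolve_left hn'.ne'
    exact Prod.ext (Fin.ext (by omega)) (Fin.ext (by omega))
  intro h0
  have h1 := degree_sum_eq_of_disjoint t univ hdis
  have h2 : (∑ i, t i) = 0 := h0
  rw [h2, degree_zero] at h1
  have h3 : degree (t i₀) ≤ univ.sup fun i => degree (t i) :=
    Finset.le_sup (f := fun i => degree (t i)) (mem_univ i₀)
  rw [← h1, le_bot_iff, degree_eq_bot] at h3
  exact (ht0 i₀).2 h₀ h3

/-! ### Linear algebra -/

/-- The `k`-th system of linear equations. -/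
noncomputable def T (f : F[X]) (n h l A J : ℕ) (a : F) (k : ℕ) :
    (Fin n × Fin J → degreeLT F A) →ₗ[F] F[X] :=
  ∑ i : Fin n × Fin J,
    (LinearMap.mulLeft F (X ^ i.2.1 * C (a ^ i.1.1) * f ^ ((n - 1 - i.1.1) * h))) ∘ₗ
      (hasseDeriv k) ∘ₗ (LinearMap.mulLeft F (f ^ (l + i.1.1 * h))) ∘ₗ
        (degreeLT F A).subtype ∘ₗ (LinearMap.proj i)

omit [Fintype F] in
theorem T_apply (f : F[X]) (n h l A J : ℕ) (a : F) (k : ℕ)
    (r : Fin n × Fin J → degreeLT F A) : T f n h l A J a k r =
      ∑ i : Fin n × Fin J, X ^ i.2.1 * C (a ^ i.1.1) * f ^ ((n - 1 - i.1.1) * h) *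
        hasseDeriv k (f ^ (l + i.1.1 * h) * (r i : F[X])) := by
  simp [T, LinearMap.sum_apply, mul_assoc]

/-- The space of the values of `T`. -/
noncomputable def U (f : F[X]) (n h l B : ℕ) (k : ℕ) : Submodule F F[X] :=
  (degreeLT F B).map (LinearMap.mulLeft F (f ^ (l + (n - 1) * h - k)))

omit [Fintype F] in
theorem T_mem {f : F[X]} (hf : f ≠ 0) {n h l A J : ℕ} (a : F) {k : ℕ} (hk : k < l)
    (r : Fin n × Fin J → degreeLT F A) :
    T f n h l A J a k r ∈ U f n h l (A + l * f.natDegree + J) k := by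
  rw [T_apply]
  refine Submodule.sum_mem _ fun i _ => ?_
  obtain ⟨v, hv, hvd⟩ := exists_eq_pow_mul (u := (r i : F[X])) hf
    (N := l + i.1.1 * h) (k := k) (by omega)
  rw [hv]
  refine ⟨X ^ i.2.1 * C (a ^ i.1.1) * v, ?_, ?_⟩
  · rw [SetLike.mem_coe, mem_degreeLT]
    rcases eq_or_ne v 0 with rfl | hv0
    · rw [mul_zero, degree_zero]
      exact WithBot.bot_lt_coe _
    · have hr0 : (r i : F[X]) ≠ 0 := by
        intro h0
        rw [h0, mul_zero, map_zero] at hv
        exact mul_ne_zero (pow_ne_zero _ hf) hv0 hv.symm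
      have hr1 := mem_degreeLT.1 (r i).2
      rw [degree_eq_natDegree hr0] at hr1
      have hr2 : (r i : F[X]).natDegree < A := by exact_mod_cast hr1
      refine lt_of_le_of_lt degree_le_natDegree ?_
      have h1 : (X ^ i.2.1 * C (a ^ i.1.1) * v).natDegree ≤ i.2.1 + 0 + v.natDegree := by
        refine natDegree_mul_le.trans (Nat.add_le_add_right (natDegree_mul_le.trans ?_) _)
        rw [natDegree_X_pow, natDegree_C]
      have h2 := i.2.2
      have h3 : k * f.natDegree ≤ l * f.natDegree := Nat.mul_le_mul_right _ hk.le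
      exact_mod_cast (by omega : (X ^ i.2.1 * C (a ^ i.1.1) * v).natDegree <
        A + l * f.natDegree + J)
  · rw [LinearMap.mulLeft_apply]
    have h1 : l + (n - 1) * h - k = (n - 1 - i.1.1) * h + (l + i.1.1 * h - k) := by
      have h2 : (n - 1) * h = (n - 1 - i.1.1) * h + i.1.1 * h := by
        rw [← add_mul]
        congr 1
        have := i.1.2
        omega
      omega
    rw [h1, pow_add]
    ring

omit [Fintype F] in
theorem finrank_degreeLT (A : ℕ) : Module.finrank F (degreeLT F A) = A := by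
  rw [(degreeLTEquiv F A).finrank_eq, Module.finrank_fin_fun]

omit [Fintype F] in
instance finite_degreeLT (A : ℕ) : Module.Finite F (degreeLT F A) :=
  Module.Finite.equiv (degreeLTEquiv F A).symm

omit [Fintype F] in
theorem finrank_U_le (f : F[X]) (n h l B k : ℕ) : Module.finrank F (U f n h l B k) ≤ B := by
  refine (Submodule.finrank_map_le _ _).trans ?_
  rw [finrank_degreeLT]

omit [Fintype F] in
theorem exists_ne_zero {f : F[X]} (hf : f ≠ 0) {n h l A J : ℕ} (a : F)
    (hlt : l * (A + l * f.natDegree + J) < n * J * A) :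
    ∃ r : Fin n × Fin J → degreeLT F A, r ≠ 0 ∧ ∀ k < l, T f n h l A J a k r = 0 := by
  let Φ : (Fin n × Fin J → degreeLT F A) →ₗ[F]
      (∀ k : Fin l, U f n h l (A + l * f.natDegree + J) k.1) :=
    LinearMap.pi fun k => (T f n h l A J a k.1).codRestrict _ (T_mem hf a k.2)
  have hfin : ∀ k : Fin l, Module.Finite F (U f n h l (A + l * f.natDegree + J) k.1) :=
    fun k => by
      unfold U
      infer_instance
  have h1 : Module.finrank F (∀ k : Fin l, U f n h l (A + l * f.natDegree + J) k.1) <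
      Module.finrank F (Fin n × Fin J → degreeLT F A) := by
    rw [Module.finrank_pi_fintype, Module.finrank_pi_fintype]
    simp only [finrank_degreeLT, Finset.sum_const, Finset.card_univ, Fintype.card_prod,
      Fintype.card_fin, smul_eq_mul]
    refine lt_of_le_of_lt (Finset.sum_le_sum fun k _ => finrank_U_le f n h l _ k.1) ?_
    rw [Finset.sum_const, Finset.card_univ, Fintype.card_fin, smul_eq_mul]
    exact hlt
  obtain ⟨r, hr, hr0⟩ := (Submodule.ne_bot_iff _).1 (Φ.ker_ne_bot_of_finrank_lt h1)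
  refine ⟨r, hr0, fun k hk => ?_⟩
  have h2 := congrFun (LinearMap.mem_ker.1 hr) ⟨k, hk⟩
  exact congrArg Subtype.val h2

/-! ### The bound -/

/-- **Stepanov's method**: the number of the `x` with `f(x) ^ h = a`, `n h = q - 1`. -/
theorem card_mul_le {f : F[X]} (hf : f ≠ 0) {n h l A J : ℕ} (hq : n * h + 1 = Fintype.card F)
    (hn : 0 < n) (hc : f.natDegree.Coprime n) (hA : n * A + n * f.natDegree ≤ Fintype.card F)
    (hl : l ≤ Fintype.card F) (hlt : l * (A + l * f.natDegree + J) < n * J * A) {a : F}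
    (ha : a ≠ 0) (S : Finset F) (hS : ∀ x ∈ S, f.eval x ^ h = a) :
    S.card * l ≤ (l + (n - 1) * h) * f.natDegree + A + Fintype.card F * (J - 1) := by
  classical
  obtain ⟨r, hr0, hr⟩ := exists_ne_zero hf a hlt
  set R : F[X] := ∑ i : Fin n × Fin J,
    f ^ (l + i.1.1 * h) * (r i : F[X]) * X ^ (Fintype.card F * i.2.1) with hR
  obtain ⟨i₀, hi₀⟩ := Function.ne_iff.1 hr0
  have hi₀' : (r i₀ : F[X]) ≠ 0 := fun h0 => hi₀ (Subtype.ext h0)
  have hR0 : R ≠ 0 := sum_ne_zero (r := fun i => (r i : F[X])) hf hq hn hc hA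
    (fun i => mem_degreeLT.1 (r i).2) hi₀'
  have hmult : ∀ x ∈ S, l ≤ R.rootMultiplicity x := by
    intro x hx
    refine le_rootMultiplicity hR0 x l fun k hk => ?_
    rw [hR, map_sum, finsetSum_coeff]
    have h1 : ∀ i : Fin n × Fin J, (taylor x (f ^ (l + i.1.1 * h) * (r i : F[X]) *
        X ^ (Fintype.card F * i.2.1))).coeff k =
        (hasseDeriv k (f ^ (l + i.1.1 * h) * (r i : F[X]))).eval x * x ^ i.2.1 := fun i =>
      coeff_taylor_mul x _ _ k (by omega)
    rw [Finset.sum_congr rfl fun i _ => h1 i]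
    have h2 := congrArg (eval x) (hr k hk)
    rw [T_apply, eval_finsetSum, eval_zero] at h2
    have h3 : ∀ i : Fin n × Fin J, eval x (X ^ i.2.1 * C (a ^ i.1.1) *
        f ^ ((n - 1 - i.1.1) * h) * hasseDeriv k (f ^ (l + i.1.1 * h) * (r i : F[X]))) =
        a ^ (n - 1) * ((hasseDeriv k (f ^ (l + i.1.1 * h) * (r i : F[X]))).eval x *
          x ^ i.2.1) := fun i => by
      have h4 : a ^ (n - 1) = a ^ i.1.1 * a ^ (n - 1 - i.1.1) := by
        rw [← pow_add]
        congr 1
        have := i.1.2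
        omega
      rw [eval_mul, eval_mul, eval_mul, eval_pow, eval_X, eval_C, eval_pow, mul_comm _ h,
        pow_mul, hS x hx, h4]
      ring
    rw [Finset.sum_congr rfl fun i _ => h3 i, ← Finset.mul_sum] at h2
    exact (mul_eq_zero.1 h2).resolve_left (pow_ne_zero _ ha)
  have h1 : S.card * l ≤ R.natDegree := by
    calc S.card * l = ∑ x ∈ S, l := by rw [Finset.sum_const, smul_eq_mul]
      _ ≤ ∑ x ∈ S, R.roots.count x := Finset.sum_le_sum fun x hx => by
        rw [count_roots]
        exact hmult x hx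
      _ ≤ R.roots.card := by
        rw [← Multiset.toFinset_sum_count_eq R.roots]
        have h5 : ∑ x ∈ S, R.roots.count x =
            ∑ x ∈ S.filter (· ∈ R.roots.toFinset), R.roots.count x := by
          rw [Finset.sum_filter]
          refine Finset.sum_congr rfl fun x _ => ?_
          split_ifs with h6
          · rfl
          · rw [Multiset.mem_toFinset] at h6
            exact Multiset.count_eq_zero_of_notMem h6
        rw [h5]
        exact Finset.sum_le_sum_of_subset fun x hx => (Finset.mem_filter.1 hx).2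
      _ ≤ R.natDegree := card_roots' R
  refine h1.trans (natDegree_sum_le_of_forall_le _ _ fun i _ => ?_)
  rcases eq_or_ne (r i : F[X]) 0 with h0 | h0
  · rw [h0, mul_zero, zero_mul, natDegree_zero]
    exact Nat.zero_le _
  have hr1 := mem_degreeLT.1 (r i).2
  rw [degree_eq_natDegree h0] at hr1
  have hr2 : (r i : F[X]).natDegree < A := by exact_mod_cast hr1
  rw [natDegree_mul (mul_ne_zero (pow_ne_zero _ hf) h0) (pow_ne_zero _ X_ne_zero),
    natDegree_mul (pow_ne_zero _ hf) h0, natDegree_pow, natDegree_X_pow]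
  have e1 := i.1.2
  have e2 := i.2.2
  have e3 : (l + i.1.1 * h) * f.natDegree ≤ (l + (n - 1) * h) * f.natDegree :=
    Nat.mul_le_mul_right _ (Nat.add_le_add_left (Nat.mul_le_mul_right _ (by omega)) _)
  have e4 : Fintype.card F * i.2.1 ≤ Fintype.card F * (J - 1) :=
    Nat.mul_le_mul_left _ (by omega)
  omega

end Finite

/-! ### The choice of the parameters -/

theorem numeric {n t m A q s E : ℕ} (hE : E = 4 * m + 5) (hn : 0 < n) (hq : 0 < q)
    (ht1 : n * t ≤ s) (hs1 : s * s ≤ q) (c0 : 4 * s ≤ q) (c1 : 4 * (n * (m + 1)) ≤ q)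
    (e6 : q ≤ n * A + n * (m + 1)) :
    n * t * (A + n * t * m + (t + E)) < n * (t + E) * A := by
  have e1 : n * t * (n * t) ≤ q := (Nat.mul_le_mul ht1 ht1).trans hs1
  have e2 : n * t * t ≤ q := by
    refine le_trans (Nat.mul_le_mul_left _ ?_) e1
    exact Nat.le_mul_of_pos_left _ hn
  have e3 : n * t * E ≤ s * E := Nat.mul_le_mul_right _ ht1
  have e4 : 4 * s * E ≤ q * E := Nat.mul_le_mul_right _ c0
  have e5 : n * t * (n * t) * m ≤ q * m := Nat.mul_le_mul_right _ e1
  have e7 : q * E ≤ (n * A + n * (m + 1)) * E := Nat.mul_le_mul_right _ e6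
  have e8 : 4 * (n * (m + 1)) * E ≤ q * E := Nat.mul_le_mul_right _ c1
  have e9 : q * E = 4 * (q * m) + 5 * q := by rw [hE]; ring
  have g1 : n * t * (A + n * t * m + (t + E)) =
      n * t * A + (n * t * (n * t) * m + n * t * t + n * t * E) := by ring
  have g2 : n * (t + E) * A = n * t * A + n * A * E := by ring
  rw [g1, g2]
  refine Nat.add_lt_add_left ?_ _
  have f7 : q * E ≤ n * A * E + n * (m + 1) * E := by rw [← add_mul]; exact e7
  have f8 : 4 * (n * (m + 1) * E) ≤ q * E := by rw [← mul_assoc]; exact e8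
  have f4 : 4 * (s * E) ≤ q * E := by rw [← mul_assoc]; exact e4
  clear g1 g2 e7 e8 e4 e1
  generalize n * t * (n * t) * m = P1 at *
  generalize n * t * t = P2 at *
  generalize n * t * E = P3 at *
  generalize n * A * E = u at *
  generalize n * (m + 1) * E = v at *
  generalize s * E = w at *
  generalize q * E = z at *
  generalize q * m = y at *
  omega

/-- The bound with a square root, from the bounds for all parameters. -/
theorem bound_of {m n q N : ℕ} (hn : 1 < n) (hq1 : 1 < q) (hNq : N ≤ q)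
    (H : ∀ A t : ℕ, n * A + n * m ≤ q → n * t ≤ q →
      n * t * (A + n * t * m + (t + (4 * m + 5))) < n * (t + (4 * m + 5)) * A →
      N * (n * t) ≤ n * t * m + q * m + q * (t + (4 * m + 5))) :
    (N : ℝ) ≤ q / n + (3 * m + 2 * (4 * m + 5) + 2 * (n + 1) * (m + 1)) * √(q : ℝ) := by
  set x : ℝ := √(q : ℝ) with hx
  have hx0 : 0 ≤ x := Real.sqrt_nonneg _
  have hxx : x * x = q := Real.mul_self_sqrt (Nat.cast_nonneg q)
  have hnR : (0 : ℝ) < n := by exact_mod_cast (by omega : 0 < n)
  have hmR : (0 : ℝ) ≤ m := Nat.cast_nonneg m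
  rcases lt_or_ge x (2 * (n + 1) * (m + 1)) with hsmall | hlarge
  · have h1 : (N : ℝ) ≤ x * x := by
      rw [hxx]
      exact_mod_cast hNq
    have h2 : x * x ≤ 2 * (n + 1) * (m + 1) * x := mul_le_mul_of_nonneg_right hsmall.le hx0
    have h3 : (0 : ℝ) ≤ q / n := by positivity
    have h4 : 0 ≤ (3 * m + 2 * (4 * m + 5)) * x := by positivity
    linarith
  -- the parameters
  obtain ⟨s, hs⟩ : ∃ s, s = Nat.sqrt q := ⟨_, rfl⟩
  obtain ⟨t, ht⟩ : ∃ t, t = s / n := ⟨_, rfl⟩
  obtain ⟨D, hD⟩ : ∃ D, D = q / n := ⟨_, rfl⟩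
  have hs1 : s * s ≤ q := by rw [hs]; exact Nat.sqrt_le q
  have hs2 : q < (s + 1) * (s + 1) := by rw [hs]; exact Nat.lt_succ_sqrt q
  have ht1 : n * t ≤ s := by rw [ht]; exact Nat.mul_div_le s n
  have ht2 : s < n * t + n := by
    have h1 := Nat.div_add_mod s n
    have h2 := Nat.mod_lt s (by omega : 0 < n)
    rw [ht]; omega
  have hD1 : n * D ≤ q := by rw [hD]; exact Nat.mul_div_le q n
  have hD2 : q < n * D + n := by
    have h1 := Nat.div_add_mod q n
    have h2 := Nat.mod_lt q (by omega : 0 < n)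
    rw [hD]; omega
  have hsx : x < s + 1 := by
    by_contra h1
    have h2 : ((s : ℝ) + 1) * (s + 1) ≤ x * x := mul_self_le_mul_self (by positivity) (not_lt.1 h1)
    rw [hxx] at h2
    have h3 : (s + 1) * (s + 1) ≤ q := by exact_mod_cast h2
    omega
  have hsW : 2 * (n + 1) * (m + 1) ≤ s := by
    have h1 : ((2 * (n + 1) * (m + 1) : ℕ) : ℝ) < ((s + 1 : ℕ) : ℝ) := by
      push_cast
      exact lt_of_le_of_lt hlarge hsx
    have h2 : 2 * (n + 1) * (m + 1) < s + 1 := by exact_mod_cast h1
    omega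
  have hsn : 2 * n + 2 ≤ s := by
    refine le_trans ?_ hsW
    rw [show 2 * n + 2 = 2 * (n + 1) by ring]
    exact Nat.le_mul_of_pos_right _ (by omega)
  have c0 : 4 * s ≤ q := (Nat.mul_le_mul_right _ (by omega)).trans hs1
  have c1 : 4 * (n * (m + 1)) ≤ q := by
    have e1 : 2 * (2 * (n + 1) * (m + 1)) ≤ s * s := Nat.mul_le_mul (by omega) hsW
    have e2 : 2 * (2 * (n + 1) * (m + 1)) = 4 * (n * (m + 1)) + 4 * (m + 1) := by ring
    omega
  have hmD : m ≤ D := by
    by_contra h1
    have h2 : n * (D + 1) ≤ n * m := Nat.mul_le_mul_left _ (by omega)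
    have h3 : n * (D + 1) = n * D + n := by ring
    have h4 : n * (m + 1) = n * m + n := by ring
    omega
  obtain ⟨A, hA⟩ : ∃ A, A + m = D := ⟨D - m, by omega⟩
  have hnA : n * A + n * m = n * D := by rw [← hA]; ring
  have ht0 : 0 < t := by
    rcases Nat.eq_zero_or_pos t with h1 | h1
    · rw [h1, mul_zero] at ht2
      omega
    · exact h1
  have hlt : n * t * (A + n * t * m + (t + (4 * m + 5))) < n * (t + (4 * m + 5)) * A := by
    refine numeric (q := q) (s := s) rfl (by omega) (by omega) ht1 hs1 c0 c1 ?_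
    rw [mul_add n m 1, mul_one]
    omega
  have main2 := H A t (by omega) (by omega) hlt
  have main3 : (N : ℝ) * (n * t) ≤ n * t * m + q * m + q * (t + (4 * m + 5)) := by
    exact_mod_cast main2
  have hntx : x ≤ 2 * (n * t) := by
    have e1 : (s : ℝ) + 1 ≤ n * t + n := by exact_mod_cast ht2
    have e2 : (2 : ℝ) * n + 2 ≤ s := by exact_mod_cast hsn
    linarith
  have hnt0 : (0 : ℝ) < n * t := by
    have : (0 : ℝ) < t := by exact_mod_cast ht0
    positivity
  have htn : (q : ℝ) * t = q / n * (n * t) := by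
    field_simp
  have h5 : (q : ℝ) ≤ 2 * x * (n * t) := by
    rw [← hxx]
    calc x * x ≤ x * (2 * (n * t)) := mul_le_mul_of_nonneg_left hntx hx0
      _ = 2 * x * (n * t) := by ring
  have h6 : (N : ℝ) * (n * t) ≤
      (m + 2 * x * m + q / n + 2 * x * (4 * m + 5)) * (n * t) := by
    have e1 : (q : ℝ) * m ≤ 2 * x * (n * t) * m := mul_le_mul_of_nonneg_right h5 hmR
    have e2 : (q : ℝ) * (4 * m + 5) ≤ 2 * x * (n * t) * (4 * m + 5) :=
      mul_le_mul_of_nonneg_right h5 (by positivity)
    calc (N : ℝ) * (n * t) ≤ n * t * m + q * m + q * (t + (4 * m + 5)) := main3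
      _ = n * t * m + q * m + q * t + q * (4 * m + 5) := by ring
      _ ≤ n * t * m + 2 * x * (n * t) * m + q / n * (n * t) + 2 * x * (n * t) * (4 * m + 5) := by
        rw [← htn]
        linarith
      _ = _ := by ring
  have h7 := le_of_mul_le_mul_right h6 hnt0
  have hx1 : 1 ≤ x := by
    rw [hx, Real.one_le_sqrt]
    exact_mod_cast hq1.le
  have h8 : (m : ℝ) ≤ m * x := le_mul_of_one_le_right hmR hx1
  have h9 : (0 : ℝ) ≤ 2 * (n + 1) * (m + 1) * x := by positivity
  linarith

/-- **Stepanov's theorem** (1969): for `f` of degree `m` prime to `n ≥ 2` and a finite field with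
`q` elements, `n ∣ q - 1`, `a ≠ 0`, the number of the `x` with `f(x) ^ ((q - 1) / n) = a` is at
most `q / n + C √q`, where `C` depends only on `m` and `n`. -/
theorem stepanov {m n : ℕ} (hn : 1 < n) (hc : m.Coprime n) : StepStmt.{u} m n := by
  refine ⟨3 * m + 2 * (4 * m + 5) + 2 * (n + 1) * (m + 1), by positivity,
    fun F _ _ f a hf hd ha => ?_⟩
  classical
  set q := Fintype.card F with hqdef
  have hq1 : 1 < q := Fintype.one_lt_card
  set S : Finset F := univ.filter fun y => f.eval y ^ ((q - 1) / n) = a with hS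
  have hcard : Nat.card {y : F // f.eval y ^ ((q - 1) / n) = a} = S.card := by
    rw [Nat.card_eq_fintype_card, Fintype.card_subtype]
  rw [hcard]
  have hSq : S.card ≤ q := by
    rw [hqdef, ← Finset.card_univ]
    exact Finset.card_le_card (Finset.filter_subset _ _)
  have hf0 : f ≠ 0 := by
    rintro rfl
    rw [natDegree_zero] at hf
    subst hf
    rw [Nat.coprime_zero_left] at hc
    omega
  refine bound_of hn hq1 hSq fun A t hA htq hlt => ?_
  obtain ⟨h, hh⟩ : ∃ h, h = (q - 1) / n := ⟨_, rfl⟩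
  have hnh : n * h + 1 = q := by
    rw [hh, Nat.mul_div_cancel' hd]
    omega
  have main := card_mul_le (f := f) hf0 (n := n) (h := h) (l := n * t) (A := A)
    (J := t + (4 * m + 5)) hnh (by omega) (by rw [hf]; exact hc) (by rw [hf]; omega)
    (by rw [← hqdef]; omega) (by rw [hf]; exact hlt) ha S (fun y hy => by
      rw [hh]
      exact (Finset.mem_filter.1 hy).2)
  rw [← hqdef, hf] at main
  have hnh' : (n - 1) * h ≤ q := by
    have : (n - 1) * h ≤ n * h := Nat.mul_le_mul_right _ (by omega)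
    omega
  have hAq : A ≤ q := by
    have : A ≤ n * A := Nat.le_mul_of_pos_left _ (by omega)
    omega
  have e1 : (n * t + (n - 1) * h) * m ≤ n * t * m + q * m := by
    rw [add_mul]
    exact Nat.add_le_add_left (Nat.mul_le_mul_right _ hnh') _
  have e2 : q * (t + (4 * m + 5) - 1) + q = q * (t + (4 * m + 5)) := by
    rw [show t + (4 * m + 5) = (t + (4 * m + 5) - 1) + 1 by omega]
    rw [Nat.add_sub_cancel]
    ring
  omega

end Fermat.Agent.Cor.WeilC
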