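import Fermat.Agent.Corollaries.WeilC.Step

/-!
# Stepanov's method for additive characters

Let `F` be a finite field with `q = p Q` elements, `p` prime, `f` a polynomial over `F` of degree
`m` prime to `p` and `g = f + f ^ p + ... + f ^ Q`. The number of the `x` with `g(x) = a` is at
most `q / p + C √q`, where `C` depends only on `m` and `p`. The auxiliary polynomial is
`∑_{i < p, j < J} r_{ij} g ^ i X ^ (j q)`. Instead of derivatives we use the polynomial `u(X + Y)`
in two variables.
-/

set_option autoImplicit false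

namespace Fermat.Agent.Cor.WeilC

open Polynomial Finset

universe u

/-- The bound for the polynomials of degree `m` and the characteristic `p`. -/
def StepAddStmt (m p : ℕ) : Prop := ∃ C : ℝ, 0 < C ∧
  ∀ (F : Type u) [Field F] [Fintype F] [CharP F p] (f : F[X]) (r : ℕ) (a : F),
    f.natDegree = m → Fintype.card F = p ^ r →
    (Nat.card {x : F // ∑ s ∈ range r, f.eval x ^ p ^ s = a} : ℝ) ≤
      Fintype.card F / p + C * √(Fintype.card F)

section Weight

variable {F : Type*} [Field F]

/-- The coefficient of `Y ^ k` has degree at most `B + k m`. -/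
def Wt (m B : ℕ) (P : F[X][X]) : Prop := ∀ k, (P.coeff k).natDegree ≤ B + k * m

theorem Wt.mul {m B B' : ℕ} {P Q : F[X][X]} (hP : Wt m B P) (hQ : Wt m B' Q) :
    Wt m (B + B') (P * Q) := by
  intro k
  rw [coeff_mul]
  refine natDegree_sum_le_of_forall_le _ _ fun ij hij => ?_
  rw [HasAntidiagonal.mem_antidiagonal] at hij
  refine natDegree_mul_le.trans ((Nat.add_le_add (hP _) (hQ _)).trans ?_)
  rw [← hij, add_mul]
  omega

theorem Wt.add {m B : ℕ} {P Q : F[X][X]} (hP : Wt m B P) (hQ : Wt m B Q) : Wt m B (P + Q) := by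
  intro k
  rw [coeff_add]
  exact (natDegree_add_le _ _).trans (max_le (hP k) (hQ k))

theorem Wt.sum {m B : ℕ} {ι : Type*} (s : Finset ι) {P : ι → F[X][X]}
    (hP : ∀ i ∈ s, Wt m B (P i)) : Wt m B (∑ i ∈ s, P i) := by
  intro k
  rw [finsetSum_coeff]
  exact natDegree_sum_le_of_forall_le _ _ fun i hi => hP i hi k

theorem Wt.mono {m m' B B' : ℕ} {P : F[X][X]} (hP : Wt m B P) (hm : m ≤ m') (hB : B ≤ B') :
    Wt m' B' P := fun k =>
  (hP k).trans (Nat.add_le_add hB (Nat.mul_le_mul_left _ hm))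

theorem wt_C {m B : ℕ} {u : F[X]} (hu : u.natDegree ≤ B) : Wt m B (C u) := by
  intro k
  rw [coeff_C]
  split_ifs
  · exact hu.trans (Nat.le_add_right _ _)
  · rw [natDegree_zero]
    exact Nat.zero_le _

theorem Wt.pow {m : ℕ} {P : F[X][X]} (hP : Wt m 0 P) (N : ℕ) : Wt m 0 (P ^ N) := by
  induction N with
  | zero =>
    rw [pow_zero, ← C_1]
    exact wt_C (by rw [natDegree_one])
  | succ N ih =>
    rw [pow_succ]
    exact ih.mul hP

/-- `u(X + Y)` -/
noncomputable def D : F[X] →+* F[X][X] :=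
  eval₂RingHom ((C : F[X] →+* F[X][X]).comp (C : F →+* F[X])) (X + C X)

theorem map_D (x : F) (u : F[X]) : (D u).map (evalRingHom x) = taylor x u := by
  rw [D, coe_eval₂RingHom, taylor_apply, comp, ← coe_mapRingHom, hom_eval₂]
  congr 1
  · ext a
    simp
  · simp

theorem D_X : D (X : F[X]) = X + C X := by simp [D]

theorem D_C (a : F) : D (C a) = C (C a) := by simp [D]

theorem wt_D (u : F[X]) : Wt 0 u.natDegree (D u) := by
  have h1 : Wt 0 1 (X + C X : F[X][X]) := by
    intro k
    rw [coeff_add, coeff_X, coeff_C]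
    refine (natDegree_add_le _ _).trans (max_le ?_ ?_)
    · split_ifs <;> simp
    · split_ifs <;> simp
  have h2 : ∀ j, Wt 0 j ((X + C X : F[X][X]) ^ j) := by
    intro j
    induction j with
    | zero =>
      rw [pow_zero, ← C_1]
      exact wt_C (by rw [natDegree_one])
    | succ j ih =>
      rw [pow_succ]
      exact ih.mul h1
  conv => arg 3; rw [u.as_sum_range_C_mul_X_pow]
  rw [map_sum]
  refine Wt.sum _ fun j hj => ?_
  rw [Finset.mem_range] at hj
  rw [map_mul, map_pow, D_X, D_C]
  have h3 : Wt 0 0 (C (C (u.coeff j)) : F[X][X]) := wt_C (by rw [natDegree_C])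
  exact (h3.mul (h2 j)).mono le_rfl (by omega)

/-- `f(X + Y) - f(X)` has no constant term. -/
theorem wt_D_sub (f : F[X]) : Wt f.natDegree 0 (D f - C f) := by
  intro k
  rcases Nat.eq_zero_or_pos k with rfl | hk
  · have h1 : (D f - C f).coeff 0 = 0 := by
      rw [coeff_sub, coeff_C_zero, sub_eq_zero, coeff_zero_eq_eval_zero, D, coe_eval₂RingHom,
        ← coe_evalRingHom, hom_eval₂]
      conv_rhs => rw [← eval₂_C_X (p := f)]
      congr 1
      · ext a
        simp
      · simp
    rw [h1, natDegree_zero]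
    exact Nat.zero_le _
  · rw [coeff_sub, coeff_C_of_ne_zero (by omega), sub_zero]
    have h1 := wt_D f k
    rw [mul_zero, add_zero] at h1
    refine h1.trans ?_
    rw [zero_add]
    exact Nat.le_mul_of_pos_left _ hk

variable {p : ℕ} [Fact p.Prime] [CharP F p]

/-- `f + f ^ p + ... + f ^ (p ^ (r - 1))` -/
noncomputable def trSum (p : ℕ) (f : F[X]) (r : ℕ) : F[X] := ∑ s ∈ range r, f ^ p ^ s

theorem wt_trSum (f : F[X]) (r : ℕ) : Wt f.natDegree 0 (D (trSum p f r) - C (trSum p f r)) := by
  have h1 : D (trSum p f r) - C (trSum p f r) = ∑ s ∈ range r, (D f - C f) ^ p ^ s := by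
    rw [trSum, map_sum, map_sum, ← Finset.sum_sub_distrib]
    refine Finset.sum_congr rfl fun s _ => ?_
    rw [sub_pow_char_pow, map_pow, map_pow]
  rw [h1]
  exact Wt.sum _ fun s _ => (wt_D_sub f).pow _

omit [CharP F p] in
theorem natDegree_trSum {f : F[X]} (hf : 0 < f.natDegree) (r : ℕ) :
    (trSum p f (r + 1)).natDegree = f.natDegree * p ^ r := by
  have hp : 1 < p := (Fact.out : p.Prime).one_lt
  induction r with
  | zero => simp [trSum]
  | succ r ih =>
    have h1 : trSum p f (r + 1 + 1) = trSum p f (r + 1) + f ^ p ^ (r + 1) := by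
      rw [trSum, Finset.sum_range_succ, ← trSum]
    have h2 : (f ^ p ^ (r + 1)).natDegree = f.natDegree * p ^ (r + 1) := by
      rw [natDegree_pow, mul_comm]
    rw [h1, natDegree_add_eq_right_of_natDegree_lt, h2]
    rw [ih, h2]
    exact Nat.mul_lt_mul_of_pos_left (Nat.pow_lt_pow_right hp (Nat.lt_succ_self r)) hf

end Weight

section Core

variable {F : Type*} [Field F]

/-- The terms of the auxiliary polynomial have different degrees. -/
theorem sum_add_ne_zero {g : F[X]} (hg : g ≠ 0) {m n Q A J : ℕ} (hn : 0 < n)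
    (hc : m.Coprime n) (hA : A ≤ Q) (hgd : g.natDegree = m * Q)
    {r : Fin n × Fin J → F[X]} (hr : ∀ i, (r i).degree < A) {i₀ : Fin n × Fin J}
    (h₀ : r i₀ ≠ 0) :
    ∑ i, r i * g ^ i.1.1 * X ^ (n * Q * i.2.1) ≠ 0 := by
  set t : Fin n × Fin J → F[X] := fun i => r i * g ^ i.1.1 * X ^ (n * Q * i.2.1) with ht
  have ht0 : ∀ i, t i ≠ 0 ↔ r i ≠ 0 := fun i => by
    rw [ht]
    simp [hg]
  have htd : ∀ i, r i ≠ 0 → (t i).natDegree = (r i).natDegree + i.1.1 * (m * Q) +
      n * Q * i.2.1 := fun i hi => by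
    rw [ht]
    simp only
    rw [natDegree_mul (mul_ne_zero hi (pow_ne_zero _ hg)) (pow_ne_zero _ X_ne_zero),
      natDegree_mul hi (pow_ne_zero _ hg), natDegree_pow, natDegree_X_pow, hgd]
  have hrd : ∀ i, r i ≠ 0 → (r i).natDegree + 1 ≤ A := fun i hi => by
    have := hr i
    rw [degree_eq_natDegree hi] at this
    exact_mod_cast this
  have hdis : Set.Pairwise {i | i ∈ (univ : Finset (Fin n × Fin J)) ∧ t i ≠ 0}
      (Function.onFun Ne (degree ∘ t)) := by
    intro i hi i' hi' hne hd
    apply hne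
    have hi1 := (ht0 i).1 hi.2
    have hi1' := (ht0 i').1 hi'.2
    have hd' : (t i).natDegree = (t i').natDegree := natDegree_eq_of_degree_eq hd
    rw [htd i hi1, htd i' hi1'] at hd'
    have e1 := hrd i hi1
    have e2 := hrd i' hi1'
    have hi2 := i.1.2
    have hi2' := i'.1.2
    have key : (Q : ℤ) * (i.1.1 * m + n * i.2.1 - (i'.1.1 * m + n * i'.2.1)) =
        (r i').natDegree - (r i).natDegree := by
      have h1 : ((r i).natDegree : ℤ) + i.1.1 * (m * Q) + n * Q * i.2.1 =
          (r i').natDegree + i'.1.1 * (m * Q) + n * Q * i'.2.1 := by exact_mod_cast hd'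
      linear_combination h1
    have hn' : (0 : ℤ) < n := by exact_mod_cast hn
    have hz : (i.1.1 : ℤ) * m + n * i.2.1 - (i'.1.1 * m + n * i'.2.1) = 0 := by
      refine eq_zero_of_mul_lt (q := Q) ?_ ?_
      · rw [key]
        omega
      · rw [key]
        omega
    have hdvd : (n : ℤ) ∣ ((i.1.1 : ℤ) - i'.1.1) * m :=
      ⟨i'.2.1 - i.2.1, by linear_combination hz⟩
    have hcop : IsCoprime (n : ℤ) (m : ℤ) := (Nat.isCoprime_iff_coprime.2 hc).symm
    have h5 : (n : ℤ) ∣ (i.1.1 : ℤ) - i'.1.1 := hcop.dvd_of_dvd_mul_right hdvd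
    have h6 : (i.1.1 : ℤ) - i'.1.1 = 0 := by
      refine Int.eq_zero_of_abs_lt_dvd h5 ?_
      rw [abs_lt]
      omega
    have h7 : (n : ℤ) * (i.2.1 - i'.2.1) = 0 := by linear_combination hz - (m : ℤ) * h6
    have h8 : (i.2.1 : ℤ) - i'.2.1 = 0 := (mul_eq_zero.1 h7).resolve_left hn'.ne'
    exact Prod.ext (Fin.ext (by omega)) (Fin.ext (by omega))
  intro h0
  have h1 := degree_sum_eq_of_disjoint t univ hdis
  have h2 : (∑ i, t i) = 0 := h0
  rw [h2, degree_zero] at h1
  have h3 : degree (t i₀) ≤ univ.sup fun i => degree (t i) :=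
    Finset.le_sup (f := fun i => degree (t i)) (mem_univ i₀)
  rw [← h1, le_bot_iff, degree_eq_bot] at h3
  exact (ht0 i₀).2 h₀ h3

/-- The polynomial of the `k`-th system of linear equations. -/
noncomputable def G (g : F[X]) {n A J : ℕ} (a : F) (r : Fin n × Fin J → degreeLT F A) :
    F[X][X] :=
  ∑ i : Fin n × Fin J, C (X ^ i.2.1) * D (r i : F[X]) * (D g - C g + C (C a)) ^ i.1.1

/-- The `k`-th system of linear equations. -/
noncomputable def TA (g : F[X]) (n A J : ℕ) (a : F) (k : ℕ) :
    (Fin n × Fin J → degreeLT F A) →ₗ[F] F[X] where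
  toFun r := (G g a r).coeff k
  map_add' r s := by
    rw [← coeff_add]
    congr 1
    rw [G, G, G, ← Finset.sum_add_distrib]
    refine Finset.sum_congr rfl fun i _ => ?_
    rw [Pi.add_apply, Submodule.coe_add, map_add]
    ring
  map_smul' c r := by
    rw [RingHom.id_apply, smul_eq_C_mul, ← coeff_C_mul]
    congr 1
    rw [G, G, Finset.mul_sum]
    refine Finset.sum_congr rfl fun i _ => ?_
    rw [Pi.smul_apply, Submodule.coe_smul, smul_eq_C_mul, map_mul, D_C]
    ring

theorem TA_mem {g : F[X]} {m n A J : ℕ} (hg : Wt m 0 (D g - C g)) (a : F) {k l : ℕ}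
    (hk : k < l) (r : Fin n × Fin J → degreeLT F A) :
    TA g n A J a k r ∈ degreeLT F (A + l * m + J) := by
  have h0 : TA g n A J a k r =
      ∑ i : Fin n × Fin J, (C (X ^ i.2.1) * D (r i : F[X]) *
        (D g - C g + C (C a)) ^ i.1.1).coeff k := by
    change (G g a r).coeff k = _
    rw [G, finsetSum_coeff]
  rw [h0]
  refine Submodule.sum_mem _ fun i _ => ?_
  rw [mem_degreeLT]
  rcases eq_or_ne (r i : F[X]) 0 with hr0 | hr0
  · rw [hr0, map_zero, mul_zero, zero_mul, coeff_zero, degree_zero]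
    exact WithBot.bot_lt_coe _
  have hr1 := mem_degreeLT.1 (r i).2
  rw [degree_eq_natDegree hr0] at hr1
  have hr2 : (r i : F[X]).natDegree < A := by exact_mod_cast hr1
  have w1 : Wt m i.2.1 (C (X ^ i.2.1) : F[X][X]) := wt_C (by rw [natDegree_X_pow])
  have w2 : Wt m (r i : F[X]).natDegree (D (r i : F[X])) := (wt_D _).mono (Nat.zero_le _) le_rfl
  have w3 : Wt m 0 ((D g - C g + C (C a)) ^ i.1.1) :=
    (hg.add (wt_C (by rw [natDegree_C]))).pow _
  have w4 := ((w1.mul w2).mul w3) k
  refine lt_of_le_of_lt degree_le_natDegree ?_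
  have h2 := i.2.2
  have h3 : k * m ≤ l * m := Nat.mul_le_mul_right _ hk.le
  exact_mod_cast lt_of_le_of_lt w4 (by omega)

theorem exists_ne_zero_add {g : F[X]} {m n l A J : ℕ} (hg : Wt m 0 (D g - C g)) (a : F)
    (hlt : l * (A + l * m + J) < n * J * A) :
    ∃ r : Fin n × Fin J → degreeLT F A, r ≠ 0 ∧ ∀ k < l, (G g a r).coeff k = 0 := by
  let Φ : (Fin n × Fin J → degreeLT F A) →ₗ[F]
      (Fin l → degreeLT F (A + l * m + J)) :=
    LinearMap.pi fun k => (TA g n A J a k.1).codRestrict _ (TA_mem hg a k.2)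
  have h1 : Module.finrank F (Fin l → degreeLT F (A + l * m + J)) <
      Module.finrank F (Fin n × Fin J → degreeLT F A) := by
    rw [Module.finrank_pi_fintype, Module.finrank_pi_fintype]
    simp only [finrank_degreeLT, Finset.sum_const, Finset.card_univ, Fintype.card_prod,
      Fintype.card_fin, smul_eq_mul]
    exact hlt
  obtain ⟨r, hr, hr0⟩ := (Submodule.ne_bot_iff _).1 (Φ.ker_ne_bot_of_finrank_lt h1)
  refine ⟨r, hr0, fun k hk => ?_⟩
  have h2 := congrFun (LinearMap.mem_ker.1 hr) ⟨k, hk⟩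
  exact congrArg Subtype.val h2

/-- **Stepanov's method**: the number of the `x` with `g(x) = a`. -/
theorem card_mul_le_add [Fintype F] {g : F[X]} (hg0 : g ≠ 0) {m n Q l A J : ℕ}
    (hg : Wt m 0 (D g - C g)) (hq : n * Q = Fintype.card F) (hn : 0 < n) (hc : m.Coprime n)
    (hA : A ≤ Q) (hgd : g.natDegree = m * Q) (hl : l ≤ Fintype.card F)
    (hlt : l * (A + l * m + J) < n * J * A) {a : F}
    (S : Finset F) (hS : ∀ x ∈ S, g.eval x = a) :
    S.card * l ≤ (n - 1) * (m * Q) + A + Fintype.card F * (J - 1) := by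
  classical
  obtain ⟨r, hr0, hr⟩ := exists_ne_zero_add hg a hlt
  set R : F[X] := ∑ i : Fin n × Fin J,
    (r i : F[X]) * g ^ i.1.1 * X ^ (n * Q * i.2.1) with hR
  obtain ⟨i₀, hi₀⟩ := Function.ne_iff.1 hr0
  have hi₀' : (r i₀ : F[X]) ≠ 0 := fun h0 => hi₀ (Subtype.ext h0)
  have hR0 : R ≠ 0 := sum_add_ne_zero (r := fun i => (r i : F[X])) hg0 hn hc hA hgd
    (fun i => mem_degreeLT.1 (r i).2) hi₀'
  have hmult : ∀ x ∈ S, l ≤ R.rootMultiplicity x := by
    intro x hx
    refine le_rootMultiplicity hR0 x l fun k hk => ?_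
    rw [hR, map_sum, finsetSum_coeff]
    have h1 : ∀ i : Fin n × Fin J, (taylor x ((r i : F[X]) * g ^ i.1.1 *
        X ^ (n * Q * i.2.1))).coeff k =
        (taylor x (r i : F[X]) * (taylor x g) ^ i.1.1).coeff k * x ^ i.2.1 := fun i => by
      rw [hq, coeff_taylor_mul x _ _ k (by omega), ← taylor_coeff, taylor_mul, taylor_pow]
    rw [Finset.sum_congr rfl fun i _ => h1 i]
    have h2 := congrArg (eval x) (hr k hk)
    rw [eval_zero, ← coe_evalRingHom, ← coeff_map, G, Polynomial.map_sum, finsetSum_coeff] at h2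
    have h3 : ∀ i : Fin n × Fin J, ((C (X ^ i.2.1) * D (r i : F[X]) *
        (D g - C g + C (C a)) ^ i.1.1).map (evalRingHom x)).coeff k =
        (taylor x (r i : F[X]) * (taylor x g) ^ i.1.1).coeff k * x ^ i.2.1 := fun i => by
      have h4 : (D g - C g + C (C a)).map (evalRingHom x) = taylor x g := by
        rw [Polynomial.map_add, Polynomial.map_sub, map_D, map_C, map_C, coe_evalRingHom,
          eval_C, hS x hx]
        ring
      rw [Polynomial.map_mul, Polynomial.map_mul, Polynomial.map_pow, h4, map_D, map_C,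
        coe_evalRingHom, eval_pow, eval_X, mul_assoc, coeff_C_mul, mul_comm]
    rw [Finset.sum_congr rfl fun i _ => h3 i] at h2
    exact h2
  have h1 : S.card * l ≤ R.natDegree := by
    calc S.card * l = ∑ x ∈ S, l := by rw [Finset.sum_const, smul_eq_mul]
      _ ≤ ∑ x ∈ S, R.roots.count x := Finset.sum_le_sum fun x hx => by
        rw [count_roots]
        exact hmult x hx
      _ ≤ R.roots.card := by
        rw [← Multiset.toFinset_sum_count_eq R.roots]
        have h5 : ∑ x ∈ S, R.roots.count x =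
            ∑ x ∈ S.filter (· ∈ R.roots.toFinset), R.roots.count x := by
          rw [Finset.sum_filter]
          refine Finset.sum_congr rfl fun x _ => ?_
          split_ifs with h6
          · rfl
          · rw [Multiset.mem_toFinset] at h6
            exact Multiset.count_eq_zero_of_notMem h6
        rw [h5]
        exact Finset.sum_le_sum_of_subset fun x hx => (Finset.mem_filter.1 hx).2
      _ ≤ R.natDegree := card_roots' R
  refine h1.trans (natDegree_sum_le_of_forall_le _ _ fun i _ => ?_)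
  rcases eq_or_ne (r i : F[X]) 0 with h0 | h0
  · rw [h0, zero_mul, zero_mul, natDegree_zero]
    exact Nat.zero_le _
  have hr1 := mem_degreeLT.1 (r i).2
  rw [degree_eq_natDegree h0] at hr1
  have hr2 : (r i : F[X]).natDegree < A := by exact_mod_cast hr1
  rw [natDegree_mul (mul_ne_zero h0 (pow_ne_zero _ hg0)) (pow_ne_zero _ X_ne_zero),
    natDegree_mul h0 (pow_ne_zero _ hg0), natDegree_pow, natDegree_X_pow, hgd, hq]
  have e1 := i.1.2
  have e2 := i.2.2
  have e3 : i.1.1 * (m * Q) ≤ (n - 1) * (m * Q) := Nat.mul_le_mul_right _ (by omega)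
  have e4 : Fintype.card F * i.2.1 ≤ Fintype.card F * (J - 1) :=
    Nat.mul_le_mul_left _ (by omega)
  omega

end Core

/-- **Stepanov's theorem** for additive characters: for `f` of degree `m` prime to `p` and a
finite field with `q = p ^ r` elements the number of the `x` with
`f(x) + f(x) ^ p + ... + f(x) ^ (q / p) = a` is at most `q / p + C √q`, where `C` depends only
on `m` and `p`. -/
theorem stepanov_add {m p : ℕ} (hp : p.Prime) (hc : m.Coprime p) : StepAddStmt.{u} m p := by
  refine ⟨3 * m + 2 * (4 * m + 5) + 2 * (p + 1) * (m + 1), by positivity,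
    fun F _ _ _ f r a hf hr => ?_⟩
  classical
  have : Fact p.Prime := ⟨hp⟩
  set q := Fintype.card F with hqdef
  have hq1 : 1 < q := Fintype.one_lt_card
  set S : Finset F := univ.filter fun y => ∑ s ∈ range r, f.eval y ^ p ^ s = a with hS
  have hcard : Nat.card {y : F // ∑ s ∈ range r, f.eval y ^ p ^ s = a} = S.card := by
    rw [Nat.card_eq_fintype_card, Fintype.card_subtype]
  rw [hcard]
  have hSq : S.card ≤ q := by
    rw [hqdef, ← Finset.card_univ]
    exact Finset.card_le_card (Finset.filter_subset _ _)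
  have hm0 : 0 < m := by
    rcases Nat.eq_zero_or_pos m with h | h
    · rw [h, Nat.coprime_zero_left] at hc
      exact absurd hc hp.one_lt.ne'
    · exact h
  obtain ⟨r, rfl⟩ : ∃ r', r = r' + 1 := by
    rcases Nat.eq_zero_or_pos r with h | h
    · rw [h, pow_zero] at hr
      omega
    · exact ⟨r - 1, by omega⟩
  have hqQ : p * p ^ r = q := by rw [hr, pow_succ']
  refine bound_of hp.one_lt hq1 hSq fun A t hA htq hlt => ?_
  have hg0 : trSum p f (r + 1) ≠ 0 := by
    intro h
    have h1 := natDegree_trSum (p := p) (f := f) (by rw [hf]; exact hm0) r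
    rw [h, natDegree_zero, hf] at h1
    exact (Nat.mul_pos hm0 (Nat.pow_pos hp.pos)).ne h1
  have hAQ : A + m ≤ p ^ r := by
    have h1 : p * (A + m) ≤ p * p ^ r := by
      rw [hqQ, mul_add]
      exact hA
    exact Nat.le_of_mul_le_mul_left h1 hp.pos
  have hwt := wt_trSum (p := p) f (r + 1)
  rw [hf] at hwt
  have main := card_mul_le_add (g := trSum p f (r + 1)) hg0 (m := m) (n := p) (Q := p ^ r)
    (l := p * t) (A := A) (J := t + (4 * m + 5)) hwt (by rw [hqQ]) hp.pos hc (by omega)
    (by rw [natDegree_trSum (by rw [hf]; exact hm0), hf]) htq hlt (a := a) S (fun y hy => by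
      rw [trSum, eval_finsetSum]
      simp only [eval_pow]
      exact (Finset.mem_filter.1 hy).2)
  rw [← hqdef] at main
  have e1 : (p - 1) * (m * p ^ r) ≤ q * m := by
    rw [← hqQ]
    calc (p - 1) * (m * p ^ r) ≤ p * (m * p ^ r) := Nat.mul_le_mul_right _ (by omega)
      _ = p * p ^ r * m := by ring
  have e2 : q * (t + (4 * m + 5) - 1) + q = q * (t + (4 * m + 5)) := by
    rw [show t + (4 * m + 5) = (t + (4 * m + 5) - 1) + 1 by omega]
    rw [Nat.add_sub_cancel]
    ring
  have e3 : A ≤ q := by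
    have : A ≤ p * A := Nat.le_mul_of_pos_left _ hp.pos
    omega
  omega

end Fermat.Agent.Cor.WeilC
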