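import Fermat.Agent.Corollaries.WeilC.CharSumAdd

/-!
# Stepanov's method for Kloosterman sums

Let `F` be a finite field with `q = p Q` elements, `p` prime, and `a`, `b` elements of `F`, not
zero. The number of the `x ≠ 0` with `Tr (a x + b / x) = c` is at most `q / p + C √q`, where `C`
depends only on `p`. The auxiliary polynomial is
`∑_{i < p, j < J} r_{ij} G ^ i X ^ ((p - 1 - i) Q + j q)` with
`G = ∑ (a X ^ 2 + b) ^ (p ^ s) X ^ (Q - p ^ s) = X ^ Q Tr (a X + b / X)`, and we use the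
substitution `X + X ^ 2 Z`.
-/

set_option autoImplicit false

namespace Fermat.Agent.Cor.WeilC

open Polynomial Finset

universe u

section Weight

variable {F : Type*} [Field F]

/-- `u(X + X ^ 2 Z)` -/
noncomputable def DK : F[X] →+* F[X][X] :=
  eval₂RingHom ((C : F[X] →+* F[X][X]).comp (C : F →+* F[X])) (C X + C (X ^ 2) * X)

theorem DK_X : DK (X : F[X]) = C X + C (X ^ 2) * X := by simp [DK]

theorem DK_C (a : F) : DK (C a) = C (C a) := by simp [DK]

theorem map_DK (x : F) (u : F[X]) : (DK u).map (evalRingHom x) =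
    (taylor x u).comp (C (x ^ 2) * X) := by
  rw [DK, coe_eval₂RingHom, taylor_apply, comp_assoc, ← coe_mapRingHom, hom_eval₂, comp]
  congr 1
  · ext a
    simp
  · simp only [map_add, map_mul, coe_mapRingHom, map_C, map_X, coe_evalRingHom, eval_X, eval_pow,
      add_comp, X_comp, C_comp]
    ring

theorem coeff_map_DK (x : F) (u : F[X]) (k : ℕ) :
    ((DK u).map (evalRingHom x)).coeff k = (taylor x u).coeff k * (x ^ 2) ^ k := by
  rw [map_DK, comp_C_mul_X_coeff]

theorem wt_DK_X : Wt 2 1 (C X + C (X ^ 2) * X : F[X][X]) := by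
  refine Wt.add (wt_C (by simp)) ?_
  intro k
  rw [coeff_C_mul, coeff_X]
  split_ifs with h
  · subst h
    simp
  · simp

theorem wt_DK (u : F[X]) : Wt 2 u.natDegree (DK u) := by
  have h2 : ∀ j, Wt 2 j ((C X + C (X ^ 2) * X : F[X][X]) ^ j) := by
    intro j
    induction j with
    | zero =>
      rw [pow_zero, ← C_1]
      exact wt_C (by rw [natDegree_one])
    | succ j ih =>
      rw [pow_succ]
      exact ih.mul wt_DK_X
  conv => arg 3; rw [u.as_sum_range_C_mul_X_pow]
  rw [map_sum]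
  refine Wt.sum _ fun j hj => ?_
  rw [Finset.mem_range] at hj
  rw [map_mul, map_pow, DK_X, DK_C]
  have h3 : Wt 2 0 (C (C (u.coeff j)) : F[X][X]) := wt_C (by rw [natDegree_C])
  exact (h3.mul (h2 j)).mono le_rfl (by omega)

/-- `1 + X Z` -/
noncomputable def eK (F : Type*) [Field F] : F[X][X] := 1 + C X * X

theorem wt_eK : Wt 2 0 (eK F) := by
  rw [eK, ← C_1]
  refine Wt.add (wt_C (by simp)) ?_
  intro k
  rw [coeff_C_mul, coeff_X]
  split_ifs with h
  · subst h
    simp
  · simp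

/-- `Z (a X ^ 2 (1 + X Z) - b)` -/
noncomputable def dK (a b : F) : F[X][X] := X * (C (C a * X ^ 2) * eK F - C (C b))

theorem wt_dK (a b : F) : Wt 2 0 (dK a b) := by
  intro k
  rw [dK]
  rcases k with _ | k
  · simp
  · rw [coeff_X_mul, coeff_sub, eK, mul_add, mul_one, ← mul_assoc, ← C_mul, coeff_add, coeff_C,
      coeff_C, coeff_C_mul, coeff_X]
    refine (natDegree_sub_le _ _).trans (max_le ((natDegree_add_le _ _).trans
      (max_le ?_ ?_)) ?_)
    · split_ifs
      · refine (natDegree_C_mul_X_pow_le _ _).trans ?_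
        omega
      · simp
    · split_ifs with h
      · rw [mul_one, mul_assoc, ← pow_succ]
        refine (natDegree_C_mul_X_pow_le _ _).trans ?_
        omega
      · simp
    · split_ifs <;> simp

variable {p : ℕ} [Fact p.Prime] [CharP F p]

/-- `X ^ Q Tr (a X + b / X)`, `Q = p ^ r` -/
noncomputable def GK (p : ℕ) (a b : F) (r : ℕ) : F[X] :=
  ∑ s ∈ range (r + 1), (C a * X ^ 2 + C b) ^ p ^ s * X ^ (p ^ r - p ^ s)

/-- `∑ (Z (a X ^ 2 (1 + X Z) - b)) ^ (p ^ s) (1 + X Z) ^ (Q - p ^ s)` -/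
noncomputable def NK (p : ℕ) (a b : F) (r : ℕ) : F[X][X] :=
  ∑ s ∈ range (r + 1), dK a b ^ p ^ s * eK F ^ (p ^ r - p ^ s)

omit [Fact p.Prime] [CharP F p] in
theorem wt_NK (a b : F) (r : ℕ) : Wt 2 0 (NK p a b r) :=
  Wt.sum _ fun _ _ => ((wt_dK a b).pow _).mul (wt_eK.pow _)

theorem DK_GK (a b : F) (r : ℕ) :
    DK (GK p a b r) = eK F ^ p ^ r * C (GK p a b r) + C (X ^ p ^ r) * NK p a b r := by
  rw [GK, NK, map_sum, map_sum, Finset.mul_sum, Finset.mul_sum, ← Finset.sum_add_distrib]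
  refine Finset.sum_congr rfl fun s hs => ?_
  rw [Finset.mem_range] at hs
  have hle : p ^ s ≤ p ^ r := Nat.pow_le_pow_right (Fact.out : p.Prime).pos (by omega)
  have hX : DK (X : F[X]) = C X * eK F := by
    rw [DK_X, eK, C_pow]
    ring
  have h1 : DK (C a * X ^ 2 + C b : F[X]) =
      eK F * C (C a * X ^ 2 + C b) + C X * dK a b := by
    rw [map_add, map_mul, map_pow, hX, DK_C, DK_C, dK, eK]
    simp only [C_add, C_mul, C_pow]
    ring
  have e1 : eK F ^ p ^ r = eK F ^ p ^ s * eK F ^ (p ^ r - p ^ s) := by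
    rw [← pow_add, Nat.add_sub_cancel' hle]
  have e2 : (C (X ^ p ^ r) : F[X][X]) = C X ^ p ^ s * C X ^ (p ^ r - p ^ s) := by
    rw [← pow_add, Nat.add_sub_cancel' hle, C_pow]
  rw [map_mul, map_pow, map_pow, hX, h1, add_pow_char_pow, mul_pow, mul_pow, mul_pow, e1, e2]
  simp only [C_mul, C_pow]
  ring

omit [CharP F p] in
theorem natDegree_GK {a b : F} (ha : a ≠ 0) (r : ℕ) :
    (GK p a b r).natDegree = 2 * p ^ r := by
  have hp : 1 < p := (Fact.out : p.Prime).one_lt
  have hd : (C a * X ^ 2 + C b : F[X]).natDegree = 2 := by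
    rw [natDegree_add_C, natDegree_C_mul_X_pow _ _ ha]
  have hl : (GK p a b r) = ∑ s ∈ range r, (C a * X ^ 2 + C b) ^ p ^ s * X ^ (p ^ r - p ^ s) +
      (C a * X ^ 2 + C b) ^ p ^ r := by
    rw [GK, Finset.sum_range_succ, Nat.sub_self, pow_zero, mul_one]
  have h2 : ((C a * X ^ 2 + C b : F[X]) ^ p ^ r).natDegree = 2 * p ^ r := by
    rw [natDegree_pow, hd, mul_comm]
  have hr0 : 0 < p ^ r := Nat.pow_pos (by omega)
  rw [hl, natDegree_add_eq_right_of_natDegree_lt, h2]
  rw [h2]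
  refine lt_of_le_of_lt (natDegree_sum_le_of_forall_le (n := 2 * p ^ r - 1) _ _
    fun s hs => ?_) (by omega)
  rw [Finset.mem_range] at hs
  have hlt : p ^ s < p ^ r := Nat.pow_lt_pow_right hp hs
  refine natDegree_mul_le.trans ?_
  rw [natDegree_pow, hd, natDegree_X_pow]
  omega

end Weight

section Core

variable {F : Type*} [Field F]

/-- The terms of the auxiliary polynomial have different degrees. -/
theorem sum_kl_ne_zero {g : F[X]} (hg : g ≠ 0) {n Q A J : ℕ}
    (hA : A ≤ Q) (hgd : g.natDegree = 2 * Q)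
    {r : Fin n × Fin J → F[X]} (hr : ∀ i, (r i).degree < A) {i₀ : Fin n × Fin J}
    (h₀ : r i₀ ≠ 0) :
    ∑ i, r i * g ^ i.1.1 * X ^ ((n - 1 - i.1.1) * Q) * X ^ (n * Q * i.2.1) ≠ 0 := by
  set t : Fin n × Fin J → F[X] := fun i =>
    r i * g ^ i.1.1 * X ^ ((n - 1 - i.1.1) * Q) * X ^ (n * Q * i.2.1) with ht
  have ht0 : ∀ i, t i ≠ 0 ↔ r i ≠ 0 := fun i => by
    rw [ht]
    simp [hg]
  have htd : ∀ i, r i ≠ 0 → (t i).natDegree = (r i).natDegree + i.1.1 * (2 * Q) +
      (n - 1 - i.1.1) * Q + n * Q * i.2.1 := fun i hi => by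
    rw [ht]
    simp only
    rw [natDegree_mul (mul_ne_zero (mul_ne_zero hi (pow_ne_zero _ hg))
      (pow_ne_zero _ X_ne_zero)) (pow_ne_zero _ X_ne_zero),
      natDegree_mul (mul_ne_zero hi (pow_ne_zero _ hg)) (pow_ne_zero _ X_ne_zero),
      natDegree_mul hi (pow_ne_zero _ hg), natDegree_pow, natDegree_X_pow, natDegree_X_pow, hgd]
  have hrd : ∀ i, r i ≠ 0 → (r i).natDegree + 1 ≤ A := fun i hi => by
    have := hr i
    rw [degree_eq_natDegree hi] at this
    exact_mod_cast this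
  have hdis : Set.Pairwise {i | i ∈ (univ : Finset (Fin n × Fin J)) ∧ t i ≠ 0}
      (Function.onFun Ne (degree ∘ t)) := by
    intro i hi i' hi' hne hd
    apply hne
    have hi1 := (ht0 i).1 hi.2
    have hi1' := (ht0 i').1 hi'.2
    have hd' : (t i).natDegree = (t i').natDegree := natDegree_eq_of_degree_eq hd
    rw [htd i hi1, htd i' hi1'] at hd'
    have e1 := hrd i hi1
    have e2 := hrd i' hi1'
    have hi2 := i.1.2
    have hi2' := i'.1.2
    have c1 : ((n - 1 - i.1.1 : ℕ) : ℤ) = n - 1 - i.1.1 := by omega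
    have c2 : ((n - 1 - i'.1.1 : ℕ) : ℤ) = n - 1 - i'.1.1 := by omega
    have key : (Q : ℤ) * ((i.1.1 : ℤ) + n * i.2.1 - (i'.1.1 + n * i'.2.1)) =
        (r i').natDegree - (r i).natDegree := by
      have h1 : ((r i).natDegree : ℤ) + i.1.1 * (2 * Q) + ((n - 1 - i.1.1 : ℕ) : ℤ) * Q +
          n * Q * i.2.1 = (r i').natDegree + i'.1.1 * (2 * Q) +
            ((n - 1 - i'.1.1 : ℕ) : ℤ) * Q + n * Q * i'.2.1 := by exact_mod_cast hd'
      rw [c1, c2] at h1
      linear_combination h1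
    have hn' : (0 : ℤ) < n := by omega
    have hz : (i.1.1 : ℤ) + n * i.2.1 - (i'.1.1 + n * i'.2.1) = 0 := by
      refine eq_zero_of_mul_lt (q := Q) ?_ ?_
      · rw [key]
        omega
      · rw [key]
        omega
    have h5 : (n : ℤ) ∣ (i.1.1 : ℤ) - i'.1.1 := ⟨i'.2.1 - i.2.1, by linear_combination hz⟩
    have h6 : (i.1.1 : ℤ) - i'.1.1 = 0 := by
      refine Int.eq_zero_of_abs_lt_dvd h5 ?_
      rw [abs_lt]
      omega
    have h7 : (n : ℤ) * (i.2.1 - i'.2.1) = 0 := by linear_combination hz - h6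
    have h8 : (i.2.1 : ℤ) - i'.2.1 = 0 := (mul_eq_zero.1 h7).resolve_left hn'.ne'
    exact Prod.ext (Fin.ext (by omega)) (Fin.ext (by omega))
  intro h0
  have h1 := degree_sum_eq_of_disjoint t univ hdis
  have h2 : (∑ i, t i) = 0 := h0
  rw [h2, degree_zero] at h1
  have h3 : degree (t i₀) ≤ univ.sup fun i => degree (t i) :=
    Finset.le_sup (f := fun i => degree (t i)) (mem_univ i₀)
  rw [← h1, le_bot_iff, degree_eq_bot] at h3
  exact (ht0 i₀).2 h₀ h3

/-- The polynomial of the systems of linear equations. -/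
noncomputable def GG (H M : F[X][X]) {n A J : ℕ} (r : Fin n × Fin J → degreeLT F A) :
    F[X][X] :=
  ∑ i : Fin n × Fin J, C (X ^ i.2.1) * DK (r i : F[X]) * H ^ i.1.1 * M ^ (n - 1 - i.1.1)

/-- The `k`-th system of linear equations. -/
noncomputable def TK (H M : F[X][X]) (n A J : ℕ) (k : ℕ) :
    (Fin n × Fin J → degreeLT F A) →ₗ[F] F[X] where
  toFun r := (GG H M r).coeff k
  map_add' r s := by
    rw [← coeff_add]
    congr 1
    rw [GG, GG, GG, ← Finset.sum_add_distrib]
    refine Finset.sum_congr rfl fun i _ => ?_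
    rw [Pi.add_apply, Submodule.coe_add, map_add]
    ring
  map_smul' c r := by
    rw [RingHom.id_apply, smul_eq_C_mul, ← coeff_C_mul]
    congr 1
    rw [GG, GG, Finset.mul_sum]
    refine Finset.sum_congr rfl fun i _ => ?_
    rw [Pi.smul_apply, Submodule.coe_smul, smul_eq_C_mul, map_mul, DK_C]
    ring

theorem TK_mem {H M : F[X][X]} {n A J : ℕ} (hH : Wt 2 0 H) (hM : Wt 2 0 M) {k l : ℕ}
    (hk : k < l) (r : Fin n × Fin J → degreeLT F A) :
    TK H M n A J k r ∈ degreeLT F (A + l * 2 + J) := by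
  have h0 : TK H M n A J k r =
      ∑ i : Fin n × Fin J, (C (X ^ i.2.1) * DK (r i : F[X]) * H ^ i.1.1 *
        M ^ (n - 1 - i.1.1)).coeff k := by
    change (GG H M r).coeff k = _
    rw [GG, finsetSum_coeff]
  rw [h0]
  refine Submodule.sum_mem _ fun i _ => ?_
  rw [mem_degreeLT]
  rcases eq_or_ne (r i : F[X]) 0 with hr0 | hr0
  · rw [hr0, map_zero, mul_zero, zero_mul, zero_mul, coeff_zero, degree_zero]
    exact WithBot.bot_lt_coe _
  have hr1 := mem_degreeLT.1 (r i).2
  rw [degree_eq_natDegree hr0] at hr1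
  have hr2 : (r i : F[X]).natDegree < A := by exact_mod_cast hr1
  have w1 : Wt 2 i.2.1 (C (X ^ i.2.1) : F[X][X]) := wt_C (by rw [natDegree_X_pow])
  have w2 : Wt 2 (r i : F[X]).natDegree (DK (r i : F[X])) := wt_DK _
  have w4 := (((w1.mul w2).mul (hH.pow i.1.1)).mul (hM.pow (n - 1 - i.1.1))) k
  refine lt_of_le_of_lt degree_le_natDegree ?_
  have h2 := i.2.2
  exact_mod_cast lt_of_le_of_lt w4 (by omega)

theorem exists_ne_zero_kl {H M : F[X][X]} {n l A J : ℕ} (hH : Wt 2 0 H) (hM : Wt 2 0 M)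
    (hlt : l * (A + l * 2 + J) < n * J * A) :
    ∃ r : Fin n × Fin J → degreeLT F A, r ≠ 0 ∧ ∀ k < l, (GG H M r).coeff k = 0 := by
  let Φ : (Fin n × Fin J → degreeLT F A) →ₗ[F]
      (Fin l → degreeLT F (A + l * 2 + J)) :=
    LinearMap.pi fun k => (TK H M n A J k.1).codRestrict _ (TK_mem hH hM k.2)
  have h1 : Module.finrank F (Fin l → degreeLT F (A + l * 2 + J)) <
      Module.finrank F (Fin n × Fin J → degreeLT F A) := by
    rw [Module.finrank_pi_fintype, Module.finrank_pi_fintype]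
    simp only [finrank_degreeLT, Finset.sum_const, Finset.card_univ, Fintype.card_prod,
      Fintype.card_fin, smul_eq_mul]
    exact hlt
  obtain ⟨r, hr, hr0⟩ := (Submodule.ne_bot_iff _).1 (Φ.ker_ne_bot_of_finrank_lt h1)
  refine ⟨r, hr0, fun k hk => ?_⟩
  have h2 := congrFun (LinearMap.mem_ker.1 hr) ⟨k, hk⟩
  exact congrArg Subtype.val h2

/-- **Stepanov's method**: the number of the `x ≠ 0` with `G(x) = c x ^ Q`. -/
theorem card_mul_le_kl [Fintype F] {p : ℕ} [Fact p.Prime] [CharP F p] {a b : F} (ha : a ≠ 0)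
    {s l A J : ℕ} (hq : p * p ^ s = Fintype.card F)
    (hA : A ≤ p ^ s) (hl : l ≤ Fintype.card F)
    (hlt : l * (A + l * 2 + J) < p * J * A) {c : F}
    (S : Finset F) (hS : ∀ x ∈ S, x ≠ 0 ∧ (GK p a b s).eval x = x ^ p ^ s * c) :
    S.card * l ≤ (p - 1) * (2 * p ^ s) + A + Fintype.card F * (J - 1) := by
  classical
  set g := GK p a b s with hg
  have hgd : g.natDegree = 2 * p ^ s := natDegree_GK ha s
  have hg0 : g ≠ 0 := by
    intro h
    rw [h, natDegree_zero] at hgd
    have : 0 < p ^ s := Nat.pow_pos (Fact.out : p.Prime).pos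
    omega
  set M : F[X][X] := eK F ^ p ^ s with hM
  set H : F[X][X] := C (C c) * M + NK p a b s with hH
  have wM : Wt 2 0 M := wt_eK.pow _
  have wH : Wt 2 0 H := ((wt_C (by rw [natDegree_C]) : Wt 2 0 (C (C c))).mul wM).add (wt_NK a b s)
  obtain ⟨r, hr0, hr⟩ := exists_ne_zero_kl wH wM hlt
  set R : F[X] := ∑ i : Fin p × Fin J,
    (r i : F[X]) * g ^ i.1.1 * X ^ ((p - 1 - i.1.1) * p ^ s) * X ^ (p * p ^ s * i.2.1) with hR
  obtain ⟨i₀, hi₀⟩ := Function.ne_iff.1 hr0
  have hi₀' : (r i₀ : F[X]) ≠ 0 := fun h0 => hi₀ (Subtype.ext h0)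
  have hR0 : R ≠ 0 := sum_kl_ne_zero (r := fun i => (r i : F[X])) hg0 hA hgd
    (fun i => mem_degreeLT.1 (r i).2) hi₀'
  have hmult : ∀ x ∈ S, l ≤ R.rootMultiplicity x := by
    intro x hx
    obtain ⟨hx0, hxc⟩ := hS x hx
    refine le_rootMultiplicity hR0 x l fun k hk => ?_
    have hMx : (DK (X ^ p ^ s : F[X])).map (evalRingHom x) =
        C (x ^ p ^ s) * M.map (evalRingHom x) := by
      rw [map_pow, DK_X, hM, eK]
      simp only [Polynomial.map_pow, Polynomial.map_add, Polynomial.map_mul, map_C, map_X,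
        Polynomial.map_one, coe_evalRingHom, eval_X, C_pow]
      rw [← mul_pow]
      ring
    have hGx : (DK g).map (evalRingHom x) = C (x ^ p ^ s) * H.map (evalRingHom x) := by
      rw [hg, DK_GK, hH, Polynomial.map_add, Polynomial.map_mul, Polynomial.map_mul,
        Polynomial.map_add, Polynomial.map_mul]
      simp only [map_C, coe_evalRingHom, eval_pow, eval_X, eval_C]
      rw [← hg, hxc, C_mul]
      ring
    have h1 : ∀ i : Fin p × Fin J, (taylor x ((r i : F[X]) * g ^ i.1.1 *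
        X ^ ((p - 1 - i.1.1) * p ^ s) * X ^ (p * p ^ s * i.2.1))).coeff k * (x ^ 2) ^ k =
        (x ^ p ^ s) ^ (p - 1) * ((C (X ^ i.2.1) * DK (r i : F[X]) * H ^ i.1.1 *
          M ^ (p - 1 - i.1.1)).map (evalRingHom x)).coeff k := fun i => by
      rw [hq, coeff_taylor_mul x _ _ k (by omega), ← taylor_coeff, mul_right_comm,
        ← coeff_map_DK, map_mul, map_mul, map_pow, mul_comm (p - 1 - i.1.1) (p ^ s), pow_mul,
        map_pow, Polynomial.map_mul, Polynomial.map_mul, Polynomial.map_pow,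
        Polynomial.map_pow, hMx, hGx, Polynomial.map_mul, Polynomial.map_mul,
        Polynomial.map_mul, Polynomial.map_pow, Polynomial.map_pow, map_C, coe_evalRingHom,
        eval_pow, eval_X, mul_pow, mul_pow, ← coeff_C_mul, mul_comm _ (x ^ i.2.1),
        ← coeff_C_mul]
      congr 1
      have e1 : ((C (x ^ p ^ s) : F[X])) ^ (p - 1) =
          (C (x ^ p ^ s)) ^ i.1.1 * (C (x ^ p ^ s)) ^ (p - 1 - i.1.1) := by
        rw [← pow_add]
        congr 1
        have := i.1.2
        omega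
      rw [C_pow (n := p - 1), e1]
      simp only [hM, Polynomial.map_pow]
      ring
    have h2 := congrArg (eval x) (hr k hk)
    rw [eval_zero, ← coe_evalRingHom, ← coeff_map, GG, Polynomial.map_sum,
      finsetSum_coeff] at h2
    have h3 : (taylor x R).coeff k * (x ^ 2) ^ k = 0 := by
      rw [hR, map_sum, finsetSum_coeff, Finset.sum_mul, Finset.sum_congr rfl fun i _ => h1 i,
        ← Finset.mul_sum, h2, mul_zero]
    exact (mul_eq_zero.1 h3).resolve_right (pow_ne_zero _ (pow_ne_zero _ hx0))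
  have h1 : S.card * l ≤ R.natDegree := by
    calc S.card * l = ∑ x ∈ S, l := by rw [Finset.sum_const, smul_eq_mul]
      _ ≤ ∑ x ∈ S, R.roots.count x := Finset.sum_le_sum fun x hx => by
        rw [count_roots]
        exact hmult x hx
      _ ≤ R.roots.card := by
        rw [← Multiset.toFinset_sum_count_eq R.roots]
        have h5 : ∑ x ∈ S, R.roots.count x =
            ∑ x ∈ S.filter (· ∈ R.roots.toFinset), R.roots.count x := by
          rw [Finset.sum_filter]
          refine Finset.sum_congr rfl fun x _ => ?_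
          split_ifs with h6
          · rfl
          · rw [Multiset.mem_toFinset] at h6
            exact Multiset.count_eq_zero_of_notMem h6
        rw [h5]
        exact Finset.sum_le_sum_of_subset fun x hx => (Finset.mem_filter.1 hx).2
      _ ≤ R.natDegree := card_roots' R
  refine h1.trans (natDegree_sum_le_of_forall_le _ _ fun i _ => ?_)
  rcases eq_or_ne (r i : F[X]) 0 with h0 | h0
  · rw [h0, zero_mul, zero_mul, zero_mul, natDegree_zero]
    exact Nat.zero_le _
  have hr1 := mem_degreeLT.1 (r i).2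
  rw [degree_eq_natDegree h0] at hr1
  have hr2 : (r i : F[X]).natDegree < A := by exact_mod_cast hr1
  rw [natDegree_mul (mul_ne_zero (mul_ne_zero h0 (pow_ne_zero _ hg0))
    (pow_ne_zero _ X_ne_zero)) (pow_ne_zero _ X_ne_zero),
    natDegree_mul (mul_ne_zero h0 (pow_ne_zero _ hg0)) (pow_ne_zero _ X_ne_zero),
    natDegree_mul h0 (pow_ne_zero _ hg0), natDegree_pow, natDegree_X_pow, natDegree_X_pow,
    hgd, hq]
  have e1 := i.1.2
  have e2 := i.2.2
  have e3 : i.1.1 * (2 * p ^ s) + (p - 1 - i.1.1) * p ^ s ≤ (p - 1) * (2 * p ^ s) := by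
    have e5 : (p - 1) * (2 * p ^ s) = i.1.1 * (2 * p ^ s) + (p - 1 - i.1.1) * (2 * p ^ s) := by
      rw [← add_mul]
      congr 1
      omega
    rw [e5]
    exact Nat.add_le_add_left (Nat.mul_le_mul_left _ (by omega)) _
  have e4 : Fintype.card F * i.2.1 ≤ Fintype.card F * (J - 1) :=
    Nat.mul_le_mul_left _ (by omega)
  omega

end Core

/-- **Stepanov's bound for Kloosterman sums**. -/
theorem stepanov_kl {p : ℕ} (hp : p.Prime) : ∃ K : ℝ, 0 < K ∧
    ∀ (F : Type u) [Field F] [Fintype F] [CharP F p] (a b c : F) (r : ℕ), a ≠ 0 →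
      Fintype.card F = p ^ r →
      (Nat.card {x : F // x ≠ 0 ∧ ∑ s ∈ range r, (a * x + b * x⁻¹) ^ p ^ s = c} : ℝ) ≤
        Fintype.card F / p + K * √(Fintype.card F) := by
  refine ⟨3 * (2 : ℕ) + 2 * (4 * (2 : ℕ) + 5) + 2 * (p + 1) * ((2 : ℕ) + 1), by positivity,
    fun F _ _ _ a b c r ha hr => ?_⟩
  classical
  have : Fact p.Prime := ⟨hp⟩
  set q := Fintype.card F with hqdef
  have hq1 : 1 < q := Fintype.one_lt_card
  set S : Finset F := univ.filter fun y => y ≠ 0 ∧
    ∑ s ∈ range r, (a * y + b * y⁻¹) ^ p ^ s = c with hS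
  have hcard : Nat.card {y : F // y ≠ 0 ∧ ∑ s ∈ range r, (a * y + b * y⁻¹) ^ p ^ s = c} =
      S.card := by
    rw [Nat.card_eq_fintype_card, Fintype.card_subtype]
  rw [hcard]
  have hSq : S.card ≤ q := by
    rw [hqdef, ← Finset.card_univ]
    exact Finset.card_le_card (Finset.filter_subset _ _)
  obtain ⟨r, rfl⟩ : ∃ r', r = r' + 1 := by
    rcases Nat.eq_zero_or_pos r with h | h
    · rw [h, pow_zero] at hr
      omega
    · exact ⟨r - 1, by omega⟩
  have hqQ : p * p ^ r = q := by rw [hr, pow_succ']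
  refine bound_of hp.one_lt hq1 hSq fun A t hA htq hlt => ?_
  have hAQ : A + 2 ≤ p ^ r := by
    have h1 : p * (A + 2) ≤ p * p ^ r := by
      rw [hqQ, mul_add]
      exact hA
    exact Nat.le_of_mul_le_mul_left h1 hp.pos
  have main := card_mul_le_kl (F := F) (p := p) (a := a) (b := b) ha (s := r)
    (l := p * t) (A := A) (J := t + (4 * 2 + 5)) (by rw [hqQ]) (by omega) htq hlt (c := c) S
    (fun y hy => by
      obtain ⟨-, hy0, hyc⟩ := Finset.mem_filter.1 hy
      refine ⟨hy0, ?_⟩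
      rw [GK, eval_finsetSum, ← hyc, Finset.mul_sum]
      refine Finset.sum_congr rfl fun s hs => ?_
      rw [Finset.mem_range] at hs
      have hle : p ^ s ≤ p ^ r := Nat.pow_le_pow_right hp.pos (by omega)
      rw [eval_mul, eval_pow, eval_pow, eval_add, eval_mul, eval_pow, eval_C, eval_C, eval_X,
        show a * y ^ 2 + b = y * (a * y + b * y⁻¹) by field_simp, mul_pow,
        mul_right_comm, ← pow_add, Nat.add_sub_cancel' hle])
  rw [← hqdef] at main
  have e1 : (p - 1) * (2 * p ^ r) ≤ q * 2 := by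
    rw [← hqQ]
    calc (p - 1) * (2 * p ^ r) ≤ p * (2 * p ^ r) := Nat.mul_le_mul_right _ (by omega)
      _ = p * p ^ r * 2 := by ring
  have e2 : q * (t + (4 * 2 + 5) - 1) + q = q * (t + (4 * 2 + 5)) := by
    rw [show t + (4 * 2 + 5) = (t + (4 * 2 + 5) - 1) + 1 by omega]
    rw [Nat.add_sub_cancel]
    ring
  have e3 : A ≤ q := by
    have : A ≤ p * A := Nat.le_mul_of_pos_left _ hp.pos
    omega
  omega

/-- `|K(a, b)| ≤ C √q` with a constant which depends only on the characteristic. -/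
theorem kloosterman_le {p : ℕ} (hp : p.Prime) : ∃ K : ℝ, 0 < K ∧
    ∀ (F : Type u) [Field F] [Fintype F] [DecidableEq F] [CharP F p] (a b : F)
      (ψ : AddChar F ℂ), a ≠ 0 → ψ ≠ 1 →
      ‖∑ x ∈ univ.erase (0 : F), ψ (a * x + b * x⁻¹)‖ ≤ K * √(Fintype.card F) := by
  obtain ⟨K, hK0, hK⟩ := stepanov_kl.{u} hp
  have hp0 : (0 : ℝ) < p := by exact_mod_cast hp.pos
  refine ⟨2 * p * K + 1, by positivity, fun F _ _ _ _ a b ψ ha hψ => ?_⟩
  have : Fact p.Prime := ⟨hp⟩
  let _ : Algebra (ZMod p) F := ZMod.algebra F p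
  obtain ⟨β, hβ⟩ := exists_eq_trace (p := p) ψ
  have hβ0 : β ≠ 0 := by
    rintro rfl
    apply hψ
    ext y
    rw [hβ y, zero_mul, map_zero, AddChar.map_zero_eq_one, AddChar.one_apply]
  set q := Fintype.card F with hqdef
  set x : ℝ := √(q : ℝ) with hx
  have hx1 : 1 ≤ x := by
    rw [hx, Real.one_le_sqrt]
    exact_mod_cast (Fintype.one_lt_card (α := F)).le
  set r := Module.finrank (ZMod p) F with hr
  have hqr : q = p ^ r := by
    rw [hqdef, Module.card_eq_pow_finrank (K := ZMod p) (V := F), ZMod.card]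
  set N : ZMod p → ℕ := fun c => #{y ∈ univ.erase (0 : F) |
    Algebra.trace (ZMod p) F (β * (a * y + b * y⁻¹)) = c} with hN
  have hNle : ∀ c : ZMod p, (N c : ℝ) ≤ q / p + K * x := fun c => by
    have h1 := hK F (β * a) (β * b) (algebraMap (ZMod p) F c) r (mul_ne_zero hβ0 ha) hqr
    rw [Nat.card_eq_fintype_card, Fintype.card_subtype] at h1
    refine le_of_eq_of_le ?_ h1
    rw [hN]
    simp only
    congr 2
    ext y
    rw [Finset.mem_filter, Finset.mem_filter, Finset.mem_erase]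
    have h2 : ∑ s ∈ range r, (β * a * y + β * b * y⁻¹) ^ p ^ s =
        algebraMap (ZMod p) F (Algebra.trace (ZMod p) F (β * (a * y + b * y⁻¹))) := by
      rw [FiniteField.algebraMap_trace_eq_sum_pow, Nat.card_zmod, mul_add, ← mul_assoc,
        ← mul_assoc]
    rw [h2, (algebraMap (ZMod p) F).injective.eq_iff]
    tauto
  have hsum : ∑ c : ZMod p, ZMod.stdAddChar (N := p) c = 0 := by
    have h1 : ZMod.stdAddChar (N := p) ≠ 0 := by
      intro h
      have h3 : ZMod.stdAddChar (N := p) (1 : ZMod p) = 1 := by rw [h, AddChar.zero_apply]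
      have h5 : (1 : ZMod p) = 0 :=
        ZMod.injective_stdAddChar (N := p) (by rw [h3, AddChar.map_zero_eq_one])
      exact one_ne_zero h5
    exact AddChar.sum_eq_zero_of_ne_one (by exact h1)
  have hS1 : ∑ y ∈ univ.erase (0 : F), ψ (a * y + b * y⁻¹) =
      ∑ c : ZMod p, ZMod.stdAddChar (N := p) c * N c := by
    rw [← Finset.sum_fiberwise (s := univ.erase (0 : F))
      (g := fun y : F => Algebra.trace (ZMod p) F (β * (a * y + b * y⁻¹)))]
    refine Finset.sum_congr rfl fun c _ => ?_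
    rw [hN]
    simp only
    rw [mul_comm, ← nsmul_eq_mul, ← Finset.sum_const]
    refine Finset.sum_congr rfl fun y hy => ?_
    rw [hβ, (Finset.mem_filter.1 hy).2]
  have hS2 : ∑ y ∈ univ.erase (0 : F), ψ (a * y + b * y⁻¹) =
      ∑ c : ZMod p, ZMod.stdAddChar (N := p) c * ((N c : ℝ) - q / p : ℝ) := by
    have h1 : ∑ c : ZMod p, ZMod.stdAddChar (N := p) c * ((q : ℝ) / p : ℝ) = 0 := by
      rw [← Finset.sum_mul, hsum, zero_mul]
    rw [hS1, ← sub_zero (∑ c : ZMod p, ZMod.stdAddChar (N := p) c * (N c : ℂ)), ← h1,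
      ← Finset.sum_sub_distrib]
    refine Finset.sum_congr rfl fun a _ => ?_
    push_cast
    ring
  have hsumN : ∑ c : ZMod p, (N c : ℝ) = q - 1 := by
    have h1 : ∑ c : ZMod p, N c = q - 1 := by
      rw [hqdef, ← Finset.card_univ (α := F), ← Finset.card_erase_of_mem (Finset.mem_univ 0)]
      exact (Finset.card_eq_sum_card_fiberwise (f := fun y : F =>
        Algebra.trace (ZMod p) F (β * (a * y + b * y⁻¹))) (t := univ)
          (fun _ _ => Finset.mem_univ _)).symm
    have h2 : 1 ≤ q := Fintype.card_pos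
    rw [← Nat.cast_sum, h1, Nat.cast_sub h2, Nat.cast_one]
  calc ‖∑ y ∈ univ.erase (0 : F), ψ (a * y + b * y⁻¹)‖ =
      ‖∑ c : ZMod p, ZMod.stdAddChar (N := p) c * ((N c : ℝ) - q / p : ℝ)‖ := by rw [hS2]
    _ ≤ ∑ c : ZMod p, ‖ZMod.stdAddChar (N := p) c * ((N c : ℝ) - q / p : ℝ)‖ := norm_sum_le _ _
    _ ≤ ∑ c : ZMod p, (2 * (K * x) - ((N c : ℝ) - q / p)) := by
      refine Finset.sum_le_sum fun c _ => ?_
      rw [norm_mul, AddChar.norm_apply, one_mul, Complex.norm_real, Real.norm_eq_abs]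
      have h1 := hNle c
      have h2 : 0 ≤ K * x := by positivity
      rw [abs_le]
      constructor <;> linarith
    _ = p * (2 * (K * x) + q / p) - ∑ c : ZMod p, (N c : ℝ) := by
      rw [Finset.sum_sub_distrib, Finset.sum_sub_distrib, Finset.sum_const, Finset.sum_const,
        Finset.card_univ, ZMod.card, nsmul_eq_mul, nsmul_eq_mul]
      ring
    _ = 2 * p * K * x + 1 := by
      rw [hsumN]
      field_simp
      ring
    _ ≤ (2 * p * K + 1) * x := by linarith

end Fermat.Agent.Cor.WeilC
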